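import Mathlib
import Fermat.Prelude.Def_FLTPrelim_GaloisRep
import Fermat.Prelude.Def_FLTPrelim_Modularity
import Fermat.Prelude.Def_FLTPrelim_Ramification
import Fermat.Prelude.Def_EllipticCurve_FrobeniusTrace
import Fermat.Agent.MUL.Orig.Lib.Cyclo.ModCharGlobal
import Fermat.Agent.MUL.Orig.Lib.Frobenius.Exists
import Fermat.Agent.MUL.Lib.FrobDensity.Main
import Fermat.Agent.MUL.Lib.Torsion.Card
import Fermat.Agent.MUL.Orig.S13.OpenStab
import Fermat.Agent.MUL.Lib.FrobTrace.CharEqGen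
import Fermat.Agent.MUL.Orig.Lib.FrobTrace.Residue
import Fermat.Agent.MUL.Lib.VarChange.BaseChange
import Fermat.Agent.MUL.Orig.L.Interfaces
import Fermat.Agent.MUL.Lib.FrobTrace.EllRed
import Fermat.Agent.MUL.Lib.Kronecker.NormProd
import Fermat.Agent.MUL.Lib.Kronecker.ConjGens
import Fermat.Agent.MUL.S20.Cosets.Count
import Fermat.Agent.MUL.Orig.F3.Galois.NormDesc
import Fermat.Agent.MUL.Lib.Deuring.Basic
import Fermat.Agent.MUL.Orig.S24.Residue
import Fermat.Agent.MUL.Orig.F3.I2.RootClass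
import Fermat.Agent.MUL.F3.Dict.ConstHPD
import Fermat.Agent.MUL.Lib.HeckeInputs.Qbar
import Fermat.Agent.MUL.S24.GlobalDatum
import Fermat.Agent.MUL.E.S15.EtaNorm
import Fermat.Agent.MUL.Lib.Kronecker.Prod
import Fermat.Agent.MUL.Lib.BadRed.Mod.ALDegeneracy
import Fermat.Agent.MUL.R38.P.NormRed
import Fermat.Agent.MUL.Lib.BadRed.Mod.GaussSetupFinal
import Fermat.Agent.MUL.R38.Spine
import Fermat.Agent.MUL.Orig.Lib.Frey.Basic
import Fermat.Agent.MUL.E.S15.HeckeRedMod
import Fermat.Agent.MUL.Lib.RedTr.ModularCompat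
import Fermat.Agent.MUL.Lib.BadRed.Mod.OldSep
import Fermat.Agent.MUL.Lib.BadRed.Mod.SSDeg
import Fermat.Agent.MUL.Lib.BadRed.Mod.UCuspDegFinal
import Fermat.Agent.MUL.Lib.BadRed.Mod.ValZero
import Fermat.Agent.MUL.Lib.BadRed.Mod.UParamW
import Fermat.Agent.MUL.Lib.FF.RedValue
import Fermat.Agent.MUL.Lib.GoodRed.ModularGenus
import Fermat.Agent.MUL.Lib.HeckeInputs.FundId
import Fermat.Agent.MUL.Orig.F3.I2.Deg.Push
import Fermat.Agent.MUL.Lib.RR.OfModularCFinal
import Fermat.Agent.MUL.R38.P.Eps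
import Fermat.Agent.MUL.R38.W.Sym

section MergeWrap_Lib_FrobQbar_NonEisCore -- from Lib/FrobQbar/NonEisCore.lean

/-!
# Non-Eisenstein lemma: the abstract core

`G` acts on a finite abelian group `V` killed by the odd prime `p`, with more than `p` elements,
and `χ : G →* (ZMod n)ˣ` with `p ∣ n`.  If

* every element of `ker χ` acts unipotently (`(g - 1)² = 0`), and
* every value of `χ` is taken at an element `τ` satisfying a quadratic relation
  `τ² - a τ + l = 0` on `V` with `l ≡ χ(τ) mod n`,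
* some `c` has `χ c = -1`,

then `V` is not irreducible.  No determinant is needed.
-/

set_option autoImplicit false

namespace Fermat.Agent.FrobQbar

section Core

variable {G V : Type*} [Group G] [AddCommGroup V] [DistribMulAction G V]

/-- If `(g - 1)² = 0` on `V` then `g ^ k = 1 + k (g - 1)` on `V`. -/
theorem nec_pow_smul (g : G) (h : ∀ v : V, g • g • v - (2 : ℤ) • g • v + v = 0) (k : ℕ) (v : V) :
    g ^ k • v = v + k • (g • v - v) := by
  induction k with
  | zero => simp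
  | succ k ih =>
    have h1 : g • g • v = (2 : ℤ) • g • v - v := by
      have := h v
      rw [← sub_eq_zero, ← this]
      abel
    rw [pow_succ', mul_smul, ih, smul_add, smul_comm g k, smul_sub, h1, succ_nsmul, two_smul]
    abel_nf

/-- If `(τ - 1)² = 0` on `V` and `g` acts as a power of `τ`, then `(g - 1)² = 0` on `V`. -/
theorem nec_unip_of_pow (τ g : G) (h : ∀ v : V, τ • τ • v - (2 : ℤ) • τ • v + v = 0) (j : ℕ)
    (hg : ∀ v : V, g • v = τ ^ j • v) (v : V) : g • g • v - (2 : ℤ) • g • v + v = 0 := by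
  have hN : ∀ w : V, τ • (τ • w - w) - (τ • w - w) = 0 := by
    intro w
    have := h w
    rw [← this, smul_sub, two_smul]
    abel
  have e1 : ∀ w : V, g • w = w + j • (τ • w - w) := fun w => by rw [hg, nec_pow_smul τ h j w]
  have e2 : g • (τ • v - v) = τ • v - v := by
    rw [e1, hN, smul_zero, add_zero]
  rw [e1 v, smul_add, smul_comm g j, e2, e1 v, two_smul]
  abel

/-- An integer multiple of `p` kills `V`. -/
theorem nec_zsmul_eq_zero {p : ℕ} (hpV : ∀ v : V, p • v = 0) {z : ℤ} (hz : (p : ℤ) ∣ z) (v : V) :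
    z • v = 0 := by
  obtain ⟨k, rfl⟩ := hz
  rw [mul_comm, mul_smul, natCast_zsmul, hpV, smul_zero]

/-- An integer prime to `p` acts injectively on `V`. -/
theorem nec_eq_zero_of_zsmul {p : ℕ} (hp : p.Prime) (hpV : ∀ v : V, p • v = 0) {z : ℤ}
    (hz : ¬ (p : ℤ) ∣ z) {v : V} (hv : z • v = 0) : v = 0 := by
  have hcop : IsCoprime z (p : ℤ) :=
    ((Nat.prime_iff_prime_int.mp hp).coprime_iff_not_dvd.mpr hz).symm
  obtain ⟨s, t, hst⟩ := hcop
  have : ((s * z + t * p : ℤ)) • v = 0 := by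
    rw [add_smul, mul_smul, hv, smul_zero, mul_smul, natCast_zsmul, hpV, smul_zero, add_zero]
  rwa [hst, one_smul] at this

/-- A group all of whose elements act with `g ^ p = 1` on the finite `p`-group `V ≠ 0` fixes a
nonzero vector. -/
theorem nec_exists_fixed {p : ℕ} [Fact p.Prime] [Finite V] (hpV : p ∣ Nat.card V)
    (H : Subgroup G) (hH : ∀ g ∈ H, ∀ v : V, g ^ p • v = v) :
    ∃ v : V, v ≠ 0 ∧ ∀ g ∈ H, g • v = v := by
  classical
  let f : G →* Equiv.Perm V := MulAction.toPermHom G V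
  let K : Subgroup (Equiv.Perm V) := H.map f
  have hK : IsPGroup p K := by
    rintro ⟨k, g, hg, rfl⟩
    refine ⟨1, ?_⟩
    apply Subtype.ext
    ext v
    rw [pow_one]
    show ((f g) ^ p) v = v
    rw [← map_pow]
    exact hH g hg v
  have h0 : (0 : V) ∈ MulAction.fixedPoints K V := by
    rintro ⟨k, g, hg, rfl⟩
    show g • (0 : V) = 0
    exact smul_zero g
  obtain ⟨b, hb, hb0⟩ := hK.exists_fixed_point_of_prime_dvd_card_of_fixed_point V hpV h0
  refine ⟨b, fun h => hb0 h.symm, fun g hg => ?_⟩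
  exact hb ⟨f g, g, hg, rfl⟩

/-- **Core of the non-Eisenstein lemma.** -/
theorem nec_core {p n : ℕ} [Fact p.Prime] (hp2 : p ≠ 2) (hpn : p ∣ n) [NeZero n]
    (hpV : ∀ v : V, p • v = 0) [Finite V] (hcard : p < Nat.card V) (hdvd : p ∣ Nat.card V)
    (χ : G →* (ZMod n)ˣ) (c : G) (hc : χ c = -1)
    (h1 : ∀ g : G, χ g = 1 → ∀ v : V, g • g • v - (2 : ℤ) • g • v + v = 0)
    (h2 : ∀ g : G, ∃ τ : G, χ τ = χ g ∧ ∃ a l : ℤ, (l : ZMod n) = ((χ τ : (ZMod n)ˣ) : ZMod n) ∧
      ∀ v : V, τ • τ • v - a • τ • v + l • v = 0)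
    (hirr : ∀ N : AddSubgroup V, (∀ g : G, ∀ v ∈ N, g • v ∈ N) → N = ⊥ ∨ N = ⊤) : False := by
  classical
  have hp : p.Prime := Fact.out
  -- nontriviality
  have hex : ∃ v : V, v ≠ 0 := by
    by_contra hne
    push Not at hne
    have : Subsingleton V := ⟨fun a b => by rw [hne a, hne b]⟩
    have h1' : Nat.card V = 1 := Nat.card_unique
    have := hp.one_lt
    omega
  -- Step A: `ker χ` acts trivially
  have hker : ∀ g : G, χ g = 1 → ∀ v : V, g • v = v := by
    have hH : ∀ g ∈ χ.ker, ∀ v : V, g ^ p • v = v := by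
      intro g hg v
      rw [nec_pow_smul g (h1 g (MonoidHom.mem_ker.mp hg)) p v, hpV, add_zero]
    obtain ⟨v₀, hv₀, hfix⟩ := nec_exists_fixed hdvd χ.ker hH
    let N : AddSubgroup V :=
      { carrier := {v | ∀ g ∈ χ.ker, g • v = v}
        add_mem' := fun {a b} ha hb g hg => by rw [smul_add, ha g hg, hb g hg]
        zero_mem' := fun g _ => smul_zero g
        neg_mem' := fun {a} ha g hg => by rw [smul_neg, ha g hg] }
    have hN : ∀ g : G, ∀ v ∈ N, g • v ∈ N := by
      intro σ v hv g hg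
      have hconj : σ⁻¹ * g * σ ∈ χ.ker := by
        rw [MonoidHom.mem_ker, map_mul, map_mul, map_inv, MonoidHom.mem_ker.mp hg, mul_one,
          inv_mul_cancel]
      have := hv _ hconj
      rw [mul_smul, mul_smul] at this
      have h3 := congrArg (fun w => σ • w) this
      simp only [smul_inv_smul] at h3
      exact h3
    rcases hirr N hN with hbot | htop
    · exfalso
      have : v₀ ∈ N := hfix
      rw [hbot, AddSubgroup.mem_bot] at this
      exact hv₀ this
    · intro g hg v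
      have : v ∈ N := by rw [htop]; exact AddSubgroup.mem_top v
      exact this g (MonoidHom.mem_ker.mpr hg)
  -- Step B
  have hsame : ∀ g h : G, χ g = χ h → ∀ v : V, g • v = h • v := by
    intro g h hgh v
    have : χ (h⁻¹ * g) = 1 := by rw [map_mul, map_inv, hgh, inv_mul_cancel]
    have h3 := hker _ this v
    rw [mul_smul] at h3
    have h4 := congrArg (fun w => h • w) h3
    simp only [smul_inv_smul] at h4
    exact h4
  -- Step C
  have hcomm : ∀ g h : G, ∀ v : V, g • h • v = h • g • v := by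
    intro g h v
    have := hsame (g * h) (h * g) (by rw [map_mul, map_mul, mul_comm]) v
    rwa [mul_smul, mul_smul] at this
  -- Step D: `c` acts as a sign
  have hcc : ∀ v : V, c • c • v = v := by
    intro v
    have : χ (c * c) = 1 := by rw [map_mul, hc]; simp
    have := hker _ this v
    rwa [mul_smul] at this
  have htwo : ∀ v : V, (2 : ℤ) • v = 0 → v = 0 := by
    intro v hv
    refine nec_eq_zero_of_zsmul hp hpV ?_ hv
    intro h
    have h' : p ∣ 2 := by exact_mod_cast h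
    have := (Nat.prime_dvd_prime_iff_eq hp Nat.prime_two).mp h'
    exact hp2 this
  obtain ⟨ε, hε, hcε⟩ : ∃ ε : ℤ, ε * ε = 1 ∧ ∀ v : V, c • v = ε • v := by
    let Vp : AddSubgroup V :=
      { carrier := {v | c • v = v}
        add_mem' := fun {a b} ha hb => by
          show c • (a + b) = a + b
          rw [smul_add, ha, hb]
        zero_mem' := smul_zero c
        neg_mem' := fun {a} ha => by
          show c • (-a) = -a
          rw [smul_neg, ha] }
    let Vm : AddSubgroup V :=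
      { carrier := {v | c • v = -v}
        add_mem' := fun {a b} ha hb => by
          show c • (a + b) = -(a + b)
          rw [smul_add, ha, hb, neg_add]
        zero_mem' := by
          show c • (0 : V) = -0
          rw [smul_zero, neg_zero]
        neg_mem' := fun {a} ha => by
          show c • (-a) = - -a
          rw [smul_neg, ha] }
    have hVp : ∀ g : G, ∀ v ∈ Vp, g • v ∈ Vp := by
      intro g v hv
      show c • g • v = g • v
      rw [hcomm c g v, hv]
    have hVm : ∀ g : G, ∀ v ∈ Vm, g • v ∈ Vm := by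
      intro g v hv
      show c • g • v = -(g • v)
      rw [hcomm c g v, hv, smul_neg]
    rcases hirr Vp hVp with hpbot | hptop
    · rcases hirr Vm hVm with hmbot | hmtop
      · exfalso
        obtain ⟨v, hv⟩ := hex
        have h1' : v + c • v ∈ Vp := by
          show c • (v + c • v) = v + c • v
          rw [smul_add, hcc, add_comm]
        have h2' : v - c • v ∈ Vm := by
          show c • (v - c • v) = -(v - c • v)
          rw [smul_sub, hcc, neg_sub]
        rw [hpbot, AddSubgroup.mem_bot] at h1'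
        rw [hmbot, AddSubgroup.mem_bot] at h2'
        apply hv
        apply htwo
        have : (2 : ℤ) • v = (v + c • v) + (v - c • v) := by
          rw [two_smul]; abel
        rw [this, h1', h2', add_zero]
      · refine ⟨-1, by norm_num, fun v => ?_⟩
        have : v ∈ Vm := by rw [hmtop]; exact AddSubgroup.mem_top v
        rw [neg_smul, one_smul]
        exact this
    · refine ⟨1, by norm_num, fun v => ?_⟩
      have : v ∈ Vp := by rw [hptop]; exact AddSubgroup.mem_top v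
      rw [one_smul]
      exact this
  -- Step E: every element acts as a scalar
  have hscal : ∀ g : G, ∃ m : ℤ, ∀ v : V, g • v = m • v := by
    intro g
    obtain ⟨τ₁, hτ₁, a₁, l₁, hl₁, rel₁⟩ := h2 g
    obtain ⟨τ₂, hτ₂, a₂, l₂, hl₂, rel₂⟩ := h2 (c * g)
    have e1 : ∀ v : V, τ₁ • v = g • v := hsame τ₁ g hτ₁
    have e2 : ∀ v : V, τ₂ • v = ε • g • v := by
      intro v
      rw [hsame τ₂ (c * g) hτ₂ v, mul_smul, hcε]
    have R1 : ∀ v : V, g • g • v - a₁ • g • v + l₁ • v = 0 := by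
      intro v
      have := rel₁ v
      rwa [e1, e1] at this
    have R2 : ∀ v : V, g • g • v - (a₂ * ε) • g • v + l₂ • v = 0 := by
      intro v
      have := rel₂ v
      rw [e2, e2, smul_comm g ε, ← mul_smul ε ε, hε, one_smul, ← mul_smul a₂ ε] at this
      exact this
    have R3 : ∀ v : V, (a₂ * ε - a₁) • g • v = (l₂ - l₁) • v := by
      intro v
      have h3 := R1 v
      have h4 := R2 v
      rw [sub_smul, sub_smul]
      have h5 : g • g • v - a₁ • g • v + l₁ • v - (g • g • v - (a₂ * ε) • g • v + l₂ • v) = 0 := by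
        rw [h3, h4, sub_zero]
      rw [← sub_eq_zero]
      rw [← h5]
      abel
    -- `l₂ - l₁` is prime to `p`
    have hd : ¬ (p : ℤ) ∣ (l₂ - l₁) := by
      intro hdvd'
      have hχ : χ (c * g) = - χ g := by rw [map_mul, hc, neg_one_mul]
      have hl₂' : (l₂ : ZMod n) = - (l₁ : ZMod n) := by
        rw [hl₂, hl₁, hτ₂, hτ₁, hχ, Units.val_neg]
      have hn : ((l₂ - l₁ : ℤ) : ZMod n) = -(2 * (l₁ : ZMod n)) := by
        push_cast
        rw [hl₂']
        ring
      have hcast := congrArg (ZMod.castHom hpn (ZMod p)) hn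
      rw [map_intCast, map_neg, map_mul, map_intCast, map_ofNat] at hcast
      have h0 : ((l₂ - l₁ : ℤ) : ZMod p) = 0 := (ZMod.intCast_zmod_eq_zero_iff_dvd _ _).mpr hdvd'
      rw [h0] at hcast
      have hunit : IsUnit (l₁ : ZMod p) := by
        have hu : IsUnit (l₁ : ZMod n) := by
          rw [hl₁]
          exact (χ τ₁).isUnit
        have := hu.map (ZMod.castHom hpn (ZMod p))
        rwa [map_intCast] at this
      have h2ne : (2 : ZMod p) ≠ 0 := by
        intro h
        have h' : ((2 : ℕ) : ZMod p) = 0 := by exact_mod_cast h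
        rw [ZMod.natCast_eq_zero_iff] at h'
        exact hp2 ((Nat.prime_dvd_prime_iff_eq hp Nat.prime_two).mp h')
      have hprod : (2 : ZMod p) * (l₁ : ZMod p) = 0 := by
        have := hcast
        rw [eq_comm, neg_eq_zero] at this
        exact this
      rcases mul_eq_zero.mp hprod with h | h
      · exact h2ne h
      · exact hunit.ne_zero h
    by_cases hu : (p : ℤ) ∣ (a₂ * ε - a₁)
    · exfalso
      obtain ⟨v, hv⟩ := hex
      apply hv
      apply nec_eq_zero_of_zsmul hp hpV hd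
      rw [← R3 v]
      exact nec_zsmul_eq_zero hpV hu _
    · have hcop : IsCoprime (a₂ * ε - a₁) (p : ℤ) :=
        ((Nat.prime_iff_prime_int.mp hp).coprime_iff_not_dvd.mpr hu).symm
      obtain ⟨s, t, hst⟩ := hcop
      refine ⟨s * (l₂ - l₁), fun v => ?_⟩
      have : g • v = (s * (a₂ * ε - a₁) + t * p) • g • v := by rw [hst, one_smul]
      rw [this, add_smul, mul_smul, R3 v, mul_smul t, natCast_zsmul, hpV, smul_zero, add_zero,
        mul_smul]
  -- Step F
  obtain ⟨v₀, hv₀⟩ := hex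
  have hstab : ∀ g : G, ∀ v ∈ AddSubgroup.zmultiples v₀, g • v ∈ AddSubgroup.zmultiples v₀ := by
    intro g v hv
    obtain ⟨m, hm⟩ := hscal g
    rw [hm v]
    exact AddSubgroup.zsmul_mem _ hv m
  rcases hirr _ hstab with hbot | htop
  · have : v₀ ∈ AddSubgroup.zmultiples v₀ := AddSubgroup.mem_zmultiples v₀
    rw [hbot, AddSubgroup.mem_bot] at this
    exact hv₀ this
  · have h3 : Nat.card (AddSubgroup.zmultiples v₀) = Nat.card V := by
      rw [htop]
      exact AddSubgroup.card_top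
    rw [Nat.card_zmultiples] at h3
    have h4 : addOrderOf v₀ ∣ p := addOrderOf_dvd_of_nsmul_eq_zero (hpV v₀)
    have h5 := Nat.le_of_dvd hp.pos h4
    omega

end Core

end Fermat.Agent.FrobQbar
end MergeWrap_Lib_FrobQbar_NonEisCore

section MergeWrap_Lib_FrobQbar_NonEis -- from Lib/FrobQbar/NonEis.lean

/-!
# The non-Eisenstein lemma for elliptic curves over `ℚ`

* `FrobRelAt E W n` : the relation `σ² - a_ℓ σ + ℓ = 0` on `E[n](ℚ̄)` for every Frobenius element
  `σ` at a good prime `ℓ ≥ 5` not dividing `n` (`a_ℓ = W.apOfModel ℓ`).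
* `nonEisenstein` : if `E[p]` is irreducible (`p` odd) then for every `M ≥ 1` and every finite set
  `B` there is a good prime `ℓ ∉ B`, `ℓ ≡ 1 mod M`, with `a_ℓ ≢ ℓ + 1 mod p`.
-/

set_option autoImplicit false

namespace Fermat.Agent.FrobQbar

open WeierstrassCurve WeierstrassCurve.Affine WeierstrassCurve.Affine.Point

local notation "Qb" => AlgebraicClosure ℚ
local notation "GQ" => (AlgebraicClosure ℚ ≃ₐ[ℚ] AlgebraicClosure ℚ)

/-- **(Br)** the Frobenius relation on `E[n](ℚ̄)`. -/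
def FrobRelAt (E : WeierstrassCurve ℚ) (W : WeierstrassCurve ℤ) (n : ℕ) : Prop :=
  ∀ ℓ : ℕ, ℓ.Prime → 5 ≤ ℓ → ¬ ℓ ∣ n → W.IsGoodPrimeFor ℓ →
    ∀ A : ValuationSubring Qb, A.LiesOverPrime ℓ → ∀ σ : GQ, A.IsFrobeniusAt σ ℓ →
      ∀ P : (E⁄Qb).Point, (n : ℤ) • P = 0 →
        σ • σ • P - W.apOfModel ℓ • σ • P + (ℓ : ℤ) • P = 0

section Basic

variable {E : WeierstrassCurve ℚ} {p : ℕ}

theorem ne_nsmul_eq_zero (v : Submodule.torsionBy ℤ (E⁄Qb).Point p) : p • v = 0 := by
  apply Subtype.ext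
  have := (Submodule.mem_torsionBy_iff _ _).mp v.2
  rw [ZeroMemClass.coe_zero, ← this, natCast_zsmul]
  exact AddSubmonoidClass.coe_nsmul v p

theorem ne_coe_smul (σ : GQ) (v : Submodule.torsionBy ℤ (E⁄Qb).Point p) :
    ((σ • v : Submodule.torsionBy ℤ (E⁄Qb).Point p) : (E⁄Qb).Point) =
      σ • (v : (E⁄Qb).Point) := rfl

/-- The relation (Br), read on the torsion submodule. -/
theorem ne_rel_torsion {W : WeierstrassCurve ℤ} (hBr : FrobRelAt E W p)
    {ℓ : ℕ} (hℓ : ℓ.Prime) (h5 : 5 ≤ ℓ) (hℓp : ¬ ℓ ∣ p) (hgood : W.IsGoodPrimeFor ℓ)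
    (A : ValuationSubring Qb) (hA : A.LiesOverPrime ℓ) (σ : GQ) (hσ : A.IsFrobeniusAt σ ℓ)
    (v : Submodule.torsionBy ℤ (E⁄Qb).Point p) :
    σ • σ • v - W.apOfModel ℓ • σ • v + (ℓ : ℤ) • v = 0 := by
  apply Subtype.ext
  have h := hBr ℓ hℓ h5 hℓp hgood A hA σ hσ (v : (E⁄Qb).Point)
    ((Submodule.mem_torsionBy_iff _ _).mp v.2)
  rw [Submodule.coe_add, Submodule.coe_sub, Submodule.coe_smul, Submodule.coe_smul,
    ne_coe_smul, ne_coe_smul, ZeroMemClass.coe_zero]
  exact h

/-- The kernel of the action on the finite group `E[p]`, intersected with the kernel of the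
cyclotomic character mod `n`. -/
noncomputable def neU (E : WeierstrassCurve ℚ) (p n : ℕ) [NeZero n] : Subgroup GQ where
  carrier := {σ | Cyclo.modChar n σ = 1 ∧
    ∀ v : Submodule.torsionBy ℤ (E⁄Qb).Point p, σ • v = v}
  mul_mem' := by
    rintro a b ⟨ha, ha'⟩ ⟨hb, hb'⟩
    refine ⟨by rw [map_mul, ha, hb, one_mul], fun v => ?_⟩
    rw [mul_smul, hb', ha']
  one_mem' := ⟨map_one _, fun v => one_smul _ v⟩
  inv_mem' := by
    rintro a ⟨ha, ha'⟩
    refine ⟨by rw [map_inv, ha, inv_one], fun v => ?_⟩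
    conv_lhs => rw [← ha' v]
    rw [inv_smul_smul]

theorem mem_neU {n : ℕ} [NeZero n] {σ : GQ} :
    σ ∈ neU E p n ↔ Cyclo.modChar n σ = 1 ∧
      ∀ v : Submodule.torsionBy ℤ (E⁄Qb).Point p, σ • v = v := Iff.rfl

instance neU_normal {n : ℕ} [NeZero n] : (neU E p n).Normal := by
  constructor
  rintro a ⟨ha, ha'⟩ g
  refine ⟨by rw [map_mul, map_mul, ha, mul_one, map_inv, mul_inv_cancel], fun v => ?_⟩
  rw [mul_smul, mul_smul, ha', smul_inv_smul]

theorem neU_isOpen {n : ℕ} [NeZero n]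
    (hfin : Finite (Submodule.torsionBy ℤ (E⁄Qb).Point p)) :
    IsOpen ((neU E p n : Subgroup GQ) : Set GQ) := by
  obtain ⟨L, hLfd, -, hL⟩ := Cyclo.modChar_finiteLevel n
  have h1 : IsOpen ((L.fixingSubgroup : Subgroup GQ) : Set GQ) :=
    IntermediateField.fixingSubgroup_isOpen L
  have h2 : IsOpen (⋂ x : Submodule.torsionBy ℤ (E⁄Qb).Point p,
      {σ : GQ | σ • x = x}) :=
    isOpen_iInter_of_finite fun x => S13Open.isOpen_stabilizer_torsion E p x
  refine Subgroup.isOpen_of_mem_nhds _ (g := 1) ?_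
  refine Filter.mem_of_superset ((h1.inter h2).mem_nhds ⟨?_, ?_⟩) ?_
  · exact Subgroup.one_mem _
  · simp only [Set.mem_iInter, Set.mem_ofPred_eq]
    intro x
    exact one_smul _ _
  · rintro σ ⟨hσ1, hσ2⟩
    simp only [Set.mem_iInter, Set.mem_ofPred_eq] at hσ2
    refine ⟨hL σ fun x hx => ?_, hσ2⟩
    exact (IntermediateField.mem_fixingSubgroup_iff L σ).mp hσ1 x hx

end Basic

section Main

variable {E : WeierstrassCurve ℚ} {p : ℕ}

/-- The finite set of primes to avoid: `B`, the primes `< 5`, the primes dividing `n` and the bad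
primes of `W`. -/
noncomputable def neBad (W : WeierstrassCurve ℤ) (n : ℕ) (B : Finset ℕ) : Finset ℕ :=
  B ∪ Finset.range 5 ∪ n.primeFactors ∪ W.Δ.natAbs.primeFactors

theorem ne_of_not_mem_neBad {W : WeierstrassCurve ℤ} (hΔ : W.Δ ≠ 0) {n : ℕ} (hn : n ≠ 0)
    {B : Finset ℕ} {ℓ : ℕ} (hℓ : ℓ.Prime) (h : ℓ ∉ neBad W n B) :
    ℓ ∉ B ∧ 5 ≤ ℓ ∧ ¬ ℓ ∣ n ∧ W.IsGoodPrimeFor ℓ := by
  simp only [neBad, Finset.mem_union, Finset.mem_range, Nat.mem_primeFactors, not_or, not_and,
    not_lt] at h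
  obtain ⟨⟨⟨h1, h2⟩, h3⟩, h4⟩ := h
  refine ⟨h1, h2, fun hd => h3 hℓ hd hn, fun hd => ?_⟩
  have h5 : ℓ ∣ W.Δ.natAbs := Int.natCast_dvd.mp hd
  exact h4 hℓ h5 (Int.natAbs_ne_zero.mpr hΔ)

/-- **The non-Eisenstein lemma.**  If `E[p]` is irreducible (`p` odd) and the Frobenius relation
(Br) holds on `E[p]`, then for every `M ≥ 1` and every finite set `B` of primes there is a good
prime `ℓ ∉ B`, `ℓ ≡ 1 mod M`, such that `a_ℓ ≢ ℓ + 1 mod p`. -/
theorem nonEisenstein (E : WeierstrassCurve ℚ) [E.IsElliptic] (W : WeierstrassCurve ℤ)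
    (hΔ : W.Δ ≠ 0) {p : ℕ} (hp : p.Prime) (hp2 : p ≠ 2) (hBr : FrobRelAt E W p)
    (hirr : GaloisRepIsIrreducible (K := AlgebraicClosure ℚ) ℚ E p)
    (M : ℕ) (hM : 0 < M) (B : Finset ℕ) :
    ∃ ℓ : ℕ, ℓ.Prime ∧ W.IsGoodPrimeFor ℓ ∧ ℓ ∉ B ∧ ℓ ≡ 1 [MOD M] ∧
      ¬ (p : ℤ) ∣ W.apOfModel ℓ - ((ℓ : ℤ) + 1) := by
  classical
  by_contra hne
  push Not at hne
  have : Fact p.Prime := ⟨hp⟩
  set n : ℕ := M * p with hn
  have hn0 : n ≠ 0 := Nat.mul_ne_zero hM.ne' hp.ne_zero
  have : NeZero n := ⟨hn0⟩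
  have hpn : p ∣ n := Dvd.intro_left M rfl
  have hMn : M ∣ n := Dvd.intro p rfl
  -- the curve over `ℚ̄`
  have hΔE : (E⁄Qb).Δ ≠ 0 := by
    have : (E⁄Qb).Δ = algebraMap ℚ Qb E.Δ := WeierstrassCurve.map_Δ E (algebraMap ℚ Qb)
    rw [this]
    exact (map_ne_zero _).mpr E.isUnit_Δ.ne_zero
  have hcardV : Nat.card (Submodule.torsionBy ℤ (E⁄Qb).Point p) = p ^ 2 :=
    Torsion.card_torsionBy hΔE hp.one_lt.le
  have hfin : Finite (Submodule.torsionBy ℤ (E⁄Qb).Point p) :=
    Torsion.finite_torsionBy hΔE hp.one_lt.le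
  have hUopen := neU_isOpen (E := E) (p := p) (n := n) hfin
  set S : Finset ℕ := neBad W n B with hS
  -- congruences for primes `≡ 1 mod n`
  have hkey : ∀ ℓ : ℕ, ℓ.Prime → ℓ ∉ S → (ℓ : ZMod n) = 1 →
      ∀ A : ValuationSubring Qb, A.LiesOverPrime ℓ → ∀ σ : GQ, A.IsFrobeniusAt σ ℓ →
      ∀ v : Submodule.torsionBy ℤ (E⁄Qb).Point p, σ • σ • v - (2 : ℤ) • σ • v + v = 0 := by
    intro ℓ hℓ hℓS hℓ1 A hA σ hσ v
    obtain ⟨hℓB, h5, hℓn, hgood⟩ := ne_of_not_mem_neBad hΔ hn0 hℓ hℓS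
    have hℓp : ¬ ℓ ∣ p := fun h => hℓn (h.trans hpn)
    have hmodn : ℓ ≡ 1 [MOD n] := by
      rw [← ZMod.natCast_eq_natCast_iff, hℓ1, Nat.cast_one]
    have hmodM : ℓ ≡ 1 [MOD M] := hmodn.of_dvd hMn
    have hmodp : ℓ ≡ 1 [MOD p] := hmodn.of_dvd hpn
    have ha := hne ℓ hℓ hgood hℓB hmodM
    have hℓ1' : (p : ℤ) ∣ (ℓ : ℤ) - 1 := by
      have := (Nat.modEq_iff_dvd.mp hmodp.symm)
      simpa using this
    have ha2 : (p : ℤ) ∣ W.apOfModel ℓ - 2 := by
      have : W.apOfModel ℓ - 2 = (W.apOfModel ℓ - ((ℓ : ℤ) + 1)) + ((ℓ : ℤ) - 1) := by ring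
      rw [this]
      exact dvd_add ha hℓ1'
    have hrel := ne_rel_torsion hBr hℓ h5 hℓp hgood A hA σ hσ v
    have e1 : W.apOfModel ℓ • σ • v = (2 : ℤ) • σ • v := by
      have := nec_zsmul_eq_zero (V := Submodule.torsionBy ℤ (E⁄Qb).Point p)
        (fun w => ne_nsmul_eq_zero w) ha2 (σ • v)
      rw [sub_smul, sub_eq_zero] at this
      exact this
    have e2 : (ℓ : ℤ) • v = v := by
      have := nec_zsmul_eq_zero (V := Submodule.torsionBy ℤ (E⁄Qb).Point p)
        (fun w => ne_nsmul_eq_zero w) hℓ1' v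
      rw [sub_smul, one_smul, sub_eq_zero] at this
      exact this
    rw [e1, e2] at hrel
    exact hrel
  refine nec_core (G := GQ) (V := Submodule.torsionBy ℤ (E⁄Qb).Point p) (p := p) (n := n)
    hp2 hpn (fun w => ne_nsmul_eq_zero w) ?_ ?_ (Cyclo.modChar n) complexConjugation
    (Cyclo.modChar_complexConjugation n) ?_ ?_ ?_
  · rw [hcardV]
    have := hp.one_lt
    nlinarith
  · rw [hcardV]
    exact Dvd.intro_left (p ^ 1) (by ring)
  · -- h1 : the kernel of the cyclotomic character acts unipotently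
    intro g hg v
    obtain ⟨ℓ, A, τ, k, j, hℓ, hℓS, hA, hτ, hk, hj⟩ :=
      FrobDensity.frobenius_density_open (neU E p n) hUopen g S
    obtain ⟨hℓB, h5, hℓn, hgood⟩ := ne_of_not_mem_neBad hΔ hn0 hℓ hℓS
    have hχτ : Cyclo.modChar n τ = 1 := by
      have h1 := (mem_neU.mp hk).1
      rw [map_mul, map_inv, map_pow, hg, one_pow, mul_one, inv_eq_one] at h1
      exact h1
    have hℓ1 : (ℓ : ZMod n) = 1 := by
      rw [← Cyclo.modChar_frobenius n hℓ hℓn A hA τ hτ, hχτ, Units.val_one]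
    have hgτ : ∀ w : Submodule.torsionBy ℤ (E⁄Qb).Point p, g • w = τ ^ j • w := by
      intro w
      have h1 := (mem_neU.mp hj).2 w
      rw [mul_smul] at h1
      have h2 := congrArg (fun x => g • x) h1
      simp only [smul_inv_smul] at h2
      exact h2.symm
    exact nec_unip_of_pow τ g (hkey ℓ hℓ hℓS hℓ1 A hA τ hτ) j hgτ v
  · -- h2 : every value of the character is taken at a Frobenius element
    intro g
    obtain ⟨ℓ, hℓgt, hℓ, hℓχ⟩ := Nat.forall_exists_prime_gt_and_eq_mod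
      (q := n) (a := ((Cyclo.modChar n g : (ZMod n)ˣ) : ZMod n)) (Cyclo.modChar n g).isUnit
      (S.sup id)
    have hℓS : ℓ ∉ S := by
      intro h
      have : ℓ ≤ S.sup id := Finset.le_sup (f := id) h
      omega
    obtain ⟨hℓB, h5, hℓn, hgood⟩ := ne_of_not_mem_neBad hΔ hn0 hℓ hℓS
    have hℓp : ¬ ℓ ∣ p := fun h => hℓn (h.trans hpn)
    obtain ⟨A, τ, hA, hτ⟩ := FrobExists.exists_frobenius ℓ hℓ
    have hχτ : ((Cyclo.modChar n τ : (ZMod n)ˣ) : ZMod n) = (ℓ : ZMod n) :=
      Cyclo.modChar_frobenius n hℓ hℓn A hA τ hτ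
    refine ⟨τ, Units.ext (by rw [hχτ, hℓχ]), W.apOfModel ℓ, (ℓ : ℤ), ?_, fun v => ?_⟩
    · rw [hχτ]; simp
    · exact ne_rel_torsion hBr hℓ h5 hℓp hgood A hA τ hτ v
  · -- irreducibility
    intro N hN
    have h := hirr.2 (AddSubgroup.toZModSubmodule p N) (fun σ x hx => hN σ x hx)
    rcases h with h | h
    · left
      have := congrArg (AddSubgroup.toZModSubmodule p).symm h
      simpa using this
    · right
      have := congrArg (AddSubgroup.toZModSubmodule p).symm h
      simpa using this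

/-- The discriminant of an integral model of an elliptic curve is nonzero. -/
theorem ne_Δ_ne_zero (E : WeierstrassCurve ℚ) [E.IsElliptic] {W : WeierstrassCurve ℤ}
    (hW : W.IsIntegralModelOf E) : W.Δ ≠ 0 := by
  obtain ⟨C, hC⟩ := hW
  intro h
  have h1 : (W.map (Int.castRingHom ℚ)).Δ = 0 := by
    rw [WeierstrassCurve.map_Δ, h, _root_.map_zero]
  rw [← hC, WeierstrassCurve.variableChange_Δ] at h1
  have h2 : E.Δ ≠ 0 := E.isUnit_Δ.ne_zero
  have h3 : ((C.u⁻¹ : ℚˣ) : ℚ) ^ 12 ≠ 0 := pow_ne_zero _ (Units.ne_zero _)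
  exact (mul_ne_zero h3 h2) h1

/-- The non-Eisenstein lemma for an integral model. -/
theorem nonEisenstein_of_model (E : WeierstrassCurve ℚ) [E.IsElliptic] {W : WeierstrassCurve ℤ}
    (hW : W.IsIntegralModelOf E) {p : ℕ} (hp : p.Prime) (hp2 : p ≠ 2) (hBr : FrobRelAt E W p)
    (hirr : GaloisRepIsIrreducible (K := AlgebraicClosure ℚ) ℚ E p)
    (M : ℕ) (hM : 0 < M) (B : Finset ℕ) :
    ∃ ℓ : ℕ, ℓ.Prime ∧ W.IsGoodPrimeFor ℓ ∧ ℓ ∉ B ∧ ℓ ≡ 1 [MOD M] ∧
      ¬ (p : ℤ) ∣ W.apOfModel ℓ - ((ℓ : ℤ) + 1) :=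
  nonEisenstein E W (ne_Δ_ne_zero E hW) hp hp2 hBr hirr M hM B

end Main

end Fermat.Agent.FrobQbar
end MergeWrap_Lib_FrobQbar_NonEis

section MergeWrap_Lib_FrobQbar_Bridge -- from Lib/FrobQbar/Bridge.lean

/-!
# The Frobenius relation (Br) on `E[n](ℚ̄)`

* `ReductionStatement W` : existence of the reduction homomorphism at every good prime
  (the statement of `FrobTrace.exists_reduction`).
* `frobRelAt_model_of` : (Br) for the curve `W_ℚ` of an integral Weierstrass equation `W`.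
* `frobRelAt_of` : (Br) for every elliptic curve `E / ℚ` with integral model `W`
  (transport along the change of variables).
-/

set_option autoImplicit false

namespace Fermat.Agent.FrobQbar

open WeierstrassCurve WeierstrassCurve.Affine WeierstrassCurve.Affine.Point

open Fermat.Agent.S52 (frobPt)

local notation "Qb" => AlgebraicClosure ℚ
local notation "GQ" => (AlgebraicClosure ℚ ≃ₐ[ℚ] AlgebraicClosure ℚ)

/-- Existence of the reduction homomorphism at the good primes of `W`. -/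
def ReductionStatement (W : WeierstrassCurve ℤ) : Prop :=
  ∀ (ℓ : ℕ) [Fact ℓ.Prime], W.IsGoodPrimeFor ℓ →
    ∀ (A : ValuationSubring Qb), A.LiesOverPrime ℓ →
    ∀ [Algebra (ZMod ℓ) (IsLocalRing.ResidueField A)] [DecidableEq (IsLocalRing.ResidueField A)],
    ∃ red : ((W.map (Int.castRingHom ℚ))⁄Qb).Point →+
        ((W.reductionMod ℓ)⁄(IsLocalRing.ResidueField A)).Point,
      (∀ (n : ℕ), ¬ ℓ ∣ n → ∀ P, n • P = 0 → red P = 0 → P = 0) ∧
      (∀ τ : GQ, A.IsFrobeniusAt τ ℓ →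
        ∀ P, red (τ • P) = frobPt (W.reductionMod ℓ) (IsLocalRing.ResidueField A) (red P))

/-- (Br) for the rational curve of an integral Weierstrass equation. -/
theorem frobRelAt_model_of (W : WeierstrassCurve ℤ) (hred : ReductionStatement W) (n : ℕ) :
    FrobRelAt (W.map (Int.castRingHom ℚ)) W n := by
  intro ℓ hℓ h5 hℓn hgood A hA σ hσ P hP
  let _ : DecidableEq (IsLocalRing.ResidueField A) := Classical.decEq _
  have : Fact ℓ.Prime := ⟨hℓ⟩
  have : CharP (IsLocalRing.ResidueField A) ℓ := FrobTrace.charP_residueField A hA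
  let _ : Algebra (ZMod ℓ) (IsLocalRing.ResidueField A) := ZMod.algebra _ ℓ
  have : IsAlgClosed (IsLocalRing.ResidueField A) := FrobTrace.isAlgClosed_residueField A
  have hΔℓ : (W.reductionMod ℓ).Δ ≠ 0 := by
    change (W.map (Int.castRingHom (ZMod ℓ))).Δ ≠ 0
    rw [WeierstrassCurve.map_Δ]
    intro h
    apply hgood
    exact (ZMod.intCast_zmod_eq_zero_iff_dvd W.Δ ℓ).mp (by simpa using h)
  obtain ⟨red, hinj, hfrob⟩ := hred ℓ hgood A hA
  have hz : ∀ Q : ((W.map (Int.castRingHom ℚ))⁄Qb).Point, (n : ℤ) • Q = 0 →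
      (n : ℤ) • (σ • Q) = 0 := by
    intro Q hQ
    rw [← algEquiv_smul_zsmul, hQ]
    exact smul_zero (A := ((W.map (Int.castRingHom ℚ))⁄Qb).Point) σ
  have h1 : (n : ℤ) • (σ • P) = 0 := hz P hP
  have h2 : (n : ℤ) • (σ • σ • P) = 0 := hz _ h1
  apply hinj n hℓn
  · rw [← natCast_zsmul, zsmul_add, zsmul_sub, h2, zsmul_comm, h1, zsmul_comm, hP,
      zsmul_zero, zsmul_zero, sub_zero, add_zero]
  · rw [map_add, map_sub, map_zsmul, map_zsmul, hfrob σ hσ, hfrob σ hσ]
    exact FrobTrace.frobCharEq_gen h5 (W.reductionMod ℓ) hΔℓ _ (red P)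

/-- (Br) for an elliptic curve over `ℚ` with integral model `W`. -/
theorem frobRelAt_of (E : WeierstrassCurve ℚ) {W : WeierstrassCurve ℤ}
    (hW : W.IsIntegralModelOf E) (hred : ReductionStatement W) (n : ℕ) : FrobRelAt E W n := by
  obtain ⟨C, hC⟩ := hW
  intro ℓ hℓ h5 hℓn hgood A hA σ hσ P hP
  have hψσ : ∀ Q : (E⁄Qb).Point,
      VarChange.vcHomBC (K := Qb) C hC (σ • Q) = σ • VarChange.vcHomBC (K := Qb) C hC Q :=
    fun Q => VarChange.vcHomBC_map C hC σ.toAlgHom Q
  apply VarChange.vcHomBC_injective (K := Qb) C hC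
  rw [_root_.map_zero, map_add, map_sub, map_zsmul, map_zsmul, hψσ, hψσ]
  refine frobRelAt_model_of W hred n ℓ hℓ h5 hℓn hgood A hA σ hσ _ ?_
  rw [← map_zsmul, hP, _root_.map_zero]

end Fermat.Agent.FrobQbar
end MergeWrap_Lib_FrobQbar_Bridge

section MergeWrap_L_NonEis_Main -- from L/NonEis/Main.lean

/-!
# Cluster L, WP NONEIS: the residual representation is not Eisenstein

`nonEisStatement_of_frobRel` : `NonEisStatement W p` from the Frobenius relation `(Br)` on `E[p]`.
`nonEisStatement_of_reduction` : `NonEisStatement W p` from the existence of the reduction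
homomorphisms at the good primes of `W` (`FrobQbar.ReductionStatement W`).
-/

set_option autoImplicit false

namespace Fermat.Agent.L

open WeierstrassCurve WeierstrassCurve.Affine WeierstrassCurve.Affine.Point

/-- **WP NONEIS** from the Frobenius relation on `E[p]`. -/
theorem nonEisStatement_of_frobRel (E : WeierstrassCurve ℚ) [E.IsElliptic]
    {W : WeierstrassCurve ℤ} (hW : W.IsIntegralModelOf E) {p : ℕ} (hp : p.Prime) (hp2 : p ≠ 2)
    (hBr : FrobQbar.FrobRelAt E W p)
    (hirr : GaloisRepIsIrreducible (K := AlgebraicClosure ℚ) ℚ E p) :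
    NonEisStatement W p := by
  intro M₀ hM₀ S
  obtain ⟨ℓ, h1, h2, h3, h4, h5⟩ :=
    FrobQbar.nonEisenstein_of_model E hW hp hp2 hBr hirr M₀ hM₀ S
  exact ⟨ℓ, h1, h3, h2, h4, h5⟩

/-- **WP NONEIS** from the existence of the reduction homomorphisms. -/
theorem nonEisStatement_of_reduction (E : WeierstrassCurve ℚ) [E.IsElliptic]
    {W : WeierstrassCurve ℤ} (hW : W.IsIntegralModelOf E) {p : ℕ} (hp : p.Prime) (hp2 : p ≠ 2)
    (hred : FrobQbar.ReductionStatement W)
    (hirr : GaloisRepIsIrreducible (K := AlgebraicClosure ℚ) ℚ E p) :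
    NonEisStatement W p :=
  nonEisStatement_of_frobRel E hW hp hp2 (FrobQbar.frobRelAt_of E hW hred p) hirr

end Fermat.Agent.L
end MergeWrap_L_NonEis_Main

section MergeWrap_Lib_FrobQbar_Final -- from Lib/FrobQbar/Final.lean

/-!
# The Frobenius relation on `E[n](ℚ̄)` and the non-Eisenstein lemma, unconditionally

* `reductionStatement W` : the reduction homomorphisms exist (`FrobTrace.exists_reduction`).
* `frobRelAt E hW n` : `σ² - a_ℓ σ + ℓ = 0` on `E[n](ℚ̄)` for every Frobenius element `σ` at a good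
  prime `ℓ ≥ 5`, `ℓ ∤ n`.
* `nonEisenstein_final` : if `E[p]` is irreducible (`p` odd), then for every modulus `M ≥ 1` and
  finite set `B` there is a good prime `ℓ ∉ B`, `ℓ ≡ 1 mod M`, with `a_ℓ ≢ ℓ + 1 mod p`.
-/

set_option autoImplicit false

namespace Fermat.Agent.FrobQbar

open WeierstrassCurve WeierstrassCurve.Affine WeierstrassCurve.Affine.Point

/-- The reduction homomorphisms at the good primes of `W` exist. -/
theorem reductionStatement (W : WeierstrassCurve ℤ) : ReductionStatement W :=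
  fun _ _ hgood A hA _ _ => FrobTrace.exists_reduction W hgood A hA

/-- **(Br)**, unconditionally. -/
theorem frobRelAt (E : WeierstrassCurve ℚ) {W : WeierstrassCurve ℤ}
    (hW : W.IsIntegralModelOf E) (n : ℕ) : FrobRelAt E W n :=
  frobRelAt_of E hW (reductionStatement W) n

/-- **The non-Eisenstein lemma**, unconditionally. -/
theorem nonEisenstein_final (E : WeierstrassCurve ℚ) [E.IsElliptic] {W : WeierstrassCurve ℤ}
    (hW : W.IsIntegralModelOf E) {p : ℕ} (hp : p.Prime) (hp2 : p ≠ 2)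
    (hirr : GaloisRepIsIrreducible (K := AlgebraicClosure ℚ) ℚ E p)
    (M : ℕ) (hM : 0 < M) (B : Finset ℕ) :
    ∃ ℓ : ℕ, ℓ.Prime ∧ W.IsGoodPrimeFor ℓ ∧ ℓ ∉ B ∧ ℓ ≡ 1 [MOD M] ∧
      ¬ (p : ℤ) ∣ W.apOfModel ℓ - ((ℓ : ℤ) + 1) :=
  nonEisenstein_of_model E hW hp hp2 (frobRelAt E hW p) hirr M hM B

end Fermat.Agent.FrobQbar
end MergeWrap_Lib_FrobQbar_Final

section MergeWrap_L_NonEis_Final -- from L/NonEis/Final.lean

/-!
# Cluster L, WP NONEIS: `NonEisStatement W p`, unconditionally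
-/

set_option autoImplicit false

namespace Fermat.Agent.L

open WeierstrassCurve WeierstrassCurve.Affine WeierstrassCurve.Affine.Point

/-- **WP NONEIS**: for an elliptic curve `E / ℚ` with integral model `W` and irreducible `E[p]`
(`p` odd), for every modulus `M₀` and finite set `S` there is a good prime `ℓ ∉ S`,
`ℓ ≡ 1 mod M₀`, with `a_ℓ(W) ≢ ℓ + 1 mod p`. -/
theorem nonEisStatement (E : WeierstrassCurve ℚ) [E.IsElliptic]
    {W : WeierstrassCurve ℤ} (hW : W.IsIntegralModelOf E) {p : ℕ} (hp : p.Prime) (hp2 : p ≠ 2)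
    (hirr : GaloisRepIsIrreducible (K := AlgebraicClosure ℚ) ℚ E p) :
    NonEisStatement W p :=
  nonEisStatement_of_reduction E hW hp hp2 (FrobQbar.reductionStatement W) hirr

end Fermat.Agent.L
end MergeWrap_L_NonEis_Final

section MergeWrap_Lib_HeckeComm_Gen -- from Lib/HeckeComm/Gen.lean

set_option autoImplicit false

noncomputable section

namespace Fermat.Agent.HeckeComm

open ModularCurve AlgebraicCurve Fermat.Agent.S24 Fermat.Agent.S24.EmbFHom Fermat.Agent.Kronecker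
open scoped MatrixGroups

local notation "Qb" => AlgebraicClosure ℚ

/-- `F_A ≤ F_B` for `A ∣ B`. -/
theorem fbar_le {A B : ℕ} [NeZero A] [NeZero B] (h : A ∣ B) :
    modularFunctionFieldBar A ≤ modularFunctionFieldBar B := by
  unfold modularFunctionFieldBar laurentBaseChange
  rw [IntermediateField.adjoin_le_iff]
  rintro _ ⟨y, hy, rfl⟩
  exact coeffEmb_mem_laurentBaseChange Qb (full_degeneracy_le h hy)

/-- the inclusion `F_A → F_B` for `A ∣ B`. -/
def incl (A B : ℕ) [NeZero A] [NeZero B] (h : A ∣ B) :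
    ↥(modularFunctionFieldBar A) →ₐ[Qb] ↥(modularFunctionFieldBar B) :=
  IntermediateField.inclusion (fbar_le h)

@[simp]
theorem coe_incl (A B : ℕ) [NeZero A] [NeZero B] (h : A ∣ B)
    (x : ↥(modularFunctionFieldBar A)) :
    ((incl A B h x : ↥(modularFunctionFieldBar B)) : LaurentSeries Qb) = x :=
  IntermediateField.coe_inclusion _ x

theorem heckeAlphaBar_eq_incl (N ℓ : ℕ) [NeZero N] [NeZero ℓ] :
    heckeAlphaBar Qb N ℓ = incl N (N * ℓ) (dvd_mul_right N ℓ) :=
  rfl

theorem embHom_incl (A B : ℕ) [NeZero A] [NeZero B] (h : A ∣ B)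
    (x : ↥(modularFunctionFieldBar A)) :
    embHom B B dvd_rfl (incl A B h x) = embHom A B h x := by
  apply expLL_injective B
  rw [expLL_embHom, expLL_embHom, coe_incl]

/-- **Degree**: `[F_B : F_A] · ψ(A) = ψ(B)`. -/
theorem finrank_incl (A B : ℕ) [NeZero A] [NeZero B] (h : A ∣ B) :
    letI := (incl A B h).toRingHom.toAlgebra
    FiniteDimensional ↥(modularFunctionFieldBar A) ↥(modularFunctionFieldBar B) ∧
      Module.finrank ↥(modularFunctionFieldBar A) ↥(modularFunctionFieldBar B)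
        * dedekindPsi A = dedekindPsi B := by
  have hj : embHom A B h (jBar A) = jLL B := embHom_jq A B h (jBar A) rfl
  obtain ⟨hfd, hrank⟩ := finrank_hom_mul_index_eq_index (Γ := SL(2, ℤ))
    (embHom A B h) (embHom B B dvd_rfl) (incl A B h) (embHom_incl A B h)
    (jBar A) (exists_finiteIndex_fixing B)
    (fun g => by rw [hj]; exact smul_jLL B g)
    (fun x hx => by
      rw [hj]; exact Fermat.Agent.S24Inv.mem_adjoin_jLL_of_invariant' B x hx)
    (CongruenceSubgroup.Gamma0 A) (CongruenceSubgroup.Gamma0 B)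
    (mem_Gamma0_iff_smul_embHom A B h)
    (mem_Gamma0_iff_smul_embHom B B dvd_rfl)
  refine ⟨hfd, ?_⟩
  rw [index_Gamma0 A, index_Gamma0 B] at hrank
  exact hrank

theorem dedekindPsi_pos' (A : ℕ) [NeZero A] : 0 < dedekindPsi A := by
  rw [← index_Gamma0 A]
  exact Nat.pos_of_ne_zero (Subgroup.FiniteIndex.index_ne_zero)

/-! ### generation -/

theorem embHom_jdBar (M d : ℕ) [NeZero M] [NeZero d] (hd : d ∣ M) :
    embHom M M dvd_rfl (jdBar M d hd) = jdLL M d hd := by
  apply expLL_injective M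
  rw [expLL_embHom, expLL_jdLL, coe_jdBar, qExpand_qExpand]

set_option synthInstance.maxHeartbeats 400000 in
/-- `F_M = ℚ̄(j, j_M)`. -/
theorem mem_adjoin_j_jM (M : ℕ) [NeZero M] (x : ↥(modularFunctionFieldBar M)) :
    x ∈ IntermediateField.adjoin Qb
      ({jBar M, jdBar M M dvd_rfl} : Set ↥(modularFunctionFieldBar M)) := by
  set S : IntermediateField Qb ↥(modularFunctionFieldBar M) :=
    IntermediateField.adjoin Qb ({jBar M, jdBar M M dvd_rfl} : Set ↥(modularFunctionFieldBar M))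
    with hS
  have hjS : jBar M ∈ S := IntermediateField.subset_adjoin Qb _ (Set.mem_insert _ _)
  have hjMS : jdBar M M dvd_rfl ∈ S :=
    IntermediateField.subset_adjoin Qb _ (Set.mem_insert_of_mem _ rfl)
  have hj : ((embHom M M dvd_rfl).comp S.val) ⟨jBar M, hjS⟩ = jLL M :=
    embHom_jq M M dvd_rfl (jBar M) rfl
  obtain ⟨hfd, hrank⟩ := finrank_hom_mul_index_eq_index (Γ := SL(2, ℤ))
    ((embHom M M dvd_rfl).comp S.val) (embHom M M dvd_rfl) S.val (fun _ => rfl)
    ⟨jBar M, hjS⟩ (exists_finiteIndex_fixing M)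
    (fun g => by rw [hj]; exact smul_jLL M g)
    (fun x hx => by
      rw [hj]; exact Fermat.Agent.S24Inv.mem_adjoin_jLL_of_invariant' M x hx)
    (CongruenceSubgroup.Gamma0 M) (CongruenceSubgroup.Gamma0 M)
    (fun g => by
      constructor
      · intro hg y
        exact (mem_Gamma0_iff_smul_embHom M M dvd_rfl g).mp hg y
      · intro hg
        have h1 := hg ⟨jdBar M M dvd_rfl, hjMS⟩
        have h2 : g • jdLL M M dvd_rfl = jdLL M M dvd_rfl := by
          rw [← embHom_jdBar M M dvd_rfl]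
          exact h1
        exact (smul_jd_eq_iff M g).mp ((smul_jdLL_eq_iff M M dvd_rfl g).mp h2))
    (mem_Gamma0_iff_smul_embHom M M dvd_rfl)
  have hpos : 0 < (CongruenceSubgroup.Gamma0 M).index := by
    rw [index_Gamma0 M]; exact dedekindPsi_pos' M
  have h1 := Nat.eq_of_mul_eq_mul_right hpos (hrank.trans (one_mul _).symm)
  have h2 := Subalgebra.bot_eq_top_of_finrank_eq_one h1
  have h3 := (SetLike.ext_iff.mp h2 x).mpr Algebra.mem_top
  obtain ⟨c, hc⟩ := Algebra.mem_bot.mp h3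
  have hc' : (c : ↥(modularFunctionFieldBar M)) = x := hc
  rw [← hc']
  exact c.2

end Fermat.Agent.HeckeComm
end
end MergeWrap_Lib_HeckeComm_Gen

section MergeWrap_Lib_HeckeComm_NormBC -- from Lib/HeckeComm/NormBC.lean

set_option autoImplicit false

namespace Fermat.Agent.HeckeComm

open Module

variable {F F' E E' : Type*} [Field F] [Field F'] [Field E] [Field E']
  [Algebra F F'] [Algebra E E']

/-- the image of an `F`-basis of `F'` spans `E'`. -/
theorem nbc_apply_eq_sum (b : F →+* E) (b' : F' →+* E')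
    (hcomp : ∀ x : F, b' (algebraMap F F' x) = algebraMap E E' (b x))
    {ι : Type*} [Fintype ι] (β : Basis ι F F') (x : F') :
    b' x = ∑ i, b (β.repr x i) • b' (β i) := by
  conv_lhs => rw [← β.sum_repr x]
  rw [map_sum]
  refine Finset.sum_congr rfl fun i _ => ?_
  rw [Algebra.smul_def, map_mul, hcomp, Algebra.smul_def]

theorem nbc_top_le_span (b : F →+* E) (b' : F' →+* E')
    (hcomp : ∀ x : F, b' (algebraMap F F' x) = algebraMap E E' (b x))
    (hspan : Submodule.span E (Set.range b') = ⊤)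
    {ι : Type*} [Fintype ι] (β : Basis ι F F') :
    ⊤ ≤ Submodule.span E (Set.range fun i => b' (β i)) := by
  rw [← hspan, Submodule.span_le]
  rintro _ ⟨x, rfl⟩
  rw [nbc_apply_eq_sum b b' hcomp β x]
  exact Submodule.sum_mem _ fun i _ =>
    Submodule.smul_mem _ _ (Submodule.subset_span ⟨i, rfl⟩)

/-- **Base change of the norm.** -/
theorem norm_baseChange [FiniteDimensional F F'] (b : F →+* E) (b' : F' →+* E')
    (hcomp : ∀ x : F, b' (algebraMap F F' x) = algebraMap E E' (b x))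
    (hspan : Submodule.span E (Set.range b') = ⊤)
    (hrank : Module.finrank E E' = Module.finrank F F') (g : F') :
    Algebra.norm E (b' g) = b (Algebra.norm F g) := by
  classical
  set β : Basis (Fin (finrank F F')) F F' := Module.finBasis F F' with hβ
  have hcard : Fintype.card (Fin (finrank F F')) = finrank E E' := by
    rw [Fintype.card_fin, hrank]
  set W : Basis (Fin (finrank F F')) E E' :=
    basisOfTopLeSpanOfCardEqFinrank (fun i => b' (β i)) (nbc_top_le_span b b' hcomp hspan β) hcard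
    with hW
  have hWi : ∀ i, W i = b' (β i) := fun i => by
    rw [hW, coe_basisOfTopLeSpanOfCardEqFinrank]
  have hrepr : ∀ (x : F') (i : Fin (finrank F F')), W.repr (b' x) i = b (β.repr x i) := by
    intro x i
    have h1 : b' x = ∑ j, b (β.repr x j) • W j := by
      rw [nbc_apply_eq_sum b b' hcomp β x]
      exact Finset.sum_congr rfl fun j _ => by rw [hWi]
    rw [h1, Basis.repr_sum_self]
  rw [Algebra.norm_eq_matrix_det W, Algebra.norm_eq_matrix_det β, RingHom.map_det]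
  congr 1
  ext i j
  rw [RingHom.mapMatrix_apply, Matrix.map_apply, Algebra.leftMulMatrix_eq_repr_mul,
    Algebra.leftMulMatrix_eq_repr_mul, hWi, ← map_mul, hrepr]

/-- if the field `E'` is generated over `E` by the image of a ring homomorphism `b'` and `E'/E` is
algebraic, then `E'` is spanned over `E` by this image. -/
theorem nbc_span_eq_top [Algebra.IsAlgebraic E E'] (b' : F' →+* E')
    (h : IntermediateField.adjoin E (Set.range b') = ⊤) :
    Submodule.span E (Set.range b') = ⊤ := by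
  have h1 : (IntermediateField.adjoin E (Set.range b')).toSubalgebra
      = Algebra.adjoin E (Set.range b') :=
    IntermediateField.adjoin_toSubalgebra (Set.range b')
  have h2 : Algebra.adjoin E (Set.range b') = ⊤ := by
    rw [← h1, h, IntermediateField.top_toSubalgebra]
  have h3 : Subalgebra.toSubmodule (Algebra.adjoin E (Set.range b'))
      = Submodule.span E (Submonoid.closure (Set.range b')) := Algebra.adjoin_eq_span E _
  have h4 : (Submonoid.closure (Set.range b') : Set E') = Set.range b' := by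
    have : Set.range b' = ((b'.rangeS.toSubmonoid : Submonoid E') : Set E') := rfl
    rw [this, Submonoid.closure_eq]
  rw [h4] at h3
  rw [← h3, h2, Algebra.top_toSubmodule]

end Fermat.Agent.HeckeComm
end MergeWrap_Lib_HeckeComm_NormBC

section MergeWrap_Lib_HeckeComm_Psi -- from Lib/HeckeComm/Psi.lean

set_option autoImplicit false

namespace Fermat.Agent.HeckeComm

open ModularCurve

/-- the local factor of `ψ` at a prime. -/
def psiFactor (ℓ N : ℕ) : ℕ := if ℓ ∣ N then ℓ else ℓ + 1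

theorem dedekindPsi_mul_prime_eq {ℓ : ℕ} (hℓ : ℓ.Prime) {N : ℕ} (hN : N ≠ 0) :
    dedekindPsi (N * ℓ) = dedekindPsi N * psiFactor ℓ N := by
  obtain ⟨a, m, hm, rfl⟩ := Nat.exists_eq_pow_mul_and_not_dvd hN ℓ hℓ.ne_one
  have hcop : (ℓ ^ a).Coprime m := Nat.Coprime.pow_left a ((Nat.Prime.coprime_iff_not_dvd hℓ).mpr hm)
  have hcop' : (ℓ ^ (a + 1)).Coprime m :=
    Nat.Coprime.pow_left (a + 1) ((Nat.Prime.coprime_iff_not_dvd hℓ).mpr hm)
  have e1 : ℓ ^ a * m * ℓ = ℓ ^ (a + 1) * m := by ring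
  rw [e1, Fermat.Agent.S20.dedekindPsi_mul hcop', Fermat.Agent.S20.dedekindPsi_mul hcop]
  rcases Nat.eq_zero_or_pos a with ha | ha
  · subst ha
    have h1 : ¬ ℓ ∣ ℓ ^ 0 * m := by simpa using hm
    rw [psiFactor, if_neg h1]
    have h2 := Fermat.Agent.S20.dedekindPsi_prime_pow (p := ℓ) (k := 0) hℓ
    rw [h2, pow_zero, dedekindPsi_one]
    ring
  · obtain ⟨b, rfl⟩ : ∃ b, a = b + 1 := ⟨a - 1, by omega⟩
    have h1 : ℓ ∣ ℓ ^ (b + 1) * m := Dvd.dvd.mul_right (dvd_pow_self ℓ (by omega)) m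
    rw [psiFactor, if_pos h1, Fermat.Agent.S20.dedekindPsi_prime_pow hℓ,
      Fermat.Agent.S20.dedekindPsi_prime_pow hℓ]
    ring

theorem psiFactor_mul_prime {ℓ ℓ' : ℕ} (hℓ : ℓ.Prime) (hℓ' : ℓ'.Prime) (hne : ℓ ≠ ℓ') (N : ℕ) :
    psiFactor ℓ (N * ℓ') = psiFactor ℓ N := by
  unfold psiFactor
  have : ℓ ∣ N * ℓ' ↔ ℓ ∣ N := by
    constructor
    · intro h
      rcases (Nat.Prime.dvd_mul hℓ).mp h with h | h
      · exact h
      · exact absurd ((Nat.prime_dvd_prime_iff_eq hℓ hℓ').mp h) hne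
    · intro h
      exact Dvd.dvd.mul_right h ℓ'
  simp only [this]

/-- `ψ(N ℓ' ℓ) ψ(N) = ψ(N ℓ) ψ(N ℓ')`. -/
theorem dedekindPsi_square {ℓ ℓ' : ℕ} (hℓ : ℓ.Prime) (hℓ' : ℓ'.Prime) (hne : ℓ ≠ ℓ') {N : ℕ}
    (hN : N ≠ 0) :
    dedekindPsi (N * ℓ' * ℓ) * dedekindPsi N = dedekindPsi (N * ℓ) * dedekindPsi (N * ℓ') := by
  rw [dedekindPsi_mul_prime_eq hℓ (Nat.mul_ne_zero hN hℓ'.ne_zero),
    psiFactor_mul_prime hℓ hℓ' hne, dedekindPsi_mul_prime_eq hℓ hN]
  ring

end Fermat.Agent.HeckeComm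
end MergeWrap_Lib_HeckeComm_Psi

section MergeWrap_Lib_HeckeComm_FunId -- from Lib/HeckeComm/FunId.lean

set_option autoImplicit false

noncomputable section

namespace Fermat.Agent.HeckeComm

open ModularCurve AlgebraicCurve Fermat.Agent.F3G Fermat.Agent.Kronecker Fermat.Agent.S24

local notation "Qb" => AlgebraicClosure ℚ

set_option synthInstance.maxHeartbeats 400000

section

variable (N ℓ ℓ' : ℕ) [NeZero N] [NeZero ℓ] [NeZero ℓ']

theorem dvd_level (N ℓ ℓ' : ℕ) : N * ℓ' ∣ N * ℓ * ℓ' :=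
  ⟨ℓ, by ring⟩

theorem dvd_level' (N ℓ ℓ' : ℕ) : N ∣ N * ℓ * ℓ' :=
  ⟨ℓ * ℓ', by ring⟩

/-- compatibility of the two `q ↦ q^ℓ'` with the inclusions. -/
theorem beta_incl (x : ↥(modularFunctionFieldBar N)) :
    heckeBetaBar Qb (N * ℓ) ℓ' (heckeAlphaBar Qb N ℓ x)
      = incl (N * ℓ') (N * ℓ * ℓ') (dvd_level N ℓ ℓ') (heckeBetaBar Qb N ℓ' x) := by
  apply Subtype.ext
  rw [coe_heckeBetaBar, coe_heckeAlphaBar, coe_incl, coe_heckeBetaBar]

theorem incl_incl (A B C : ℕ) [NeZero A] [NeZero B] [NeZero C] (h : A ∣ B) (h' : B ∣ C)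
    (x : ↥(modularFunctionFieldBar A)) :
    incl B C h' (incl A B h x) = incl A C (h.trans h') x := by
  apply Subtype.ext
  rw [coe_incl, coe_incl, coe_incl]

/-- `F_{Nℓℓ'}` is generated over `F_{Nℓ'}` by the image of `F_{Nℓ}` under `q ↦ q^ℓ'`. -/
theorem adjoin_range_beta_eq_top :
    letI := (incl (N * ℓ') (N * ℓ * ℓ') (dvd_level N ℓ ℓ')).toRingHom.toAlgebra
    IntermediateField.adjoin ↥(modularFunctionFieldBar (N * ℓ'))
      (Set.range (heckeBetaBar Qb (N * ℓ) ℓ').toRingHom) = ⊤ := by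
  letI := (incl (N * ℓ') (N * ℓ * ℓ') (dvd_level N ℓ ℓ')).toRingHom.toAlgebra
  haveI : IsScalarTower Qb ↥(modularFunctionFieldBar (N * ℓ'))
      ↥(modularFunctionFieldBar (N * ℓ * ℓ')) :=
    IsScalarTower.of_algebraMap_eq fun c =>
      ((incl (N * ℓ') (N * ℓ * ℓ') (dvd_level N ℓ ℓ')).commutes c).symm
  rw [eq_top_iff]
  rintro x -
  have hx := mem_adjoin_j_jM (N * ℓ * ℓ') x
  induction hx using IntermediateField.adjoin_induction with
  | mem y hy =>
    rcases hy with rfl | hy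
    · have : jBar (N * ℓ * ℓ') = algebraMap ↥(modularFunctionFieldBar (N * ℓ'))
          ↥(modularFunctionFieldBar (N * ℓ * ℓ')) (jBar (N * ℓ')) := by
        apply Subtype.ext
        show _ = ((incl (N * ℓ') (N * ℓ * ℓ') (dvd_level N ℓ ℓ') (jBar (N * ℓ')) :
          ↥(modularFunctionFieldBar (N * ℓ * ℓ'))) : LaurentSeries Qb)
        rw [coe_incl]
        rfl
      rw [this]
      exact IntermediateField.algebraMap_mem _ _
    · rw [Set.mem_singleton_iff] at hy
      subst hy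
      apply IntermediateField.subset_adjoin
      refine ⟨jdBar (N * ℓ) (N * ℓ) dvd_rfl, ?_⟩
      apply Subtype.ext
      show ((heckeBetaBar Qb (N * ℓ) ℓ' (jdBar (N * ℓ) (N * ℓ) dvd_rfl) :
        ↥(modularFunctionFieldBar (N * ℓ * ℓ'))) : LaurentSeries Qb) = _
      rw [coe_heckeBetaBar, coe_jdBar, coe_jdBar, qExpand_qExpand]
      simp only [mul_comm ℓ' (N * ℓ)]
  | algebraMap c =>
    rw [IsScalarTower.algebraMap_apply Qb ↥(modularFunctionFieldBar (N * ℓ'))
      ↥(modularFunctionFieldBar (N * ℓ * ℓ'))]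
    exact IntermediateField.algebraMap_mem _ _
  | add x y _ _ hx hy => exact add_mem hx hy
  | inv x _ hx => exact inv_mem hx
  | mul x y _ _ hx hy => exact mul_mem hx hy

/-- `[F_{Nℓℓ'} : F_{Nℓ'}] = [F_{Nℓ} : F_N]` for distinct primes. -/
theorem finrank_square (hℓ : ℓ.Prime) (hℓ' : ℓ'.Prime) (hne : ℓ ≠ ℓ') :
    (letI := (incl (N * ℓ') (N * ℓ * ℓ') (dvd_level N ℓ ℓ')).toRingHom.toAlgebra
     Module.finrank ↥(modularFunctionFieldBar (N * ℓ')) ↥(modularFunctionFieldBar (N * ℓ * ℓ')))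
    = (letI := (heckeAlphaBar Qb N ℓ).toRingHom.toAlgebra
       Module.finrank ↥(modularFunctionFieldBar N) ↥(modularFunctionFieldBar (N * ℓ))) := by
  obtain ⟨-, h1⟩ := finrank_incl (N * ℓ') (N * ℓ * ℓ') (dvd_level N ℓ ℓ')
  obtain ⟨-, h2⟩ := finrank_incl N (N * ℓ) (dvd_mul_right N ℓ)
  have h3 := dedekindPsi_square hℓ hℓ' hne (NeZero.ne N)
  rw [show N * ℓ' * ℓ = N * ℓ * ℓ' by ring] at h3
  have hp1 : 0 < dedekindPsi (N * ℓ') := dedekindPsi_pos' (N * ℓ')
  have hp2 : 0 < dedekindPsi N := dedekindPsi_pos' N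
  rw [heckeAlphaBar_eq_incl]
  apply Nat.eq_of_mul_eq_mul_right (Nat.mul_pos hp1 hp2)
  calc _ = dedekindPsi (N * ℓ * ℓ') * dedekindPsi N := by rw [← h1]; ring
    _ = dedekindPsi (N * ℓ) * dedekindPsi (N * ℓ') := h3
    _ = _ := by rw [← h2]; ring

/-- **Base change of the norm** along `q ↦ q^ℓ'`. -/
theorem normAlong_beta (hℓ : ℓ.Prime) (hℓ' : ℓ'.Prime) (hne : ℓ ≠ ℓ')
    (g : ↥(modularFunctionFieldBar (N * ℓ))) :
    normAlong (incl (N * ℓ') (N * ℓ * ℓ') (dvd_level N ℓ ℓ')) (heckeBetaBar Qb (N * ℓ) ℓ' g)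
      = heckeBetaBar Qb N ℓ' (normAlong (heckeAlphaBar Qb N ℓ) g) := by
  letI i1 : Algebra ↥(modularFunctionFieldBar (N * ℓ')) ↥(modularFunctionFieldBar (N * ℓ * ℓ')) :=
    (incl (N * ℓ') (N * ℓ * ℓ') (dvd_level N ℓ ℓ')).toRingHom.toAlgebra
  letI i2 : Algebra ↥(modularFunctionFieldBar N) ↥(modularFunctionFieldBar (N * ℓ)) :=
    (heckeAlphaBar Qb N ℓ).toRingHom.toAlgebra
  haveI : FiniteDimensional ↥(modularFunctionFieldBar N) ↥(modularFunctionFieldBar (N * ℓ)) :=
    (finrank_incl N (N * ℓ) (dvd_mul_right N ℓ)).1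
  haveI : FiniteDimensional ↥(modularFunctionFieldBar (N * ℓ'))
      ↥(modularFunctionFieldBar (N * ℓ * ℓ')) :=
    (finrank_incl (N * ℓ') (N * ℓ * ℓ') (dvd_level N ℓ ℓ')).1
  have hspan := nbc_span_eq_top (E := ↥(modularFunctionFieldBar (N * ℓ')))
    (E' := ↥(modularFunctionFieldBar (N * ℓ * ℓ')))
    (heckeBetaBar Qb (N * ℓ) ℓ').toRingHom (adjoin_range_beta_eq_top N ℓ ℓ')
  exact norm_baseChange (F := ↥(modularFunctionFieldBar N))
    (F' := ↥(modularFunctionFieldBar (N * ℓ)))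
    (E := ↥(modularFunctionFieldBar (N * ℓ')))
    (E' := ↥(modularFunctionFieldBar (N * ℓ * ℓ')))
    (heckeBetaBar Qb N ℓ').toRingHom (heckeBetaBar Qb (N * ℓ) ℓ').toRingHom
    (fun x => beta_incl N ℓ ℓ' x) hspan (finrank_square N ℓ ℓ' hℓ hℓ' hne) g

/-- transitivity of the norm in the tower `F_A ⊆ F_B ⊆ F_C`. -/
theorem normAlong_normAlong (A B C : ℕ) [NeZero A] [NeZero B] [NeZero C] (h : A ∣ B)
    (h' : B ∣ C) (y : ↥(modularFunctionFieldBar C)) :
    normAlong (incl A B h) (normAlong (incl B C h') y) = normAlong (incl A C (h.trans h')) y := by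
  letI i1 : Algebra ↥(modularFunctionFieldBar A) ↥(modularFunctionFieldBar B) :=
    (incl A B h).toRingHom.toAlgebra
  letI i2 : Algebra ↥(modularFunctionFieldBar B) ↥(modularFunctionFieldBar C) :=
    (incl B C h').toRingHom.toAlgebra
  letI i3 : Algebra ↥(modularFunctionFieldBar A) ↥(modularFunctionFieldBar C) :=
    (incl A C (h.trans h')).toRingHom.toAlgebra
  haveI : IsScalarTower ↥(modularFunctionFieldBar A) ↥(modularFunctionFieldBar B)
      ↥(modularFunctionFieldBar C) :=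
    IsScalarTower.of_algebraMap_eq fun x => (incl_incl A B C h h' x).symm
  haveI : FiniteDimensional ↥(modularFunctionFieldBar A) ↥(modularFunctionFieldBar B) :=
    (finrank_incl A B h).1
  haveI : FiniteDimensional ↥(modularFunctionFieldBar B) ↥(modularFunctionFieldBar C) :=
    (finrank_incl B C h').1
  exact Algebra.norm_norm (R := ↥(modularFunctionFieldBar A))
    (S := ↥(modularFunctionFieldBar B)) (A := ↥(modularFunctionFieldBar C)) (a := y)

/-- `T_ℓ' (T_ℓ f) = Norm_{F_{Nℓℓ'}/F_N} f(q^{ℓℓ'})`. -/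
theorem heckeFun_heckeFun (hℓ : ℓ.Prime) (hℓ' : ℓ'.Prime) (hne : ℓ ≠ ℓ')
    (f : ↥(modularFunctionFieldBar N)) :
    heckeFun Qb N ℓ' (heckeFun Qb N ℓ f)
      = normAlong (incl N (N * ℓ * ℓ') (dvd_level' N ℓ ℓ'))
          (heckeBetaBar Qb (N * ℓ) ℓ' (heckeBetaBar Qb N ℓ f)) := by
  rw [heckeFun_apply, heckeFun_apply]
  show normAlong (heckeAlphaBar Qb N ℓ')
      (heckeBetaBar Qb N ℓ' (normAlong (heckeAlphaBar Qb N ℓ) (heckeBetaBar Qb N ℓ f))) = _
  rw [← normAlong_beta N ℓ ℓ' hℓ hℓ' hne, heckeAlphaBar_eq_incl,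
    normAlong_normAlong N (N * ℓ') (N * ℓ * ℓ') (dvd_mul_right N ℓ') (dvd_level N ℓ ℓ')]

/-- the norm to `F_N` only depends on the Laurent series. -/
theorem normAlong_incl_congr {M M' : ℕ} [NeZero M] [NeZero M'] (hMM' : M = M') (h : N ∣ M)
    (h' : N ∣ M') (y : ↥(modularFunctionFieldBar M)) (y' : ↥(modularFunctionFieldBar M'))
    (hy : (y : LaurentSeries Qb) = (y' : LaurentSeries Qb)) :
    normAlong (incl N M h) y = normAlong (incl N M' h') y' := by
  subst hMM'
  have : y = y' := Subtype.ext hy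
  subst this
  rfl

/-- **The function identity.** -/
theorem heckeFun_comm (hℓ : ℓ.Prime) (hℓ' : ℓ'.Prime) (hne : ℓ ≠ ℓ')
    (f : ↥(modularFunctionFieldBar N)) :
    heckeFun Qb N ℓ' (heckeFun Qb N ℓ f) = heckeFun Qb N ℓ (heckeFun Qb N ℓ' f) := by
  rw [heckeFun_heckeFun N ℓ ℓ' hℓ hℓ' hne, heckeFun_heckeFun N ℓ' ℓ hℓ' hℓ (Ne.symm hne)]
  apply normAlong_incl_congr N (by ring)
  rw [coe_heckeBetaBar, coe_heckeBetaBar, coe_heckeBetaBar, coe_heckeBetaBar,
    qExpand_qExpand, qExpand_qExpand]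
  simp only [mul_comm ℓ' ℓ]

end

end Fermat.Agent.HeckeComm
end
end MergeWrap_Lib_HeckeComm_FunId

section MergeWrap_R38_P_Core -- from R38/P/Core.lean

set_option autoImplicit false

namespace Fermat.Agent.R38

/-- (INT) ⟹ the slopes are proportional to the multiplicities modulo `p`. -/
theorem r38_slope_eq_kappa {ι : Type*} {p : ℕ} (hp : p.Prime) (ε a : ι → ℤ)
    (hε : ∀ i, ¬ (p : ℤ) ∣ ε i) (hint : ∀ i j, (p : ℤ) ∣ ε j * a i - ε i * a j) (i₀ : ι) :
    ∃ κ : ℤ, ∀ i, (p : ℤ) ∣ a i - κ * ε i := by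
  have hpZ : Prime (p : ℤ) := Nat.prime_iff_prime_int.mp hp
  have hcop : IsCoprime (ε i₀) (p : ℤ) := by
    rw [isCoprime_comm]
    exact (Prime.coprime_iff_not_dvd hpZ).mpr (hε i₀)
  obtain ⟨x, y, hxy⟩ := hcop
  -- `x * ε i₀ + y * p = 1`
  refine ⟨x * a i₀, fun i => ?_⟩
  have h1 := hint i i₀
  -- `ε i₀ * a i - ε i * a i₀ ≡ 0`; multiply by `x`
  have h2 : a i - x * a i₀ * ε i = x * (ε i₀ * a i - ε i * a i₀) + (p : ℤ) * (y * a i) := by
    have : a i = (x * ε i₀ + y * p) * a i := by rw [hxy, one_mul]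
    linear_combination this
  rw [h2]
  exact dvd_add (Dvd.dvd.mul_left h1 x) (dvd_mul_right _ _)

/-- **(PHI), abstract core.** -/
theorem r38_phi_core {ι : Type*} {p : ℕ} (hp : p.Prime) (ε a : ι → ℤ)
    (hε : ∀ i, ¬ (p : ℤ) ∣ ε i) (hint : ∀ i j, (p : ℤ) ∣ ε j * a i - ε i * a j)
    (t l : ℤ) (ht : ¬ (p : ℤ) ∣ t - (l + 1))
    (hstab : ∀ κ : ℤ, (∀ i, (p : ℤ) ∣ a i - κ * ε i) →
      ∀ i, (p : ℤ) ∣ t * a i - κ * (l + 1) * ε i) :
    ∀ i, (p : ℤ) ∣ a i := by
  intro i₀
  have hpZ : Prime (p : ℤ) := Nat.prime_iff_prime_int.mp hp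
  obtain ⟨κ, hκ⟩ := r38_slope_eq_kappa hp ε a hε hint i₀
  have h1 := hstab κ hκ i₀
  have h2 := hκ i₀
  -- `t a - κ (l+1) ε = t (a - κ ε) + κ ε (t - (l+1))`
  have h3 : (p : ℤ) ∣ κ * ε i₀ * (t - (l + 1)) := by
    have e : κ * ε i₀ * (t - (l + 1)) =
        (t * a i₀ - κ * (l + 1) * ε i₀) - t * (a i₀ - κ * ε i₀) := by ring
    rw [e]
    exact dvd_sub h1 (Dvd.dvd.mul_left h2 t)
  have h4 : (p : ℤ) ∣ κ * ε i₀ := (hpZ.dvd_or_dvd h3).resolve_right ht
  have h5 : (p : ℤ) ∣ κ := (hpZ.dvd_or_dvd h4).resolve_right (hε i₀)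
  have e : a i₀ = (a i₀ - κ * ε i₀) + κ * ε i₀ := by ring
  rw [e]
  exact dvd_add h2 (Dvd.dvd.mul_right h5 _)

end Fermat.Agent.R38
end MergeWrap_R38_P_Core

section MergeWrap_R38_P_Slope -- from R38/P/Slope.lean

set_option autoImplicit false

noncomputable section

namespace Fermat.Agent.R38

open AlgebraicCurve Fermat.Agent.RR Fermat.Agent.Deuring

variable {K F k Fk : Type*} [Field K] [Field F] [Algebra K F]
  [Field k] [Field Fk] [Algebra k Fk] (S : ValSetup K F k Fk)

/-- every nonzero function has a normalising constant. -/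
theorem r38_exists_red_ne_zero {h : F} (hh : h ≠ 0) :
    ∃ c : K, c ≠ 0 ∧ S.red (h / algebraMap K F c) ≠ 0 := by
  obtain ⟨c, hc, h1, h2⟩ := S.scale h hh
  refine ⟨c, hc, ?_⟩
  have hca : algebraMap K F c ≠ 0 := (map_ne_zero (algebraMap K F)).mpr hc
  rw [div_eq_mul_inv]
  exact S.red_ne_zero h1 h2 (mul_ne_zero hh (inv_ne_zero hca))

/-- the normalising constant is not zero. -/
theorem r38_const_ne_zero {h : F} {c : K} (hc : S.red (h / algebraMap K F c) ≠ 0) : c ≠ 0 := by
  rintro rfl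
  apply hc
  rw [map_zero, div_zero, S.red_zero]

/-- the function is not zero. -/
theorem r38_fun_ne_zero {h : F} {c : K} (hc : S.red (h / algebraMap K F c) ≠ 0) : h ≠ 0 := by
  rintro rfl
  apply hc
  rw [zero_div, S.red_zero]

/-- multiplicativity of the normalised reduction. -/
theorem r38_red_div_mul {h₁ h₂ : F} {c₁ c₂ : K} (hc₁ : S.red (h₁ / algebraMap K F c₁) ≠ 0)
    (hc₂ : S.red (h₂ / algebraMap K F c₂) ≠ 0) :
    S.red (h₁ * h₂ / algebraMap K F (c₁ * c₂)) =
      S.red (h₁ / algebraMap K F c₁) * S.red (h₂ / algebraMap K F c₂) := by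
  rw [map_mul, mul_div_mul_comm]
  exact S.red_mul (S.mem_of_red_ne_zero hc₁) (S.mem_of_red_ne_zero hc₂)

/-- the normalised reduction of the inverse. -/
theorem r38_red_div_inv {h : F} {c : K} (hc : S.red (h / algebraMap K F c) ≠ 0) :
    S.red (h⁻¹ / algebraMap K F c⁻¹) = (S.red (h / algebraMap K F c))⁻¹ := by
  have e : h⁻¹ / algebraMap K F c⁻¹ = (h / algebraMap K F c)⁻¹ := by
    rw [map_inv₀, inv_div_inv, inv_div]
  rw [e]
  exact S.red_inv (S.mem_of_red_ne_zero hc) (S.inv_mem_of_red_ne_zero hc)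
    (S.ne_zero_of_red_ne_zero hc)

/-- the normalised reduction of a power. -/
theorem r38_red_div_pow {h : F} {c : K} (hc : S.red (h / algebraMap K F c) ≠ 0) (n : ℕ) :
    S.red (h ^ n / algebraMap K F (c ^ n)) = S.red (h / algebraMap K F c) ^ n := by
  rw [map_pow, ← div_pow]
  exact S.red_pow (S.mem_of_red_ne_zero hc) n

/-- the normalised reduction of an integer power. -/
theorem r38_red_div_zpow {h : F} {c : K} (hc : S.red (h / algebraMap K F c) ≠ 0) (n : ℤ) :
    S.red (h ^ n / algebraMap K F (c ^ n)) = S.red (h / algebraMap K F c) ^ n := by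
  cases n with
  | ofNat m =>
    simp only [Int.ofNat_eq_natCast, zpow_natCast]
    exact r38_red_div_pow S hc m
  | negSucc m =>
    simp only [zpow_negSucc]
    have h1 := r38_red_div_pow S hc (m + 1)
    have h1ne : S.red (h ^ (m + 1) / algebraMap K F (c ^ (m + 1))) ≠ 0 := by
      rw [h1]
      exact pow_ne_zero _ hc
    rw [r38_red_div_inv S h1ne, h1]

/-- the normalised reduction of a nonzero constant. -/
theorem r38_red_div_const {a : K} (ha : a ≠ 0) :
    S.red (algebraMap K F a / algebraMap K F a) = 1 := by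
  rw [div_self ((map_ne_zero (algebraMap K F)).mpr ha), S.red_one]

/-- two normalised reductions of the same function differ by a nonzero constant. -/
theorem r38_red_div_ratio {h : F} {c c' : K} (hc : S.red (h / algebraMap K F c) ≠ 0)
    (hc' : S.red (h / algebraMap K F c') ≠ 0) :
    ∃ a : k, a ≠ 0 ∧
      S.red (h / algebraMap K F c') = algebraMap k Fk a * S.red (h / algebraMap K F c) := by
  have hc0 := r38_const_ne_zero S hc
  have hc'0 := r38_const_ne_zero S hc'
  have hh := r38_fun_ne_zero S hc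
  have hca : algebraMap K F c ≠ 0 := (map_ne_zero (algebraMap K F)).mpr hc0
  have hca' : algebraMap K F c' ≠ 0 := (map_ne_zero (algebraMap K F)).mpr hc'0
  -- `c / c'` is a unit of `A`
  have e1 : algebraMap K F (c / c') = (h / algebraMap K F c') * (h / algebraMap K F c)⁻¹ := by
    rw [map_div₀]
    field_simp
  have e2 : algebraMap K F (c' / c) = (h / algebraMap K F c) * (h / algebraMap K F c')⁻¹ := by
    rw [map_div₀]
    field_simp
  have m1 : algebraMap K F (c / c') ∈ S.Ov := by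
    rw [e1]
    exact mul_mem (S.mem_of_red_ne_zero hc') (S.inv_mem_of_red_ne_zero hc)
  have m2 : algebraMap K F (c' / c) ∈ S.Ov := by
    rw [e2]
    exact mul_mem (S.mem_of_red_ne_zero hc) (S.inv_mem_of_red_ne_zero hc')
  have a1 : c / c' ∈ S.A := (S.mem_Ov_iff _).mp m1
  have e3 : h / algebraMap K F c' = algebraMap K F (c / c') * (h / algebraMap K F c) := by
    rw [map_div₀]
    field_simp
  refine ⟨S.res ⟨c / c', a1⟩, ?_, ?_⟩
  · intro h0
    apply hc'
    rw [e3, S.red_mul m1 (S.mem_of_red_ne_zero hc), S.red_algebraMap a1, h0, map_zero, zero_mul]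
  · rw [e3, S.red_mul m1 (S.mem_of_red_ne_zero hc), S.red_algebraMap a1]

/-- the order of the normalised reduction does not depend on the normalising constant. -/
theorem r38_ord_red_eq (Q : Place k Fk) {h : F} {c c' : K}
    (hc : S.red (h / algebraMap K F c) ≠ 0) (hc' : S.red (h / algebraMap K F c') ≠ 0) :
    Q.ord (S.red (h / algebraMap K F c')) = Q.ord (S.red (h / algebraMap K F c)) := by
  obtain ⟨a, ha, e⟩ := r38_red_div_ratio S hc hc'
  rw [e, Q.ord_mul ((map_ne_zero (algebraMap k Fk)).mpr ha) hc,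
    Fermat.Agent.S24Res.ord_algebraMap, zero_add]

/-- additivity of the orders of the normalised reductions. -/
theorem r38_ord_red_mul (Q : Place k Fk) {h₁ h₂ : F} {c₁ c₂ c : K}
    (hc₁ : S.red (h₁ / algebraMap K F c₁) ≠ 0) (hc₂ : S.red (h₂ / algebraMap K F c₂) ≠ 0)
    (hc : S.red (h₁ * h₂ / algebraMap K F c) ≠ 0) :
    Q.ord (S.red (h₁ * h₂ / algebraMap K F c)) =
      Q.ord (S.red (h₁ / algebraMap K F c₁)) + Q.ord (S.red (h₂ / algebraMap K F c₂)) := by
  have h12 : S.red (h₁ * h₂ / algebraMap K F (c₁ * c₂)) ≠ 0 := by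
    rw [r38_red_div_mul S hc₁ hc₂]
    exact mul_ne_zero hc₁ hc₂
  rw [r38_ord_red_eq S Q h12 hc, r38_red_div_mul S hc₁ hc₂, Q.ord_mul hc₁ hc₂]

/-- the orders of the normalised reductions of an integer power. -/
theorem r38_ord_red_zpow (Q : Place k Fk) {h : F} {c c' : K} (n : ℤ)
    (hc : S.red (h / algebraMap K F c) ≠ 0) (hc' : S.red (h ^ n / algebraMap K F c') ≠ 0) :
    Q.ord (S.red (h ^ n / algebraMap K F c')) = n * Q.ord (S.red (h / algebraMap K F c)) := by
  have hn : S.red (h ^ n / algebraMap K F (c ^ n)) ≠ 0 := by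
    rw [r38_red_div_zpow S hc]
    exact zpow_ne_zero _ hc
  rw [r38_ord_red_eq S Q hn hc', r38_red_div_zpow S hc, Q.ord_zpow]

/-- the order of the normalised reduction of a constant multiple. -/
theorem r38_ord_red_const_mul (Q : Place k Fk) {h : F} {a c c' : K} (ha : a ≠ 0)
    (hc : S.red (h / algebraMap K F c) ≠ 0)
    (hc' : S.red (algebraMap K F a * h / algebraMap K F c') ≠ 0) :
    Q.ord (S.red (algebraMap K F a * h / algebraMap K F c')) =
      Q.ord (S.red (h / algebraMap K F c)) := by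
  have h1 : S.red (algebraMap K F a / algebraMap K F a) ≠ 0 := by
    rw [r38_red_div_const S ha]
    exact one_ne_zero
  rw [r38_ord_red_mul S Q h1 hc hc', r38_red_div_const S ha, Q.ord_one, zero_add]

/-! ### the slope function -/

open Classical in
/-- the SLOPE of `h` at the place `Q` of the residue field: the order at `Q` of a normalised
reduction of `h` (`0` for `h = 0`). -/
def r38Sl (Q : Place k Fk) (h : F) : ℤ :=
  if hh : h ≠ 0 then
    Q.ord (S.red (h / algebraMap K F (Classical.choose (r38_exists_red_ne_zero S hh))))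
  else 0

/-- the order of ANY normalised reduction is the slope. -/
theorem r38Sl_eq (Q : Place k Fk) {h : F} {c : K} (hc : S.red (h / algebraMap K F c) ≠ 0) :
    Q.ord (S.red (h / algebraMap K F c)) = r38Sl S Q h := by
  have hh := r38_fun_ne_zero S hc
  unfold r38Sl
  rw [dif_pos hh]
  exact (r38_ord_red_eq S Q hc (Classical.choose_spec (r38_exists_red_ne_zero S hh)).2).symm

/-- the slope of a unit of the Gauss ring. -/
theorem r38Sl_unit (Q : Place k Fk) {h : F} (hc : S.red h ≠ 0) :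
    r38Sl S Q h = Q.ord (S.red h) := by
  have h1 : S.red (h / algebraMap K F 1) ≠ 0 := by rwa [map_one, div_one]
  rw [← r38Sl_eq S Q h1, map_one, div_one]

/-- the slope of a nonzero constant is `0`. -/
theorem r38Sl_const (Q : Place k Fk) {a : K} (ha : a ≠ 0) :
    r38Sl S Q (algebraMap K F a) = 0 := by
  have h1 : S.red (algebraMap K F a / algebraMap K F a) ≠ 0 := by
    rw [r38_red_div_const S ha]
    exact one_ne_zero
  rw [← r38Sl_eq S Q h1, r38_red_div_const S ha, Q.ord_one]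

/-- the slope is additive. -/
theorem r38Sl_mul (Q : Place k Fk) {h₁ h₂ : F} (hh₁ : h₁ ≠ 0) (hh₂ : h₂ ≠ 0) :
    r38Sl S Q (h₁ * h₂) = r38Sl S Q h₁ + r38Sl S Q h₂ := by
  obtain ⟨c₁, -, hc₁⟩ := r38_exists_red_ne_zero S hh₁
  obtain ⟨c₂, -, hc₂⟩ := r38_exists_red_ne_zero S hh₂
  have h12 : S.red (h₁ * h₂ / algebraMap K F (c₁ * c₂)) ≠ 0 := by
    rw [r38_red_div_mul S hc₁ hc₂]
    exact mul_ne_zero hc₁ hc₂
  rw [← r38Sl_eq S Q h12, ← r38Sl_eq S Q hc₁, ← r38Sl_eq S Q hc₂,
    r38_red_div_mul S hc₁ hc₂, Q.ord_mul hc₁ hc₂]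

/-- the slope of an integer power. -/
theorem r38Sl_zpow (Q : Place k Fk) {h : F} (hh : h ≠ 0) (n : ℤ) :
    r38Sl S Q (h ^ n) = n * r38Sl S Q h := by
  obtain ⟨c, -, hc⟩ := r38_exists_red_ne_zero S hh
  have hn : S.red (h ^ n / algebraMap K F (c ^ n)) ≠ 0 := by
    rw [r38_red_div_zpow S hc]
    exact zpow_ne_zero _ hc
  rw [← r38Sl_eq S Q hn, ← r38Sl_eq S Q hc, r38_red_div_zpow S hc, Q.ord_zpow]

/-- the slope of a power. -/
theorem r38Sl_pow (Q : Place k Fk) {h : F} (hh : h ≠ 0) (n : ℕ) :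
    r38Sl S Q (h ^ n) = n * r38Sl S Q h := by
  have := r38Sl_zpow S Q hh (n : ℤ)
  rwa [zpow_natCast] at this

/-- the slope of a constant multiple. -/
theorem r38Sl_const_mul (Q : Place k Fk) {a : K} (ha : a ≠ 0) {h : F} (hh : h ≠ 0) :
    r38Sl S Q (algebraMap K F a * h) = r38Sl S Q h := by
  rw [r38Sl_mul S Q ((map_ne_zero (algebraMap K F)).mpr ha) hh, r38Sl_const S Q ha, zero_add]

end Fermat.Agent.R38
end
end MergeWrap_R38_P_Slope

section MergeWrap_R38_P_Abs -- from R38/P/Abs.lean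

set_option autoImplicit false

noncomputable section

namespace Fermat.Agent.R38

open AlgebraicCurve Fermat.Agent.RR Fermat.Agent.Deuring

variable {K F k Fk : Type*} [Field K] [Field F] [Algebra K F]
  [Field k] [Field Fk] [Algebra k Fk] (S : ValSetup K F k Fk)

/-- a monoid endomorphism of a field which does not kill `x ≠ 0` commutes with the inverse. -/
theorem r38_map_inv {F' : Type*} [Field F'] (T : F →* F') {x : F} (hx : x ≠ 0) :
    T x⁻¹ = (T x)⁻¹ := by
  have h1 : T x * T x⁻¹ = 1 := by rw [← map_mul, mul_inv_cancel₀ hx, map_one]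
  exact eq_inv_of_mul_eq_one_right h1

theorem r38_map_ne_zero {F' : Type*} [Field F'] (T : F →* F') {x : F} (hx : x ≠ 0) :
    T x ≠ 0 := by
  intro h0
  have h1 : T x * T x⁻¹ = 1 := by rw [← map_mul, mul_inv_cancel₀ hx, map_one]
  rw [h0, zero_mul] at h1
  exact zero_ne_one h1

theorem r38_map_zpow {F' : Type*} [Field F'] (T : F →* F') {x : F} (hx : x ≠ 0) (n : ℤ) :
    T (x ^ n) = T x ^ n := by
  cases n with
  | ofNat m => simp only [Int.ofNat_eq_natCast, zpow_natCast, map_pow]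
  | negSucc m =>
    simp only [zpow_negSucc]
    rw [r38_map_inv T (pow_ne_zero _ hx), map_pow]

/-- **(PHI), abstract form.** -/
theorem r38_phi_abs {p : ℕ} (hp : p.Prime) (T : F →* F) (Tbar : Fk →* Fk) (u : F)
    (hu : S.red u ≠ 0)
    (hnr : ∀ x : F, S.red x ≠ 0 → S.red (T x) = Tbar (S.red x))
    (hTc : ∀ c : K, c ≠ 0 → ∃ c' : K, c' ≠ 0 ∧ T (algebraMap K F c) = algebraMap K F c')
    (hpl : ∀ x : Fk, x ≠ 0 →
      (∀ Q : Place k Fk, 0 ≤ Q.ord (S.red u) → (p : ℤ) ∣ Q.ord x) →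
      ∀ Q : Place k Fk, 0 < Q.ord (S.red u) → (p : ℤ) ∣ Q.ord (Tbar x))
    (L : ℕ) (hTu : ∃ c : K, c ≠ 0 ∧ T u = algebraMap K F c * u ^ L)
    (heps : ∀ Q : Place k Fk, 0 < Q.ord (S.red u) → ¬ (p : ℤ) ∣ Q.ord (S.red u))
    (g : F) (hg0 : g ≠ 0)
    (hpush : ∀ Q : Place k Fk, Q.ord (S.red u) = 0 → (p : ℤ) ∣ r38Sl S Q g)
    (hint : ∀ Q Q' : Place k Fk, 0 < Q.ord (S.red u) → 0 < Q'.ord (S.red u) →
      (p : ℤ) ∣ Q'.ord (S.red u) * r38Sl S Q g - Q.ord (S.red u) * r38Sl S Q' g)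
    (t : ℤ) (hTg : ∃ (c : K) (φ : F), c ≠ 0 ∧ φ ≠ 0 ∧ T g = algebraMap K F c * g ^ t * φ ^ p)
    (ht : ¬ (p : ℤ) ∣ t - (L : ℤ)) :
    ∀ Q : Place k Fk, 0 < Q.ord (S.red u) → (p : ℤ) ∣ r38Sl S Q g := by
  classical
  have hu0 : u ≠ 0 := S.ne_zero_of_red_ne_zero hu
  -- the nodes
  set ι := {Q : Place k Fk // 0 < Q.ord (S.red u)} with hι
  have key : ∀ i : ι, (p : ℤ) ∣ r38Sl S i.1 g := by
    refine r38_phi_core hp (fun i : ι => i.1.ord (S.red u)) (fun i : ι => r38Sl S i.1 g)
      (fun i => heps i.1 i.2) (fun i j => hint i.1 j.1 i.2 j.2) t ((L : ℤ) - 1) ?_ ?_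
    · rwa [sub_add_cancel]
    · intro κ hκ i
      rw [sub_add_cancel]
      -- `G = g u^(-κ)`, normalised
      obtain ⟨cg, hcg0, hcg⟩ := r38_exists_red_ne_zero S hg0
      set G : F := g / algebraMap K F cg * u ^ (-κ) with hG
      have hcga : algebraMap K F cg ≠ 0 := (map_ne_zero (algebraMap K F)).mpr hcg0
      have huκ : S.red (u ^ (-κ)) ≠ 0 := by
        have h1 : S.red (u / algebraMap K F 1) ≠ 0 := by rwa [map_one, div_one]
        have h2 := r38_red_div_zpow S h1 (-κ)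
        simp only [one_zpow, map_one, div_one] at h2
        rw [h2]
        exact zpow_ne_zero _ hu
      have hGred : S.red G = S.red (g / algebraMap K F cg) * S.red (u ^ (-κ)) :=
        S.red_mul (S.mem_of_red_ne_zero hcg) (S.mem_of_red_ne_zero huκ)
      have hGne : S.red G ≠ 0 := by
        rw [hGred]
        exact mul_ne_zero hcg huκ
      have hG0 : G ≠ 0 := S.ne_zero_of_red_ne_zero hGne
      -- slopes of `G`
      have hslG : ∀ Q : Place k Fk, Q.ord (S.red G) = r38Sl S Q g - κ * Q.ord (S.red u) := by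
        intro Q
        rw [← r38Sl_unit S Q hGne, hG,
          r38Sl_mul S Q (div_ne_zero hg0 hcga) (zpow_ne_zero _ hu0), r38Sl_zpow S Q hu0,
          r38Sl_unit S Q hu, div_eq_mul_inv, r38Sl_mul S Q hg0 (inv_ne_zero hcga),
          ← map_inv₀, r38Sl_const S Q (inv_ne_zero hcg0)]
        ring
      -- off-cusp divisibility
      have hoff : ∀ Q : Place k Fk, 0 ≤ Q.ord (S.red u) → (p : ℤ) ∣ Q.ord (S.red G) := by
        intro Q hQ
        rw [hslG Q]
        rcases hQ.lt_or_eq with hpos | hzero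
        · exact hκ ⟨Q, hpos⟩
        · rw [← hzero, mul_zero, sub_zero]
          exact hpush Q hzero.symm
      have hT := hpl (S.red G) hGne hoff i.1 i.2
      rw [← hnr G hGne] at hT
      -- compute `T G`
      obtain ⟨c₁, φ, hc₁, hφ, hTg'⟩ := hTg
      obtain ⟨c₂, hc₂, hTu'⟩ := hTu
      obtain ⟨c₃, hc₃, hTc'⟩ := hTc cg hcg0
      have hTGne : S.red (T G) ≠ 0 := by
        rw [hnr G hGne]
        intro h0
        have := r38_map_ne_zero Tbar hGne
        exact this h0
      have hTG : T G = algebraMap K F c₁ * g ^ t * φ ^ p * (algebraMap K F c₃)⁻¹ *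
          (algebraMap K F c₂ * u ^ L) ^ (-κ) := by
        rw [hG, map_mul, div_eq_mul_inv, map_mul, r38_map_inv T hcga, hTc',
          r38_map_zpow T hu0, hTg', hTu']
      have hc₁a : algebraMap K F c₁ ≠ 0 := (map_ne_zero (algebraMap K F)).mpr hc₁
      have hc₂a : algebraMap K F c₂ ≠ 0 := (map_ne_zero (algebraMap K F)).mpr hc₂
      have hc₃a : algebraMap K F c₃ ≠ 0 := (map_ne_zero (algebraMap K F)).mpr hc₃
      have hsl : i.1.ord (S.red (T G)) =
          t * r38Sl S i.1 g + p * r38Sl S i.1 φ - κ * (L * i.1.ord (S.red u)) := by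
        rw [← r38Sl_unit S i.1 hTGne, hTG,
          r38Sl_mul S i.1 (mul_ne_zero (mul_ne_zero (mul_ne_zero hc₁a (zpow_ne_zero _ hg0))
            (pow_ne_zero _ hφ)) (inv_ne_zero hc₃a))
            (zpow_ne_zero _ (mul_ne_zero hc₂a (pow_ne_zero _ hu0))),
          r38Sl_mul S i.1 (mul_ne_zero (mul_ne_zero hc₁a (zpow_ne_zero _ hg0))
            (pow_ne_zero _ hφ)) (inv_ne_zero hc₃a),
          r38Sl_mul S i.1 (mul_ne_zero hc₁a (zpow_ne_zero _ hg0)) (pow_ne_zero _ hφ),
          r38Sl_const_mul S i.1 hc₁ (zpow_ne_zero _ hg0), r38Sl_zpow S i.1 hg0,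
          r38Sl_pow S i.1 hφ, ← map_inv₀, r38Sl_const S i.1 (inv_ne_zero hc₃),
          r38Sl_zpow S i.1 (mul_ne_zero hc₂a (pow_ne_zero _ hu0)),
          r38Sl_const_mul S i.1 hc₂ (pow_ne_zero _ hu0), r38Sl_pow S i.1 hu0,
          r38Sl_unit S i.1 hu]
        ring
      rw [hsl] at hT
      -- conclude
      have e : t * r38Sl S i.1 g - κ * (L : ℤ) * i.1.ord (S.red u) =
          (t * r38Sl S i.1 g + p * r38Sl S i.1 φ - κ * (L * i.1.ord (S.red u))) -
            (p : ℤ) * r38Sl S i.1 φ := by ring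
      show (p : ℤ) ∣ t * r38Sl S i.1 g - κ * (L : ℤ) * i.1.ord (S.red u)
      rw [e]
      exact dvd_sub hT (dvd_mul_right _ _)
  intro Q hQ
  exact key ⟨Q, hQ⟩

end Fermat.Agent.R38
end
end MergeWrap_R38_P_Abs

section MergeWrap_R38_P_Eig -- from R38/P/Eig.lean

set_option autoImplicit false
set_option linter.unusedSectionVars false
set_option linter.style.haveILetI false

noncomputable section

open ModularCurve AlgebraicCurve

set_option synthInstance.maxHeartbeats 400000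

namespace Fermat.Agent.R38

open Fermat.Agent.F3G Fermat.Agent.F3I2

local notation "Qb" => AlgebraicClosure ℚ

/-- a nonzero function with trivial divisor on `X₀(N)` is a nonzero constant. -/
theorem r38_const_of_ord_eq_zero (N : ℕ) [NeZero N] {x : modularFunctionFieldBar N}
    (hx : x ≠ 0) (hv : ∀ v : Place Qb (modularFunctionFieldBar N), v.ord x = 0) :
    ∃ c : Qb, c ≠ 0 ∧ x = algebraMap Qb (modularFunctionFieldBar N) c := by
  obtain ⟨c, hc⟩ := Fermat.Agent.F3Places.exists_algebraMap_eq_of_forall_ord_eq_zero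
    (Fermat.Agent.S24.isFunctionFieldOver_jBar N) x hv
  refine ⟨c, ?_, hc⟩
  rintro rfl
  rw [map_zero] at hc
  exact hx hc

/-- **(P-eig)** `T_ℓ [E] = t • [E]`, `p • E = div g`  ⟹  `T_ℓ g = c · g ^ t · φ ^ p`. -/
theorem r38_heckeFun_eig (N ℓ : ℕ) [NeZero N] [NeZero ℓ] (p : ℕ)
    (E : Divisor.degZero (K := Qb) (F := modularFunctionFieldBar N))
    (g : modularFunctionFieldBar N) (hg : IsRootDiv p g E) (t : ℤ)
    (hT : heckeOperatorAlong Qb N ℓ (Pic0.mk E) = t • Pic0.mk E) :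
    ∃ (c : Qb) (φ : modularFunctionFieldBar N), c ≠ 0 ∧ φ ≠ 0 ∧
      heckeFun Qb N ℓ g = algebraMap Qb (modularFunctionFieldBar N) c * g ^ t * φ ^ p := by
  have hin := Fermat.Agent.HeckeInputs.hi_heckeInputsAlong_Qbar N ℓ
  obtain ⟨E', hE1, hE2⟩ := heckeOperatorAlong_mk_of_zsmul_eq_div hin E (p : ℤ) hg.1 hg.2
  have hTg0 : heckeFun Qb N ℓ g ≠ 0 := heckeFun_ne_zero hin hg.1
  -- `E' - t • E` is principal
  have h1 : Pic0.mk (E' - t • E) = 0 := by
    have e1 : Pic0.mk (E' - t • E) = Pic0.mk E' - t • Pic0.mk E := by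
      show (QuotientAddGroup.mk' _) (E' - t • E) = _
      rw [map_sub, map_zsmul]
      rfl
    rw [e1, ← hE1, hT, sub_self]
  have h2 : (E' - t • E : Divisor.degZero (K := Qb) (F := modularFunctionFieldBar N)) ∈
      (Divisor.principal (K := Qb) (F := modularFunctionFieldBar N)).addSubgroupOf
        (Divisor.degZero (K := Qb) (F := modularFunctionFieldBar N)) :=
    (QuotientAddGroup.eq_zero_iff _).mp h1
  obtain ⟨φ, hφ, hDφ⟩ := h2
  have hDφ' : ∀ v : Place Qb (modularFunctionFieldBar N),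
      (E' : Divisor Qb (modularFunctionFieldBar N)) v -
        t * (E : Divisor Qb (modularFunctionFieldBar N)) v = v.ord φ := by
    intro v
    have := hDφ v
    simpa using this
  -- the quotient has trivial divisor
  have hgt : g ^ t ≠ 0 := zpow_ne_zero t hg.1
  have hφp : φ ^ p ≠ 0 := pow_ne_zero p hφ
  have hden : g ^ t * φ ^ p ≠ 0 := mul_ne_zero hgt hφp
  set x : modularFunctionFieldBar N := heckeFun Qb N ℓ g * (g ^ t * φ ^ p)⁻¹ with hx
  have hx0 : x ≠ 0 := mul_ne_zero hTg0 (inv_ne_zero hden)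
  have hord : ∀ v : Place Qb (modularFunctionFieldBar N), v.ord x = 0 := by
    intro v
    rw [hx, v.ord_mul hTg0 (inv_ne_zero hden), v.ord_inv, v.ord_mul hgt hφp, v.ord_zpow,
      ← zpow_natCast φ p, v.ord_zpow, ← hE2 v, ← hg.2 v, ← hDφ' v]
    ring
  obtain ⟨c, hc0, hc⟩ := r38_const_of_ord_eq_zero N hx0 hord
  refine ⟨c, φ, hc0, hφ, ?_⟩
  rw [mul_assoc, ← hc, hx, inv_mul_cancel_right₀ hden]

end Fermat.Agent.R38
end
end MergeWrap_R38_P_Eig

section MergeWrap_R38_P_EtaNorm -- from R38/P/EtaNorm.lean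

set_option autoImplicit false
set_option linter.unusedSectionVars false
set_option linter.style.haveILetI false

noncomputable section

open ModularCurve AlgebraicCurve

set_option synthInstance.maxHeartbeats 400000

namespace Fermat.Agent.R38

open Fermat.Agent.BadRed Fermat.Agent.Kronecker Fermat.Agent.F3G Fermat.Agent.ES15
open Fermat.Agent.AtkinLehner Fermat.Agent.HeckeComm

local notation "Qb" => AlgebraicClosure ℚ

/-- **the norm of `u(q^r)`** at every level: `T_r u = c₀ u^{r+1}` for `u = Δ(z)/Δ(qz)`, `q ∣ N`,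
`r ∤ N` prime. -/
theorem pu_heckeFun_uF (N q : ℕ) [NeZero N] [NeZero q] (hq : q ∣ N) (r : ℕ) [NeZero r]
    (hr : r.Prime) (hrN : ¬ r ∣ N) :
    ∃ c : Qb, c ≠ 0 ∧ heckeFun Qb N r (uF N q hq) =
      algebraMap Qb (modularFunctionFieldBar N) c * uF N q hq ^ (r + 1) := by
  obtain ⟨ζ, hζ, hprod⟩ := normProductFormula N r hr hrN
  have hrq : ¬ r ∣ q := fun h => hrN (h.trans hq)
  have hcop : Nat.Coprime q r := ((Nat.Prime.coprime_iff_not_dvd hr).mpr hrq).symm
  obtain ⟨c, hc, hΦ⟩ := enPhi_uSer (K := Qb) hr q hcop ζ hζ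
  refine ⟨c, hc, ?_⟩
  apply Subtype.ext
  apply qExpand_injective (R := Qb) (N := r)
  rw [hprod (uF N q hq), coe_uF, hΦ]
  show _ = qExpand Qb r ((algebraMap Qb (LaurentSeries Qb) c) * (uSer Qb q) ^ (r + 1))
  rw [map_mul, map_pow, algebraMap_laurentSeries_eq_single, qExpand_single, mul_zero,
    HahnSeries.C_apply]

section Generic

variable {K F F' : Type*} [Field K] [Field F] [Field F'] [Algebra K F] [Algebra K F']

/-- the norm along `σ ∘ ψ` of `σ y` is the norm along `ψ` of `y`. -/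
theorem pu_normAlong_comp_equiv (ψ : F →ₐ[K] F') (σ : F' ≃ₐ[K] F') (y : F') :
    normAlong (σ.toAlgHom.comp ψ) (σ y) = normAlong ψ y := by
  letI a1 : Algebra F F' := algebraAlong ψ
  let a2 : Algebra F F' := algebraAlong (σ.toAlgHom.comp ψ)
  let e : @AlgEquiv F F' F' _ _ _ a1 a2 :=
    @AlgEquiv.mk F F' F' _ _ _ a1 a2 σ.toEquiv (fun x y => map_mul σ x y)
      (fun x y => map_add σ x y) (fun f => rfl)
  show @Algebra.norm F F' _ _ a2 (σ y) = @Algebra.norm F F' _ _ a1 y
  exact @Algebra.norm_eq_of_algEquiv F F' F' _ _ a1 _ a2 e y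

end Generic

/-- **the transposed correspondence is the same on functions**:
`Norm_β (α x) = Norm_α (β x)`. -/
theorem pu_normAlong_betaQ_alphaQ (D : ALData) [NeZero D.Q] [NeZero D.R]
    (x : modularFunctionFieldBar D.R) :
    normAlong (betaQ D) (alphaQ D x) = normAlong (alphaQ D) (betaQ D x) := by
  have h1 : betaQ D = (atkinLehner D).toAlgHom.comp (alphaQ D) :=
    AlgHom.ext fun y => (atkinLehner_alphaQ D y).symm
  have h2 : alphaQ D x = atkinLehner D (betaQ D x) := (atkinLehner_betaQ D x).symm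
  have h3 := pu_normAlong_comp_equiv (alphaQ D) (atkinLehner D) (betaQ D x)
  rw [← h1, ← h2] at h3
  exact h3

/-- `Norm_α (β x)` is the Prelude's `T_Q x`. -/
theorem pu_normAlong_alphaQ_eq_heckeFun (D : ALData) [NeZero D.Q] [NeZero D.R]
    (x : modularFunctionFieldBar D.R) :
    normAlong (alphaQ D) (betaQ D x) = heckeFun Qb D.R D.Q x := by
  haveI : NeZero (D.Q * D.R) := ⟨(Nat.mul_pos D.hQ D.hR).ne'⟩
  haveI : NeZero (D.R * D.Q) := ⟨(Nat.mul_pos D.hR D.hQ).ne'⟩
  rw [heckeFun_apply]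
  show normAlong (incl D.R (D.Q * D.R) (dvd_mul_left D.R D.Q)) (betaQ D x) =
    normAlong (heckeAlphaBar Qb D.R D.Q) (heckeBetaBar Qb D.R D.Q x)
  rw [heckeAlphaBar_eq_incl]
  exact normAlong_incl_congr D.R (mul_comm D.Q D.R) _ _ _ _ (coe_betaQ_eq_heckeBetaBar D x)

/-- **`Norm_β (α x) = T_Q x`**. -/
theorem pu_normAlong_betaQ_eq_heckeFun (D : ALData) [NeZero D.Q] [NeZero D.R]
    (x : modularFunctionFieldBar D.R) :
    normAlong (betaQ D) (alphaQ D x) = heckeFun Qb D.R D.Q x := by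
  rw [pu_normAlong_betaQ_alphaQ, pu_normAlong_alphaQ_eq_heckeFun]

/-- **P-u, transposed form**: `Norm_β (α u) = c u^(Q+1)` for `u = Δ(z)/Δ(qz)`, `q ∣ R`,
`Q ∤ R` prime. -/
theorem pu_normAlong_betaQ_uF (D : ALData) [NeZero D.Q] [NeZero D.R] (hQ : D.Q.Prime)
    (hQR : ¬ D.Q ∣ D.R) (q : ℕ) [NeZero q] (hq : q ∣ D.R) :
    ∃ c : Qb, c ≠ 0 ∧ normAlong (betaQ D) (alphaQ D (uF D.R q hq)) =
      algebraMap Qb (modularFunctionFieldBar D.R) c * uF D.R q hq ^ (D.Q + 1) := by
  rw [pu_normAlong_betaQ_eq_heckeFun]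
  exact pu_heckeFun_uF D.R q hq D.Q hQ hQR

end Fermat.Agent.R38
end
end MergeWrap_R38_P_EtaNorm

section MergeWrap_R38_P_NormRedKp -- from R38/P/NormRedKp.lean

set_option autoImplicit false
set_option linter.style.haveILetI false
set_option linter.unusedSectionVars false
set_option synthInstance.maxHeartbeats 400000

noncomputable section

namespace Fermat.Agent.R38

open AlgebraicCurve ModularCurve IntermediateField Fermat.Agent.RR Fermat.Agent.Deuring
  Fermat.Agent.FF Fermat.Agent.GaussInt Fermat.Agent.F3T Fermat.Agent.F3G Fermat.Agent.RedTr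
  Fermat.Agent.BadRed Fermat.Agent.ES15 Fermat.Agent.AtkinLehner

local notation "Qb" => AlgebraicClosure ℚ

section Degree

variable {N ℓ : ℕ} [NeZero N] [NeZero ℓ] [NeZero (N * ℓ)]

/-- `[F_{Nℓ} : F_N] = ℓ + 1`. -/
theorem nr_finrankAlong_alpha (hℓ : ℓ.Prime) (hℓN : ¬ ℓ ∣ N) :
    finrankAlong Qb (heckeAlphaBar Qb N ℓ) = ℓ + 1 := by
  have hK := fundIdK_tower (inclBar (dvd_mul_right N ℓ)) (Fermat.Agent.S24.jBar N)
  rw [inclBar_jBar, Fermat.Agent.GenusEq.finrank_jBar_eq_psi,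
    Fermat.Agent.GenusEq.finrank_jBar_eq_psi, nr_dedekindPsi_mul_prime hℓ hℓN] at hK
  have hpos : 0 < dedekindPsi N := dedekindPsi_pos' (Nat.pos_of_ne_zero (NeZero.ne N))
  exact (Nat.eq_of_mul_eq_mul_left hpos hK).symm

/-- `[F_k(N₀ℓ) : F_k(N₀)] = ℓ + 1` on the special fibre at `p ∤ N₀ ℓ`. -/
theorem nr_finrankAlong_alphaC (A : ValuationSubring Qb) {p : ℕ} (hp : p.Prime)
    (hA : A.LiesOverPrime p) (hpN : ¬ p ∣ N) (hpℓ : p ≠ ℓ) (hℓ : ℓ.Prime) (hℓN : ¬ ℓ ∣ N) :
    finrankAlong (IsLocalRing.ResidueField A)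
      (heckeAlphaC (IsLocalRing.ResidueField A) N ℓ) = ℓ + 1 := by
  have hpNℓ : ¬ p ∣ N * ℓ := by
    intro h
    rcases (Nat.Prime.dvd_mul hp).mp h with h1 | h1
    · exact hpN h1
    · exact hpℓ ((Nat.prime_dvd_prime_iff_eq hp hℓ).mp h1)
  have hk := fundIdK_tower (mc_inclC (IsLocalRing.ResidueField A) (dvd_mul_right N ℓ))
    (Fermat.Agent.RRMod.jC (IsLocalRing.ResidueField A) N)
  rw [mc_inclC_jC, Fermat.Agent.GenusEq.degreeModL (N * ℓ) p hp hpNℓ A hA,
    Fermat.Agent.GenusEq.degreeModL N p hp hpN A hA, nr_dedekindPsi_mul_prime hℓ hℓN] at hk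
  have hpos : 0 < dedekindPsi N := dedekindPsi_pos' (Nat.pos_of_ne_zero (NeZero.ne N))
  exact (Nat.eq_of_mul_eq_mul_left hpos hk).symm

/-- `T_ℓ` on constants: `T_ℓ c = c ^ [F_{Nℓ} : F_N]`. -/
theorem nr_heckeFun_algebraMap' (c : Qb) :
    heckeFun Qb N ℓ (algebraMap Qb (FBar N) c) =
      algebraMap Qb (FBar N) (c ^ finrankAlong Qb (heckeAlphaBar Qb N ℓ)) := by
  rw [heckeFun_apply, AlgHom.commutes]
  letI := algebraAlong (heckeAlphaBar Qb N ℓ)
  haveI := isScalarTower_along (heckeAlphaBar Qb N ℓ)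
  show Algebra.norm (FBar N) (algebraMap Qb (FBar (N * ℓ)) c) = _
  rw [IsScalarTower.algebraMap_apply Qb (FBar N) (FBar (N * ℓ)), Algebra.norm_algebraMap,
    map_pow]
  rfl

/-- `T_ℓ c = c ^ (ℓ + 1)` for constants. -/
theorem nr_heckeFun_algebraMap (hℓ : ℓ.Prime) (hℓN : ¬ ℓ ∣ N) (c : Qb) :
    heckeFun Qb N ℓ (algebraMap Qb (FBar N) c) = algebraMap Qb (FBar N) (c ^ (ℓ + 1)) := by
  rw [nr_heckeFun_algebraMap', nr_finrankAlong_alpha hℓ hℓN]

/-- `T̄_ℓ r ≠ 0` for `r ≠ 0`. -/
theorem heckeFunC_ne_zero (k : Type*) [Field k] [IsAlgClosed k]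
    (hRR : IsRRField k (modularFunctionFieldFullC k (N * ℓ)))
    {r : modularFunctionFieldFullC k N} (hr : r ≠ 0) : heckeFunC k N ℓ r ≠ 0 := by
  rw [heckeFunC_apply]
  refine normAlong_ne_zero _ (mc_finite_fullC N (N * ℓ) (dvd_mul_right N ℓ) k hRR) ?_
  simpa using hr

end Degree

section Scaled

variable (A : ValuationSubring Qb) {N N₀ ℓ : ℕ} [NeZero N] [NeZero N₀] [NeZero ℓ]
  [NeZero (N * ℓ)] [NeZero (N₀ * ℓ)]
  {S : ValSetup Qb (FBar N) (IsLocalRing.ResidueField A)
    (modularFunctionFieldFullC (IsLocalRing.ResidueField A) N₀)}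
  {S' : ValSetup Qb (FBar (N * ℓ)) (IsLocalRing.ResidueField A)
    (modularFunctionFieldFullC (IsLocalRing.ResidueField A) (N₀ * ℓ))}
  (hS : IsGaussSetup N N₀ A S) (hS' : IsGaussSetup (N * ℓ) (N₀ * ℓ) A S')

include hS hS' in
/-- **P-nr, scaled form**: if `g / c` is integral then `T_ℓ g / c^(ℓ+1)` is integral and
`red (T_ℓ g / c^(ℓ+1)) = T̄_ℓ (red (g / c))`. -/
theorem nr_heckeFun_red_scaled {p : ℕ} (hp : p.Prime) (hA : A.LiesOverPrime p)
    (hpN₀ : ¬ p ∣ N₀) (hpℓ : p ≠ ℓ) (hℓ : ℓ.Prime) (hℓN : ¬ ℓ ∣ N) (hℓN₀ : ¬ ℓ ∣ N₀)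
    {g : FBar N} {c : Qb} (hc : c ≠ 0) (hg : g / algebraMap Qb (FBar N) c ∈ S.Ov) :
    heckeFun Qb N ℓ g / algebraMap Qb (FBar N) (c ^ (ℓ + 1)) ∈ S.Ov ∧
      S.red (heckeFun Qb N ℓ g / algebraMap Qb (FBar N) (c ^ (ℓ + 1))) =
        heckeFunC (IsLocalRing.ResidueField A) N₀ ℓ (S.red (g / algebraMap Qb (FBar N) c)) := by
  have h1 := nr_heckeFun_red A hS hS' hp hA hpN₀ hpℓ hℓ hℓN hℓN₀ hg
  have hc' : algebraMap Qb (FBar N) c ≠ 0 := (map_ne_zero _).mpr hc
  have hc'' : algebraMap Qb (FBar N) (c ^ (ℓ + 1)) ≠ 0 := (map_ne_zero _).mpr (pow_ne_zero _ hc)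
  have e : heckeFun Qb N ℓ (g / algebraMap Qb (FBar N) c) =
      heckeFun Qb N ℓ g / algebraMap Qb (FBar N) (c ^ (ℓ + 1)) := by
    rw [eq_div_iff hc'', ← nr_heckeFun_algebraMap hℓ hℓN, ← map_mul, div_mul_cancel₀ _ hc']
  rw [e] at h1
  exact h1

end Scaled

section Bad

variable (D : ALData) [NeZero D.Q] [NeZero D.R] [NeZero (D.Q * D.R)]
  (hQ : D.Q.Prime) (hQR : ¬ D.Q ∣ D.R) (A : ValuationSubring Qb) (hA : A.LiesOverPrime D.Q)
  {ℓ : ℕ} [NeZero ℓ] [NeZero (D.Q * D.R * ℓ)] [NeZero (D.R * ℓ)]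

include hQ hQR hA in
/-- the Gauss setup `v_∞` of level `(q R) ℓ` with residue function field `F_k(R ℓ)`. -/
theorem nr_exists_top (hℓ : ℓ.Prime) (hQℓ : D.Q ≠ ℓ) :
    ∃ S' : ValSetup Qb (FBar (D.Q * D.R * ℓ)) (IsLocalRing.ResidueField A)
        (modularFunctionFieldFullC (IsLocalRing.ResidueField A) (D.R * ℓ)),
      IsGaussSetup (D.Q * D.R * ℓ) (D.R * ℓ) A S' ∧ HasLattice S' := by
  have hQRℓ : ¬ D.Q ∣ D.R * ℓ := by
    intro h
    rcases (Nat.Prime.dvd_mul hQ).mp h with h1 | h1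
    · exact hQR h1
    · exact hQℓ ((Nat.prime_dvd_prime_iff_eq hQ hℓ).mp h1)
  have hM : D.Q * D.R * ℓ = D.R * ℓ * D.Q := by ring
  exact exists_isGaussSetup_bad hQ hQRℓ A hA (D.Q * D.R * ℓ) hM
    (modFactsAt (D.R * ℓ) D.Q hQ hQRℓ A hA)

/-- **P-nr at the bad Gauss setup** `v_∞ = gaussSetupBad D .. (= EKp.kpS D ..)`:
if `g / c` is integral then `T_ℓ g / c^(ℓ+1)` is integral and
`red (T_ℓ g / c^(ℓ+1)) = T̄_ℓ (red (g / c))`, `T̄_ℓ = heckeFunC k R ℓ`. -/
theorem nr_bad_heckeFun_red (hℓ : ℓ.Prime) (hℓN : ¬ ℓ ∣ D.Q * D.R)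
    {g : FBar (D.Q * D.R)} {c : Qb} (hc : c ≠ 0)
    (hg : g / algebraMap Qb (FBar (D.Q * D.R)) c ∈ (gaussSetupBad D hQ hQR A hA).Ov) :
    heckeFun Qb (D.Q * D.R) ℓ g / algebraMap Qb (FBar (D.Q * D.R)) (c ^ (ℓ + 1)) ∈
        (gaussSetupBad D hQ hQR A hA).Ov ∧
      (gaussSetupBad D hQ hQR A hA).red
          (heckeFun Qb (D.Q * D.R) ℓ g / algebraMap Qb (FBar (D.Q * D.R)) (c ^ (ℓ + 1))) =
        heckeFunC (IsLocalRing.ResidueField A) D.R ℓ
          ((gaussSetupBad D hQ hQR A hA).red (g / algebraMap Qb (FBar (D.Q * D.R)) c)) := by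
  have hQℓ : D.Q ≠ ℓ := fun h => hℓN (h ▸ dvd_mul_right D.Q D.R)
  have hℓR : ¬ ℓ ∣ D.R := fun h => hℓN (h.trans (dvd_mul_left D.R D.Q))
  obtain ⟨S', hS', -⟩ := nr_exists_top D hQ hQR A hA hℓ hQℓ
  exact nr_heckeFun_red_scaled A (isGaussSetup_gaussSetupBad D hQ hQR A hA) hS' hQ hA hQR hQℓ
    hℓ hℓN hℓR hc hg

include hQ hQR hA in
/-- **P-nr, nonvanishing**: `T̄_ℓ r ≠ 0` for `r ≠ 0` at the bad Gauss setup. -/
theorem nr_bad_heckeFunC_ne_zero (hℓ : ℓ.Prime) (hℓN : ¬ ℓ ∣ D.Q * D.R)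
    {r : modularFunctionFieldFullC (IsLocalRing.ResidueField A) D.R} (hr : r ≠ 0) :
    heckeFunC (IsLocalRing.ResidueField A) D.R ℓ r ≠ 0 := by
  have hQℓ : D.Q ≠ ℓ := fun h => hℓN (h ▸ dvd_mul_right D.Q D.R)
  obtain ⟨S', -, -⟩ := nr_exists_top D hQ hQR A hA hℓ hQℓ
  haveI := isAlgClosed_residue A
  exact heckeFunC_ne_zero _ S'.hFk hr

end Bad

end Fermat.Agent.R38
end
end MergeWrap_R38_P_NormRedKp

section MergeWrap_R38_P_Wire -- from R38/P/Wire.lean

set_option autoImplicit false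
set_option linter.style.haveILetI false
set_option linter.unusedSectionVars false
set_option linter.unusedVariables false
set_option synthInstance.maxHeartbeats 400000
set_option maxHeartbeats 1000000

noncomputable section

namespace Fermat.Agent.R38

open ModularCurve AlgebraicCurve Fermat.Agent.F3 Fermat.Agent.F3G Fermat.Agent.F3I2
  Fermat.Agent.GaussInt Fermat.Agent.AtkinLehner Fermat.Agent.Deuring Fermat.Agent.RR
  Fermat.Agent.BadRed Fermat.Agent.EKp WeierstrassCurve

local notation "Qb" => AlgebraicClosure ℚ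

/-- **(P-eps)**: the multiplicities of the nodes are prime to `p`. -/
def SpPEps : Prop :=
  ∀ (D : ALData) [NeZero D.Q] [NeZero D.R] [NeZero (D.Q * D.R)]
    (A : ValuationSubring Qb) (hq : D.Q.Prime) (hA : A.LiesOverPrime D.Q) (hqR : ¬ D.Q ∣ D.R)
    [Fact D.Q.Prime] [CharP (IsLocalRing.ResidueField A) D.Q]
    [PerfectRing (IsLocalRing.ResidueField A) D.Q],
    5 ≤ D.Q →
    ∀ Q : Place (IsLocalRing.ResidueField A)
        (modularFunctionFieldFullC (IsLocalRing.ResidueField A) D.R),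
      0 < Q.ord ((kpS D A hq hA hqR).red (fwU D)) →
        ¬ (D.Q : ℤ) ∣ Q.ord ((kpS D A hq hA hqR).red (fwU D))

/-- **(P-push)**: the orders of a normalised reduction of a Kummer generator are divisible by
`p` at the places which are not nodes. -/
def SpPPush : Prop :=
  ∀ (D : ALData) [NeZero D.Q] [NeZero D.R] [NeZero (D.Q * D.R)]
    (A : ValuationSubring Qb) (hq : D.Q.Prime) (hA : A.LiesOverPrime D.Q) (hqR : ¬ D.Q ∣ D.R)
    [Fact D.Q.Prime] [CharP (IsLocalRing.ResidueField A) D.Q]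
    [PerfectRing (IsLocalRing.ResidueField A) D.Q],
    5 ≤ D.Q →
    ∀ (E : Divisor.degZero (K := Qb) (F := FBar (D.Q * D.R))) (g : FBar (D.Q * D.R)),
      IsRootDiv D.Q g E →
      ∀ c : Qb, (kpS D A hq hA hqR).red (g / algebraMap Qb (FBar (D.Q * D.R)) c) ≠ 0 →
      ∀ Q : Place (IsLocalRing.ResidueField A)
          (modularFunctionFieldFullC (IsLocalRing.ResidueField A) D.R),
        Q.ord ((kpS D A hq hA hqR).red (fwU D)) ≤ 0 →
          (D.Q : ℤ) ∣ Q.ord ((kpS D A hq hA hqR).red (g / algebraMap Qb (FBar (D.Q * D.R)) c))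

/-- **(P-sl), residue form**: `T̄_ℓ` carries divisibility by `p` of the orders away from the cusps
to the nodes. -/
def SpPSl : Prop :=
  ∀ (D : ALData) [NeZero D.Q] [NeZero D.R] [NeZero (D.Q * D.R)]
    (A : ValuationSubring Qb) (hq : D.Q.Prime) (hA : A.LiesOverPrime D.Q) (hqR : ¬ D.Q ∣ D.R)
    [Fact D.Q.Prime] [CharP (IsLocalRing.ResidueField A) D.Q]
    [PerfectRing (IsLocalRing.ResidueField A) D.Q],
    5 ≤ D.Q →
    ∀ (ℓ : ℕ) [NeZero ℓ] [NeZero (D.R * ℓ)], ℓ.Prime → ¬ ℓ ∣ D.Q * D.R →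
    ∀ x : modularFunctionFieldFullC (IsLocalRing.ResidueField A) D.R, x ≠ 0 →
      (∀ Q : Place (IsLocalRing.ResidueField A)
          (modularFunctionFieldFullC (IsLocalRing.ResidueField A) D.R),
        0 ≤ Q.ord ((kpS D A hq hA hqR).red (fwU D)) → (D.Q : ℤ) ∣ Q.ord x) →
      ∀ Q : Place (IsLocalRing.ResidueField A)
          (modularFunctionFieldFullC (IsLocalRing.ResidueField A) D.R),
        0 < Q.ord ((kpS D A hq hA hqR).red (fwU D)) →
          (D.Q : ℤ) ∣ Q.ord (heckeFunC (IsLocalRing.ResidueField A) D.R ℓ x)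

/-- the Frey curve is an elliptic curve. -/
theorem r38_frey_isElliptic (P : FreyPackage) : P.freyCurve.IsElliptic := by
  refine ⟨isUnit_iff_ne_zero.mpr ?_⟩
  rw [← Fermat.Agent.FreyLib.freyCurveInt_map P, WeierstrassCurve.map_Δ, eq_intCast]
  exact_mod_cast Fermat.Agent.FreyLib.freyCurveInt_Δ_ne_zero P

section Side

variable (D : ALData) [NeZero D.Q] [NeZero D.R] [NeZero (D.Q * D.R)]
  (A : ValuationSubring Qb) (hq : D.Q.Prime) (hA : A.LiesOverPrime D.Q) (hqR : ¬ D.Q ∣ D.R)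
  [Fact D.Q.Prime] [CharP (IsLocalRing.ResidueField A) D.Q]
  [PerfectRing (IsLocalRing.ResidueField A) D.Q]

/-- **(PHI), one side**: a Kummer generator `g` of a class which is an eigen-class for ONE good
`T_ℓ` with eigenvalue `t ≢ ℓ + 1 mod p`, with (INT): the orders of the normalised reductions of
`g` are divisible by `p` at ALL places. -/
theorem r38_phi_side (h5 : 5 ≤ D.Q) (hEps : SpPEps) (hPush : SpPPush) (hSl : SpPSl)
    (ℓ : Nat.Primes) (hℓN : ¬ (ℓ : ℕ) ∣ D.Q * D.R) (t : ℤ)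
    (ht : ¬ (D.Q : ℤ) ∣ t - ((ℓ : ℕ) + 1))
    (y : JZero (D.Q * D.R)) (hy : heckeOperatorBar (D.Q * D.R) ℓ y = t • y)
    (E : Divisor.degZero (K := Qb) (F := FBar (D.Q * D.R))) (g : FBar (D.Q * D.R))
    (hgen : spIsKumGen D.Q y E g) (hint : spSlopeInt D A hq hA hqR g)
    (r : modularFunctionFieldFullC (IsLocalRing.ResidueField A) D.R)
    (hr : spIsRedInf D A hq hA hqR g r)
    (Q : Place (IsLocalRing.ResidueField A)
      (modularFunctionFieldFullC (IsLocalRing.ResidueField A) D.R)) :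
    (D.Q : ℤ) ∣ Q.ord r := by
  classical
  obtain ⟨c, hc0, hcmem, hcred, hrne⟩ := hr
  have hcne : (kpS D A hq hA hqR).red (g / algebraMap Qb (FBar (D.Q * D.R)) c) ≠ 0 := by
    rw [hcred]
    exact hrne
  rcases le_or_gt (Q.ord ((kpS D A hq hA hqR).red (fwU D))) 0 with hQ | hQ
  · -- not a node
    rw [← hcred]
    exact hPush D A hq hA hqR h5 E g hgen.1 c hcne Q hQ
  · -- a node: abstract (PHI)
    haveI : NeZero (ℓ : ℕ) := ⟨ℓ.2.ne_zero⟩
    haveI : NeZero (D.R * (ℓ : ℕ)) := ⟨mul_ne_zero (NeZero.ne D.R) ℓ.2.ne_zero⟩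
    haveI : NeZero (D.Q * D.R * (ℓ : ℕ)) := ⟨mul_ne_zero (NeZero.ne _) ℓ.2.ne_zero⟩
    set S := kpS D A hq hA hqR with hS
    have hu : S.red (fwU D) ≠ 0 := by
      intro h0
      rw [h0, Place.ord_zero] at hQ
      exact lt_irrefl _ hQ
    have hg0 : g ≠ 0 := hgen.1.1
    rw [← hcred, r38Sl_eq S Q hcne]
    refine r38_phi_abs S hq (heckeFun Qb (D.Q * D.R) (ℓ : ℕ))
      (heckeFunC (IsLocalRing.ResidueField A) D.R (ℓ : ℕ)) (fwU D) hu ?_ ?_ ?_ ((ℓ : ℕ) + 1)
      ?_ ?_ g hg0 ?_ ?_ t ?_ ?_ Q hQ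
    · -- (P-nr)
      intro x hx
      have hx1 : x / algebraMap Qb (FBar (D.Q * D.R)) 1 ∈ (gaussSetupBad D hq hqR A hA).Ov := by
        rw [map_one, div_one]
        exact S.mem_of_red_ne_zero hx
      have := (nr_bad_heckeFun_red D hq hqR A hA ℓ.2 hℓN one_ne_zero hx1).2
      simpa only [one_pow, map_one, div_one] using this
    · -- `T` on constants
      intro a ha
      exact ⟨a ^ ((ℓ : ℕ) + 1), pow_ne_zero _ ha, nr_heckeFun_algebraMap ℓ.2 hℓN a⟩
    · -- (P-pl)
      intro x hx hdiv Q' hQ'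
      exact hSl D A hq hA hqR h5 (ℓ : ℕ) ℓ.2 hℓN x hx hdiv Q' hQ'
    · -- (P-u)
      exact pu_heckeFun_uF (D.Q * D.R) D.Q (Dvd.intro _ rfl) (ℓ : ℕ) ℓ.2 hℓN
    · -- (P-eps)
      intro Q' hQ'
      exact hEps D A hq hA hqR h5 Q' hQ'
    · -- (P-push)
      intro Q' hQ'
      rw [← r38Sl_eq S Q' hcne]
      exact hPush D A hq hA hqR h5 E g hgen.1 c hcne Q' hQ'.le
    · -- (INT)
      intro Q₁ Q₂ hQ₁ hQ₂
      have h := hint r ⟨c, hc0, hcmem, hcred, hrne⟩ ⟨Q₁, hQ₁⟩ ⟨Q₂, hQ₂⟩
      rw [kpEps_cast, kpEps_cast] at h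
      rw [← r38Sl_eq S Q₁ hcne, ← r38Sl_eq S Q₂ hcne, hcred]
      exact h
    · -- (P-eig)
      have hT : heckeOperatorAlong Qb (D.Q * D.R) (ℓ : ℕ) (Pic0.mk E) = t • Pic0.mk E := by
        have := hy
        rw [heckeOperatorBar_apply, ← hgen.2] at this
        exact this
      exact r38_heckeFun_eig (D.Q * D.R) (ℓ : ℕ) D.Q E g hgen.1 t hT
    · push_cast
      exact ht

end Side

/-- **the junction J-P** from the leaves of block P. -/
theorem r38_spJP (hW : SpJW) (hEps : SpPEps) (hPush : SpPPush) (hSl : SpPSl) : SpJP := by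
  intro P D _ _ _ A hq hA hqR _ _ _ hQP hcond hirr W S hWm hSOK y hy E g hgen hint hintw
  have h5 : 5 ≤ D.Q := hQP ▸ P.hp5
  have hp2 : D.Q ≠ 2 := by omega
  haveI := r38_frey_isElliptic P
  -- a non-Eisenstein prime
  have hNE := Fermat.Agent.L.nonEisStatement P.freyCurve hWm hq hp2 (hQP ▸ hirr)
  obtain ⟨ℓ, hℓ, hℓS, -, -, hℓne⟩ := hNE 1 one_pos S
  have hℓN : ¬ ℓ ∣ D.Q * D.R := by
    intro h
    exact hℓS (hSOK.2.1 ℓ hℓ h)
  have hprimes : ∀ q : ℕ, q.Prime → q ∣ D.Q * D.R → q ∈ S := hSOK.2.1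
  obtain ⟨hW1, -, -, hW4⟩ := hW D A hq hA hqR S (fun ℓ => W.apOfModel ℓ) y hprimes
  intro r hr Q
  rcases hr with hr | hr
  · exact r38_phi_side D A hq hA hqR h5 hEps hPush hSl ⟨ℓ, hℓ⟩ hℓN (W.apOfModel ℓ) hℓne y
      (hy.2.2.2 ⟨ℓ, hℓ⟩ hℓS hℓN) E g hgen hint r hr Q
  · obtain ⟨E', hgen'⟩ := hW4 E g hgen
    have hy' := hW1 hy
    exact r38_phi_side D A hq hA hqR h5 hEps hPush hSl ⟨ℓ, hℓ⟩ hℓN (W.apOfModel ℓ) hℓne
      (Fermat.Agent.F3DegP.pushW D y) (hy'.2.2.2 ⟨ℓ, hℓ⟩ hℓS hℓN) E' (atkinLehner D g) hgen'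
      hintw r hr Q

end Fermat.Agent.R38
end
end MergeWrap_R38_P_Wire

section MergeWrap_R38_P_Key -- from R38/P/Key.lean

set_option autoImplicit false
set_option linter.unusedSectionVars false
set_option linter.style.haveILetI false

noncomputable section

open ModularCurve AlgebraicCurve

set_option synthInstance.maxHeartbeats 400000

namespace Fermat.Agent.R38

open Fermat.Agent.BadRed Fermat.Agent.AtkinLehner Fermat.Agent.ES15 Fermat.Agent.RedTr
  Fermat.Agent.FF Fermat.Agent.RR Fermat.Agent.Deuring Fermat.Agent.GaussInt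

local notation "Qb" => AlgebraicClosure ℚ

/-! ### characteristic `0` -/

section CharZero

variable (D : ALData) [NeZero D.Q] [NeZero D.R] [NeZero (D.Q * D.R)]

/-- `w_Q` preserves the set of places where `u = Δ(z)/Δ(Qz)` is a unit. -/
theorem key_ord_uF_atkinLehner (v : Place Qb (modularFunctionFieldBar (D.Q * D.R))) :
    v.ord (atkinLehner D (uF (D.Q * D.R) D.Q (Dvd.intro _ rfl))) =
      -v.ord (uF (D.Q * D.R) D.Q (Dvd.intro _ rfl)) := by
  have hc : algebraMap Qb (modularFunctionFieldBar (D.Q * D.R)) ((D.Q : Qb) ^ 12) ≠ 0 := by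
    refine (_root_.map_ne_zero _).mpr (pow_ne_zero _ ?_)
    exact_mod_cast (NeZero.ne D.Q)
  have e : (D.Q : modularFunctionFieldBar (D.Q * D.R)) ^ 12 =
      algebraMap Qb (modularFunctionFieldBar (D.Q * D.R)) ((D.Q : Qb) ^ 12) := by
    rw [map_pow, map_natCast]
  rw [atkinLehner_uF, e, div_eq_mul_inv, v.ord_mul hc (inv_ne_zero (uF_ne_zero _ _ _)),
    Fermat.Agent.S24Res.ord_algebraMap, zero_add, v.ord_inv]

/-- `α j = j` at the level `Q R`. -/
theorem key_alphaQ_jBar :
    alphaQ D (Fermat.Agent.S24.jBar D.R) = Fermat.Agent.S24.jBar (D.Q * D.R) := by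
  apply Subtype.ext
  rw [coe_alphaQ]
  rfl

/-- **characteristic `0`**: the poles of `j(Qz)` are poles of `j` on `X₀(QR)`. -/
theorem key_ord_jBar_of_betaQ (hQ : D.Q.Prime)
    (v : Place Qb (modularFunctionFieldBar (D.Q * D.R)))
    (hv : v.ord (betaQ D (Fermat.Agent.S24.jBar D.R)) < 0) :
    v.ord (Fermat.Agent.S24.jBar (D.Q * D.R)) < 0 := by
  have hdvd : D.Q ∣ D.Q * D.R := Dvd.intro _ rfl
  rw [← atkinLehner_alphaQ, key_alphaQ_jBar, ← ord_wAut_smul] at hv
  have h1 := (ord_jBar_neg_iff_uF hQ hdvd (wAut D • v)).mp hv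
  rw [ord_wAut_smul, key_ord_uF_atkinLehner] at h1
  refine (ord_jBar_neg_iff_uF hQ hdvd v).mpr ?_
  intro h0
  apply h1
  rw [h0, neg_zero]

end CharZero

/-! ### push-forward: a negative value comes from a negative term -/

section Push

variable {α β : Type*}

theorem key_exists_neg_of_mapDomain_neg (r : α → β) (f : α →₀ ℤ) (b : β)
    (h : Finsupp.mapDomain r f b < 0) : ∃ a, r a = b ∧ f a < 0 := by
  classical
  by_contra hcon
  have hcon' : ∀ a, r a = b → 0 ≤ f a := fun a hab => by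
    by_contra hlt
    exact hcon ⟨a, hab, not_le.mp hlt⟩
  have : 0 ≤ Finsupp.mapDomain r f b := by
    rw [Finsupp.mapDomain, Finsupp.sum, Finsupp.finsetSum_apply]
    refine Finset.sum_nonneg fun a _ => ?_
    rw [Finsupp.single_apply]
    split_ifs with hab
    · exact hcon' a hab
    · exact le_rfl
  omega

end Push

/-! ### characteristic `p` -/

section CharP

variable (A : ValuationSubring Qb) (p : ℕ) (hp : p.Prime) (hA : A.LiesOverPrime p)
  (D : ALData) [NeZero D.Q] [NeZero D.R] [NeZero (D.Q * D.R)]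

/-- the level relation of the second degeneracy map. -/
theorem key_level_dvd : D.R * D.Q ∣ D.Q * D.R := dvd_of_eq (mul_comm _ _)

/-- the level relation of the first degeneracy map. -/
theorem key_level_dvd' : D.R ∣ D.Q * D.R := Dvd.intro_left _ rfl

include hp hA in
/-- **characteristic `p`**: a place of `X₀(QR)_k` which is not a pole of `j̄` is not a pole of
`β̄ j̄ = j̄(q^Q)`. -/
theorem key_ord_betaC_jC (hQ : D.Q.Prime) (hpN : ¬ p ∣ D.Q * D.R)
    (hg : genusFF Qb (modularFunctionFieldBar (D.Q * D.R)) =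
      genusFF (IsLocalRing.ResidueField A)
        (modularFunctionFieldFullC (IsLocalRing.ResidueField A) (D.Q * D.R)))
    (Q' : Place (IsLocalRing.ResidueField A)
      (modularFunctionFieldFullC (IsLocalRing.ResidueField A) (D.Q * D.R)))
    (h : 0 ≤ Q'.ord (Fermat.Agent.RRMod.jC (IsLocalRing.ResidueField A) (D.Q * D.R))) :
    0 ≤ Q'.ord (heckeRed_betaTopC D.R D.Q (D.Q * D.R) (key_level_dvd D)
      (IsLocalRing.ResidueField A) (Fermat.Agent.RRMod.jC (IsLocalRing.ResidueField A) D.R)) := by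
  have hpR : ¬ p ∣ D.R := fun hd => hpN (hd.trans (key_level_dvd' D))
  haveI := isAlgClosed_residue A
  by_contra hcon
  rw [not_le] at hcon
  set S := modularValSetup A p (D.Q * D.R) hp hA hpN with hS
  set r := redPlace A p (D.Q * D.R) hp hA hpN hg with hr
  have hred : IsReduction S r := isReduction_redPlace A p (D.Q * D.R) hp hA hpN hg
  -- the function `j(Qz)` and its reduction
  set xl := heckeRed_betaTop D.R D.Q (D.Q * D.R) (key_level_dvd D) (Fermat.Agent.S24.jBar D.R)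
    with hxl
  have hxlmem : xl ∈ S.Ov :=
    heckeRed_betaTop_mem A p D.R D.Q (D.Q * D.R) hp hA hpR hpN (key_level_dvd D) _
      (oldSep_jBar_mem A p D.R hp hA hpR)
  have hxlred : S.red xl = heckeRed_betaTopC D.R D.Q (D.Q * D.R) (key_level_dvd D)
      (IsLocalRing.ResidueField A) (Fermat.Agent.RRMod.jC (IsLocalRing.ResidueField A) D.R) := by
    rw [hxl, hS, heckeRed_betaTop_red A p D.R D.Q (D.Q * D.R) hp hA hpR hpN (key_level_dvd D) _
      (oldSep_jBar_mem A p D.R hp hA hpR), oldSep_red_jBar]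
  have hred0 : S.red xl ≠ 0 := by
    intro h0
    rw [← hxlred, h0, Place.ord_zero] at hcon
    exact lt_irrefl _ hcon
  have hxlinv : xl⁻¹ ∈ S.Ov := S.inv_mem_of_red_ne_zero hred0
  have hxl0 : xl ≠ 0 := S.ne_zero_of_red_ne_zero hred0
  -- push-forward of `div (j(Qz))`
  have hpush := hred.push xl hxlmem hxlinv hxl0 Q'
  rw [hxlred] at hpush
  rw [← hpush] at hcon
  obtain ⟨P, hPQ, hP⟩ := key_exists_neg_of_mapDomain_neg r _ Q' hcon
  rw [divOf_apply] at hP
  -- `j(Qz)` is `β j`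
  have hxlβ : xl = betaQ D (Fermat.Agent.S24.jBar D.R) := by
    apply Subtype.ext
    rw [hxl, coe_heckeRed_betaTop, coe_betaQ]
  rw [hxlβ] at hP
  have hPj := key_ord_jBar_of_betaQ D hQ P hP
  -- no cancellation for `j`
  have hjred := oldSep_red_jBar A p (D.Q * D.R) hp hA hpN
  have htr : Transcendental (IsLocalRing.ResidueField A)
      (S.red (Fermat.Agent.S24.jBar (D.Q * D.R))) := by
    rw [hS, hjred]
    exact Fermat.Agent.RRMod.transcendental_jC (IsLocalRing.ResidueField A) (D.Q * D.R)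
  have hdeg : Divisor.degree (poleDiv S.hFk (S.red (Fermat.Agent.S24.jBar (D.Q * D.R)))) =
      Divisor.degree (poleDiv S.hF (Fermat.Agent.S24.jBar (D.Q * D.R))) := by
    rw [hS, hjred]
    exact (oldSep_degree_poleDiv_jC A p (D.Q * D.R) hp hA hpN).trans
      (oldSep_degree_poleDiv_jBar (D.Q * D.R)).symm
  have hneg := hred.ord_red_neg (oldSep_jBar_mem A p (D.Q * D.R) hp hA hpN) htr hdeg hPj
  rw [hPQ, hS, hjred] at hneg
  omega

include hp hA in
/-- the same for every polynomial in `j̄`. -/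
theorem key_ord_betaC_of_regular (hQ : D.Q.Prime) (hpN : ¬ p ∣ D.Q * D.R)
    (hg : genusFF Qb (modularFunctionFieldBar (D.Q * D.R)) =
      genusFF (IsLocalRing.ResidueField A)
        (modularFunctionFieldFullC (IsLocalRing.ResidueField A) (D.Q * D.R)))
    (P : Polynomial (IsLocalRing.ResidueField A))
    (Q' : Place (IsLocalRing.ResidueField A)
      (modularFunctionFieldFullC (IsLocalRing.ResidueField A) (D.Q * D.R)))
    (h : 0 ≤ Q'.ord (Fermat.Agent.RRMod.jC (IsLocalRing.ResidueField A) (D.Q * D.R))) :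
    0 ≤ Q'.ord (heckeRed_betaTopC D.R D.Q (D.Q * D.R) (key_level_dvd D)
      (IsLocalRing.ResidueField A)
      (Polynomial.aeval (Fermat.Agent.RRMod.jC (IsLocalRing.ResidueField A) D.R) P)) := by
  rw [← Polynomial.aeval_algHom_apply]
  exact ord_aeval_nonneg_of_ord Q' (key_ord_betaC_jC A p hp hA D hQ hpN hg Q' h) P

include hp hA in
/-- **KEY** (P-ker): a zero of `ᾱ ū` (a supersingular point of `X₀(QR)_k`) is not a pole of
`β̄ ū`, for `ū ∈ F_{k,R}` with `q`-expansion `ssFun k p`. -/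
theorem key_ord_betaC_ss (hQ : D.Q.Prime) (hpN : ¬ p ∣ D.Q * D.R)
    (hg : genusFF Qb (modularFunctionFieldBar (D.Q * D.R)) =
      genusFF (IsLocalRing.ResidueField A)
        (modularFunctionFieldFullC (IsLocalRing.ResidueField A) (D.Q * D.R)))
    (u : modularFunctionFieldFullC (IsLocalRing.ResidueField A) D.R)
    (hu : (u : LaurentSeries (IsLocalRing.ResidueField A)) =
      ssFun (IsLocalRing.ResidueField A) p)
    (Q' : Place (IsLocalRing.ResidueField A)
      (modularFunctionFieldFullC (IsLocalRing.ResidueField A) (D.Q * D.R)))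
    (h : 0 < Q'.ord (mc_inclC (IsLocalRing.ResidueField A) (key_level_dvd' D) u)) :
    0 ≤ Q'.ord (heckeRed_betaTopC D.R D.Q (D.Q * D.R) (key_level_dvd D)
      (IsLocalRing.ResidueField A) u) := by
  have hj : 0 ≤ Q'.ord (Fermat.Agent.RRMod.jC (IsLocalRing.ResidueField A) (D.Q * D.R)) :=
    ord_jC_nonneg_of_ss_zero (D.Q * D.R) hp hA
      (mc_inclC (IsLocalRing.ResidueField A) (key_level_dvd' D) u)
      (by rw [coe_mc_inclC]; exact hu) Q' h
  obtain ⟨P, -, rfl⟩ := ss_eq_aeval D.R hp hA u hu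
  exact key_ord_betaC_of_regular A p hp hA D hQ hpN hg P Q' hj

include hp hA in
/-- **KEY** for `p ∉ {2, 3}` (genus equality from cluster B). -/
theorem key_ord_betaC_ss_of_ne (h2 : p ≠ 2) (h3 : p ≠ 3) (hQ : D.Q.Prime)
    (hpN : ¬ p ∣ D.Q * D.R)
    (u : modularFunctionFieldFullC (IsLocalRing.ResidueField A) D.R)
    (hu : (u : LaurentSeries (IsLocalRing.ResidueField A)) =
      ssFun (IsLocalRing.ResidueField A) p)
    (Q' : Place (IsLocalRing.ResidueField A)
      (modularFunctionFieldFullC (IsLocalRing.ResidueField A) (D.Q * D.R)))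
    (h : 0 < Q'.ord (mc_inclC (IsLocalRing.ResidueField A) (key_level_dvd' D) u)) :
    0 ≤ Q'.ord (heckeRed_betaTopC D.R D.Q (D.Q * D.R) (key_level_dvd D)
      (IsLocalRing.ResidueField A) u) :=
  key_ord_betaC_ss A p hp hA D hQ hpN
    (Fermat.Agent.GoodRed.genusFF_modular_eq (D.Q * D.R) hp hA hpN h2 h3) u hu Q' h

end CharP

end Fermat.Agent.R38
end
end MergeWrap_R38_P_Key

section MergeWrap_R38_P_NormSep -- from R38/P/NormSep.lean

set_option autoImplicit false
set_option linter.deprecated false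
set_option linter.unusedSectionVars false
set_option linter.style.haveILetI false

noncomputable section

open IsDedekindDomain WithZero AlgebraicCurve

namespace Fermat.Agent.R38

section DVR

variable {K F F' A B : Type*} [Field K] [Field F] [Field F']
  [Algebra K F] [Algebra K F'] [Algebra F F'] [IsScalarTower K F F'] [FiniteDimensional F F']
  [CommRing A] [IsDomain A] [IsDiscreteValuationRing A] [Algebra A F] [IsFractionRing A F]
  [Algebra A F'] [IsScalarTower A F F'] [Algebra K A] [IsScalarTower K A F]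
  [CommRing B] [IsDedekindDomain B] [Algebra A B] [Algebra B F'] [IsFractionRing B F']
  [IsScalarTower A B F'] [Module.Finite A B] [Module.IsTorsionFree A B]
  [Algebra K B] [IsScalarTower K B F']

/-- the relative norm of a prime over the maximal ideal is a positive power of it. -/
theorem r38pl_exists_relNorm (P : Ideal B) [P.IsPrime]
    [P.LiesOver (IsLocalRing.maximalIdeal A)] :
    ∃ s : ℕ, 1 ≤ s ∧ Ideal.relNorm A P = IsLocalRing.maximalIdeal A ^ s := by
  obtain ⟨s, hs⟩ := Ideal.exists_relNorm_eq_pow_of_isPrime P (IsLocalRing.maximalIdeal A)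
  refine ⟨s, ?_, hs⟩
  by_contra h0
  have hs0 : s = 0 := by omega
  subst hs0
  rw [pow_zero, Ideal.one_eq_top] at hs
  have hle := Ideal.relNorm_le_comap A P
  rw [hs, top_le_iff, Ideal.comap_eq_top_iff] at hle
  exact (Ideal.IsPrime.ne_top inferInstance) hle

/-- the exponent `s_P` of the relative norm of a prime `P` over the maximal ideal
(junk value `1` elsewhere). -/
def r38pl_s (A : Type*) {B : Type*} [CommRing A] [IsDomain A] [IsDiscreteValuationRing A]
    [CommRing B] [IsDedekindDomain B] [Algebra A B] [Module.Finite A B]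
    [Module.IsTorsionFree A B] (P : Ideal B) : ℕ := by
  classical
  exact if h : P.IsPrime ∧ P.LiesOver (IsLocalRing.maximalIdeal A) then
    haveI := h.1
    haveI := h.2
    (r38pl_exists_relNorm (A := A) P).choose
  else 1

theorem r38pl_s_spec (P : Ideal B) [hP : P.IsPrime]
    [hL : P.LiesOver (IsLocalRing.maximalIdeal A)] :
    1 ≤ r38pl_s A P ∧ Ideal.relNorm A P = IsLocalRing.maximalIdeal A ^ r38pl_s A P := by
  classical
  unfold r38pl_s
  rw [dif_pos ⟨hP, hL⟩]
  exact (r38pl_exists_relNorm (A := A) P).choose_spec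

theorem r38pl_maximalIdeal_pow_injective :
    Function.Injective (fun n : ℕ => (IsLocalRing.maximalIdeal A) ^ n) := by
  intro a b hab
  obtain ⟨π, hπ⟩ := IsDiscreteValuationRing.exists_irreducible A
  have hm : IsLocalRing.maximalIdeal A = Ideal.span {π} := hπ.maximalIdeal_eq
  simp only [hm, Ideal.span_singleton_pow] at hab
  rw [Ideal.span_singleton_eq_span_singleton] at hab
  by_contra hne
  rcases Nat.lt_or_gt_of_ne hne with h | h
  · obtain ⟨u, hu⟩ := hab
    have h1 : π ^ a * (↑u - π ^ (b - a)) = 0 := by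
      rw [mul_sub, hu, ← pow_add, Nat.add_sub_cancel' h.le, sub_self]
    rcases mul_eq_zero.mp h1 with h2 | h2
    · exact pow_ne_zero _ hπ.ne_zero h2
    · have h3 : (↑u : A) = π ^ (b - a) := sub_eq_zero.mp h2
      have h4 : IsUnit (π ^ (b - a)) := h3 ▸ u.isUnit
      have h5 : IsUnit π := isUnit_of_dvd_unit (dvd_pow_self π (by omega)) h4
      exact hπ.not_isUnit h5
  · obtain ⟨u, hu⟩ := hab.symm
    have h1 : π ^ b * (↑u - π ^ (a - b)) = 0 := by
      rw [mul_sub, hu, ← pow_add, Nat.add_sub_cancel' h.le, sub_self]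
    rcases mul_eq_zero.mp h1 with h2 | h2
    · exact pow_ne_zero _ hπ.ne_zero h2
    · have h3 : (↑u : A) = π ^ (a - b) := sub_eq_zero.mp h2
      have h4 : IsUnit (π ^ (a - b)) := h3 ▸ u.isUnit
      have h5 : IsUnit π := isUnit_of_dvd_unit (dvd_pow_self π (by omega)) h4
      exact hπ.not_isUnit h5

/-- **the relative norm of a height one prime is the maximal ideal** (residue field `K`
algebraically closed; no separability, no perfectness). -/
theorem r38pl_relNorm_prime [IsAlgClosed K]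
    (hres : Function.Surjective
      ((Ideal.Quotient.mk (IsLocalRing.maximalIdeal A)).comp (algebraMap K A)))
    (Q : HeightOneSpectrum B) :
    Ideal.relNorm A Q.asIdeal = IsLocalRing.maximalIdeal A := by
  classical
  have hp0 : IsLocalRing.maximalIdeal A ≠ ⊥ := Fermat.Agent.HeckeInputs.hi_maximalIdeal_ne_bot
  haveI : Algebra.IsIntegral A B := Algebra.IsIntegral.of_finite A B
  have hprod := Ideal.map_algebraMap_eq_finsetProd_pow (R := B) (S := A)
    (p := IsLocalRing.maximalIdeal A) hp0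
  have hnorm := Ideal.relNorm_algebraMap B (IsLocalRing.maximalIdeal A)
  have hsum := Ideal.sum_ramification_inertia_eq_finrank (IsLocalRing.maximalIdeal A) B
  have hmem : ∀ P ∈ ((IsLocalRing.maximalIdeal A).primesOver B).toFinset,
      P.IsPrime ∧ P.LiesOver (IsLocalRing.maximalIdeal A) := by
    intro P hP
    rw [Set.mem_toFinset] at hP
    exact hP
  have hspec : ∀ P ∈ ((IsLocalRing.maximalIdeal A).primesOver B).toFinset,
      1 ≤ r38pl_s A P ∧
        Ideal.relNorm A P = IsLocalRing.maximalIdeal A ^ r38pl_s A P := by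
    intro P hP
    haveI := (hmem P hP).1
    haveI := (hmem P hP).2
    exact r38pl_s_spec P
  -- `∑ s_P e_P = n`
  have h1 : IsLocalRing.maximalIdeal A ^ Module.finrank A B =
      IsLocalRing.maximalIdeal A ^
        (∑ P ∈ ((IsLocalRing.maximalIdeal A).primesOver B).toFinset,
          r38pl_s A P * P.ramificationIdx A) := by
    rw [← hnorm, hprod, map_prod, ← Finset.prod_pow_eq_pow_sum]
    refine Finset.prod_congr rfl fun P hP => ?_
    rw [map_pow, (hspec P hP).2, ← pow_mul]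
  have h2 : Module.finrank A B =
      ∑ P ∈ ((IsLocalRing.maximalIdeal A).primesOver B).toFinset,
          r38pl_s A P * P.ramificationIdx A :=
    r38pl_maximalIdeal_pow_injective h1
  -- `∑ e_P = n`
  have h3 : ∑ P ∈ ((IsLocalRing.maximalIdeal A).primesOver B).toFinset,
      P.ramificationIdx A = Module.finrank A B := by
    rw [← hsum, Finset.sum_set_coe (f := fun q : Ideal B =>
      q.ramificationIdx A * q.inertiaDeg A)]
    refine Finset.sum_congr rfl fun P hP => ?_
    haveI := (hmem P hP).1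
    haveI := (hmem P hP).2
    haveI : P.IsMaximal := Ideal.IsMaximal.of_liesOver_isMaximal P (IsLocalRing.maximalIdeal A)
    rw [Fermat.Agent.S24Dec.inertiaDeg_eq_one_of_isAlgClosed (K := K)
      (IsLocalRing.maximalIdeal A) hres P, mul_one]
  -- termwise equality
  have hle : ∀ P ∈ ((IsLocalRing.maximalIdeal A).primesOver B).toFinset,
      P.ramificationIdx A ≤ r38pl_s A P * P.ramificationIdx A := fun P hP =>
    Nat.le_mul_of_pos_left _ (hspec P hP).1
  have heq := (Finset.sum_eq_sum_iff_of_le hle).mp (h3.trans h2)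
  have hQ : Q.asIdeal ∈ ((IsLocalRing.maximalIdeal A).primesOver B).toFinset := by
    rw [Set.mem_toFinset]
    exact ⟨Q.isPrime, Fermat.Agent.HeckeInputs.hi_liesOver Q⟩
  have hQe := heq Q.asIdeal hQ
  haveI := Q.isPrime
  have hepos : 0 < Q.asIdeal.ramificationIdx A := Ideal.ramificationIdx_pos _ _
  have hs1 : r38pl_s A Q.asIdeal = 1 := by
    have : 1 * Q.asIdeal.ramificationIdx A = r38pl_s A Q.asIdeal * Q.asIdeal.ramificationIdx A := by
      rw [one_mul]; exact hQe
    exact (Nat.eq_of_mul_eq_mul_right hepos this).symm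
  rw [(hspec Q.asIdeal hQ).2, hs1, pow_one]

open Fermat.Agent.HeckeInputs in
/-- the relative norm of a nonzero ideal of `B`. -/
theorem r38pl_relNorm_eq [IsAlgClosed K]
    (hres : Function.Surjective
      ((Ideal.Quotient.mk (IsLocalRing.maximalIdeal A)).comp (algebraMap K A)))
    (I : Ideal B) (hI : I ≠ 0) :
    Ideal.relNorm A I = IsLocalRing.maximalIdeal A ^ hi_totalCount A I := by
  induction I using UniqueFactorizationMonoid.induction_on_prime with
  | h₁ => exact absurd rfl hI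
  | h₂ x hx =>
    obtain rfl : x = 1 := by rwa [Ideal.isUnit_iff, ← Ideal.one_eq_top] at hx
    rw [map_one, hi_totalCount_one, pow_zero]
  | h₃ a p ha hp ih =>
    have hpQ : p ≠ ⊥ := hp.ne_zero
    have hprime : p.IsPrime := Ideal.isPrime_of_prime hp
    let Q : HeightOneSpectrum B := ⟨p, hprime, hpQ⟩
    have h1 : Ideal.relNorm A p = IsLocalRing.maximalIdeal A :=
      r38pl_relNorm_prime (K := K) hres Q
    have h2 : hi_totalCount A p = 1 := hi_totalCount_prime Q
    rw [map_mul, ih ha, h1, hi_totalCount_mul hp.ne_zero ha, h2, pow_add, pow_one]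

variable (v : Place K F)
  (hv : ∀ x : F, x ∈ v.toValuationSubring ↔ x ∈ Set.range (algebraMap A F))

open Fermat.Agent.HeckeInputs in
variable (A) in
include hv in
/-- the norm formula for elements of `B`. -/
theorem r38pl_ord_norm_algebraMap [IsAlgClosed K]
    [HasPrincipalDivisors K F'] [IsIntegralClosure B A F']
    (hres : Function.Surjective
      ((Ideal.Quotient.mk (IsLocalRing.maximalIdeal A)).comp (algebraMap K A)))
    (b : B) (hb : b ≠ 0) :
    v.ord (Algebra.norm F (algebraMap B F' b)) = ∑ w ∈ v.fiber F', w.ord (algebraMap B F' b) := by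
  haveI : Algebra.IsIntegral A B := Algebra.IsIntegral.of_finite A B
  have hI : Ideal.span {b} ≠ (0 : Ideal B) := by
    rw [Ne, Ideal.zero_eq_bot, Ideal.span_singleton_eq_bot]
    exact hb
  rw [hi_sum_ord_algebraMap A v hv b hb, ← Algebra.algebraMap_intNorm (A := A) (K := F)]
  apply hi_ord_of_span_eq v hv
  rw [← Ideal.relNorm_singleton, r38pl_relNorm_eq (K := K) hres _ hI]

open Fermat.Agent.HeckeInputs in
variable (A B) in
include hv B in
/-- the norm formula: `ord_v (N f) = ∑_{w ∣ v} ord_w f`. -/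
theorem r38pl_ord_norm [IsAlgClosed K]
    [HasPrincipalDivisors K F'] [IsIntegralClosure B A F']
    (hres : Function.Surjective
      ((Ideal.Quotient.mk (IsLocalRing.maximalIdeal A)).comp (algebraMap K A)))
    (f : F') (hf : f ≠ 0) :
    v.ord (Algebra.norm F f) = ∑ w ∈ v.fiber F', w.ord f := by
  obtain ⟨b₁, b₂, hb₂, rfl⟩ := IsFractionRing.div_surjective (A := B) f
  have hb₂0 : b₂ ≠ 0 := nonZeroDivisors.ne_zero hb₂
  have hb₁0 : b₁ ≠ 0 := by
    rintro rfl
    simp at hf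
  have h1 : algebraMap B F' b₁ ≠ 0 := by
    rwa [Ne, map_eq_zero_iff _ (IsFractionRing.injective B F')]
  have h2 : algebraMap B F' b₂ ≠ 0 := by
    rwa [Ne, map_eq_zero_iff _ (IsFractionRing.injective B F')]
  have hn1 : Algebra.norm F (algebraMap B F' b₁) ≠ 0 := Algebra.norm_ne_zero_iff.mpr h1
  have hn2 : Algebra.norm F (algebraMap B F' b₂) ≠ 0 := Algebra.norm_ne_zero_iff.mpr h2
  have hinv : Algebra.norm F (algebraMap B F' b₂)⁻¹ = (Algebra.norm F (algebraMap B F' b₂))⁻¹ := by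
    apply eq_inv_of_mul_eq_one_left
    rw [← map_mul, inv_mul_cancel₀ h2, map_one]
  rw [div_eq_mul_inv, map_mul, hinv, v.ord_mul hn1 (inv_ne_zero hn2), v.ord_inv,
    r38pl_ord_norm_algebraMap A v hv hres b₁ hb₁0, r38pl_ord_norm_algebraMap A v hv hres b₂ hb₂0,
    ← sub_eq_add_neg, ← Finset.sum_sub_distrib]
  refine Finset.sum_congr rfl fun w _ => ?_
  rw [w.ord_mul h1 (inv_ne_zero h2), w.ord_inv, sub_eq_add_neg]

end DVR

section Global

open Fermat.Agent.S24Diff

variable {K F F' : Type*} [Field K] [Field F] [Field F']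
  [Algebra K F] [Algebra K F'] [Algebra F F'] [IsScalarTower K F F'] [FiniteDimensional F F']
  [IsAlgClosed K]

/-- every place of a function field over an algebraically closed field has inertia degree `1`
(any characteristic). -/
theorem r38pl_inertiaDeg_eq_one {x' : F'} (h' : IsFunctionFieldOver K F' x') (w : Place K F') :
    w.inertiaDeg F = 1 := by
  have h1 := w.deg_restrict_mul_inertiaDeg (F := F)
  rw [Fermat.Agent.S24Res.deg_eq_one h' w] at h1
  exact Nat.eq_one_of_mul_eq_one_left h1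

section Local

variable (v : Place K F)

/-- the algebra structure of `F'` over the valuation ring of `v`. -/
abbrev r38pl_algA : Algebra v.toValuationSubring F' :=
  ((algebraMap F F').comp (algebraMap v.toValuationSubring F)).toAlgebra

theorem r38pl_towerA :
    letI := r38pl_algA (F' := F') v; IsScalarTower v.toValuationSubring F F' :=
  letI := r38pl_algA (F' := F') v
  IsScalarTower.of_algebraMap_eq fun _ => rfl

theorem r38pl_towerKA :
    letI := r38pl_algA (F' := F') v; IsScalarTower K v.toValuationSubring F' :=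
  letI := r38pl_algA (F' := F') v
  IsScalarTower.of_algebraMap_eq fun a => by
    show algebraMap K F' a = algebraMap F F' ((algebraMap K v.toValuationSubring a : _) : F)
    rw [Place.coe_algebraMap, ← IsScalarTower.algebraMap_apply]

theorem r38pl_hv (x : F) :
    x ∈ v.toValuationSubring ↔ x ∈ Set.range (algebraMap v.toValuationSubring F) := by
  constructor
  · intro hx
    exact ⟨⟨x, hx⟩, rfl⟩
  · rintro ⟨a, rfl⟩
    exact a.2

theorem r38pl_hres {x : F} (h : IsFunctionFieldOver K F x) :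
    Function.Surjective
      ((Ideal.Quotient.mk (IsLocalRing.maximalIdeal v.toValuationSubring)).comp
        (algebraMap K v.toValuationSubring)) := by
  intro z
  obtain ⟨f, rfl⟩ := Ideal.Quotient.mk_surjective z
  obtain ⟨a, ha⟩ := Fermat.Agent.S24Res.exists_sub_mem_maximalIdeal h v f
  refine ⟨a, ?_⟩
  rw [RingHom.comp_apply, eq_comm, Ideal.Quotient.eq]
  exact ha

variable (F') in
/-- the norm formula at `v`, for a separable extension (any characteristic). -/
theorem r38pl_ord_norm_global [Algebra.IsSeparable F F'] [HasPrincipalDivisors K F'] {x : F}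
    (h : IsFunctionFieldOver K F x) (f : F') (hf : f ≠ 0) :
    v.ord (Algebra.norm F f) = ∑ w ∈ v.fiber F', w.ord f := by
  letI := r38pl_algA (F' := F') v
  haveI := r38pl_towerA (F' := F') v
  haveI := r38pl_towerKA (F' := F') v
  haveI : IsDedekindDomain (integralClosure v.toValuationSubring F') :=
    integralClosure.isDedekindDomain v.toValuationSubring F F'
  haveI : IsFractionRing (integralClosure v.toValuationSubring F') F' :=
    integralClosure.isFractionRing_of_finite_extension F F'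
  haveI : Module.Finite v.toValuationSubring (integralClosure v.toValuationSubring F') :=
    IsIntegralClosure.finite v.toValuationSubring F F' _
  haveI : Module.IsTorsionFree v.toValuationSubring (integralClosure v.toValuationSubring F') := by
    haveI : Module.IsTorsionFree v.toValuationSubring F' :=
      .trans_faithfulSMul v.toValuationSubring F F'
    exact IsIntegralClosure.isTorsionFree v.toValuationSubring F'
  exact r38pl_ord_norm v.toValuationSubring (integralClosure v.toValuationSubring F') v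
    (r38pl_hv v) (r38pl_hres v h) f hf

end Local

variable (K F F') in
/-- **the norm formula for a finite separable extension of function fields** over an
algebraically closed field of any characteristic. -/
theorem r38pl_pushforwardNormFormula [Algebra.IsSeparable F F'] [HasPrincipalDivisors K F']
    {x : F} {x' : F'} (h : IsFunctionFieldOver K F x) (h' : IsFunctionFieldOver K F' x') :
    Divisor.PushforwardNormFormula K F F' := by
  intro f hf D hD v
  rw [Fermat.Agent.HeckeInputs.hi_pushforward_apply, r38pl_ord_norm_global F' v h f hf]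
  refine Finset.sum_congr rfl fun w _ => ?_
  rw [r38pl_inertiaDeg_eq_one h' w, Nat.cast_one, mul_one, hD]

end Global

section Along

open Fermat.Agent.S24Diff

variable {K F F' : Type*} [Field K] [Field F] [Field F'] [Algebra K F] [Algebra K F']
  [IsAlgClosed K]

/-- **the norm formula along a finite separable morphism of function fields**, any
characteristic. -/
theorem r38pl_normFormulaAlong (φ : F →ₐ[K] F') (hfin : FiniteAlong K φ)
    (hsep : letI := algebraAlong φ; Algebra.IsSeparable F F')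
    [HasPrincipalDivisors K F'] {x : F} (h : IsFunctionFieldOver K F x) {x' : F'}
    (h' : IsFunctionFieldOver K F' x') : NormFormulaAlong K φ hfin := by
  letI := algebraAlong φ
  haveI := isScalarTower_along φ
  haveI : FiniteDimensional F F' := hfin
  haveI : Algebra.IsSeparable F F' := hsep
  exact r38pl_pushforwardNormFormula K F F' h h'

end Along

end Fermat.Agent.R38
end
end MergeWrap_R38_P_NormSep

section MergeWrap_R38_P_Places -- from R38/P/Places.lean

set_option autoImplicit false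
set_option linter.unusedSectionVars false
set_option linter.style.haveILetI false

noncomputable section

open AlgebraicCurve Fermat.Agent.F3G Fermat.Agent.F3Deg

namespace Fermat.Agent.R38

variable {k Fk Fk' : Type*} [Field k] [Field Fk] [Field Fk'] [Algebra k Fk] [Algebra k Fk']

/-- the order of a norm, as a sum over the fibre (in the `Along` language). -/
theorem r38pl_ord_norm_eq_sum [HasPrincipalDivisors k Fk']
    (α : Fk →ₐ[k] Fk') (hα : α.toRingHom.IsIntegral)
    (hfin : FiniteAlong k α) (hN : NormFormulaAlong k α hfin)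
    {y : Fk'} (hy : y ≠ 0) (Q : Place k Fk) :
    ∃ s : Finset (Place k Fk'), (∀ w ∈ s, w.restrictAlong α hα = Q) ∧
      Q.ord (normAlong α y) = ∑ w ∈ s, w.ord y * (w.inertiaDegAlong α hα : ℤ) := by
  classical
  obtain ⟨D, hD, -⟩ := HasPrincipalDivisors.exists_divisor (K := k) y hy
  have h1 := pushforwardAlong_apply_eq_ord_norm α hα hfin hN hy hD Q
  letI := algebraAlong α
  haveI := isScalarTower_along α
  haveI := isIntegral_along α hα
  have h2 : Divisor.pushforwardAlong α hα D Q =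
      ∑ w ∈ D.support, if w.restrict Fk = Q then D w * (w.inertiaDeg Fk : ℤ) else 0 :=
    Divisor.pushforward_apply D Q
  refine ⟨D.support.filter (fun w => w.restrict Fk = Q), fun w hw => ?_, ?_⟩
  · exact (Finset.mem_filter.mp hw).2
  · rw [← h1, h2, Finset.sum_filter]
    refine Finset.sum_congr rfl fun w _ => ?_
    split_ifs
    · rw [hD]; rfl
    · rfl

/-- **(P-sl), abstract core.**  `node`/`cusp` are arbitrary predicates on the places of `Fk`. -/
theorem r38pl_slope_core [HasPrincipalDivisors k Fk']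
    (α β : Fk →ₐ[k] Fk') (hα : α.toRingHom.IsIntegral) (hβ : β.toRingHom.IsIntegral)
    (hfin : FiniteAlong k α) (hN : NormFormulaAlong k α hfin)
    (p : ℤ) (node cusp : Place k Fk → Prop)
    (hkey : ∀ Q' : Place k Fk', node (Q'.restrictAlong α hα) → ¬ cusp (Q'.restrictAlong β hβ))
    {x : Fk} (hx : x ≠ 0) (hdiv : ∀ Q : Place k Fk, ¬ cusp Q → p ∣ Q.ord x)
    (Q : Place k Fk) (hQ : node Q) :
    p ∣ Q.ord (normAlong α (β x)) := by
  have hy : β x ≠ 0 := by simpa using hx
  obtain ⟨s, hs, hsum⟩ := r38pl_ord_norm_eq_sum α hα hfin hN hy Q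
  rw [hsum]
  refine Finset.dvd_sum fun w hw => ?_
  have h1 : node (w.restrictAlong α hα) := by rw [hs w hw]; exact hQ
  have h2 := hdiv _ (hkey w h1)
  rw [Place.ord_restrictAlong β hβ w x]
  exact Dvd.dvd.mul_right (Dvd.dvd.mul_left h2 _) _

end Fermat.Agent.R38
end
end MergeWrap_R38_P_Places

section MergeWrap_R38_P_PlacesMod -- from R38/P/PlacesMod.lean

set_option autoImplicit false
set_option linter.unusedSectionVars false
set_option linter.style.haveILetI false

noncomputable section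

open AlgebraicCurve ModularCurve IntermediateField Fermat.Agent.F3G Fermat.Agent.RR
  Fermat.Agent.RedTr Fermat.Agent.ES15

namespace Fermat.Agent.R38

section Sep

variable {k E L : Type*} [Field k] [Field E] [Field L] [Algebra k E] [Algebra k L]

/-- if `L` is separable over `k(φ x)`, it is separable over `E` (along `φ : E → L`). -/
theorem r38pl_isSeparable_along (φ : E →ₐ[k] L) (x : E)
    (hsep : Algebra.IsSeparable k⟮φ x⟯ L) :
    letI := algebraAlong φ; Algebra.IsSeparable E L := by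
  letI := algebraAlong φ
  haveI := isScalarTower_along φ
  -- `K₀ = k(x) ⊂ E`, with its algebra structure on `L` through `E`
  letI algK₀ : Algebra k⟮x⟯ L := ((algebraMap E L).comp (algebraMap k⟮x⟯ E)).toAlgebra
  have htower : IsScalarTower k⟮x⟯ E L := IsScalarTower.of_algebraMap_eq fun _ => rfl
  have hmap : (k⟮x⟯).map φ = k⟮φ x⟯ := by
    rw [IntermediateField.adjoin_map, Set.image_singleton]
  let e₁ : k⟮φ x⟯ ≃+* k⟮x⟯ :=
    ((IntermediateField.equivOfEq hmap.symm).trans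
      (IntermediateField.equivMap k⟮x⟯ φ).symm).toRingEquiv
  have he : RingHom.comp (algebraMap k⟮x⟯ L) (e₁ : k⟮φ x⟯ →+* k⟮x⟯) =
      RingHom.comp ((RingEquiv.refl L : L ≃+* L) : L →+* L) (algebraMap k⟮φ x⟯ L) := by
    ext y
    obtain ⟨z, hz⟩ : ∃ z : k⟮x⟯, e₁ y = z := ⟨_, rfl⟩
    have hy : (y : L) = φ (z : E) := by
      have h1 : y = e₁.symm z := by rw [← hz, RingEquiv.symm_apply_apply]
      rw [h1]
      rfl
    show algebraMap E L (algebraMap k⟮x⟯ E (e₁ y)) = (y : L)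
    rw [hz, hy]
    rfl
  have hsepK : Algebra.IsSeparable k⟮x⟯ L :=
    Algebra.IsSeparable.of_equiv_equiv e₁ (RingEquiv.refl L) he
  exact @Algebra.isSeparable_tower_top_of_isSeparable k⟮x⟯ E _ L _ _ _ algK₀ _ htower hsepK

end Sep

section Modular

variable (k : Type*) [Field k] [IsAlgClosed k] (N ℓ : ℕ) [NeZero N] [NeZero ℓ] [NeZero (N * ℓ)]

/-- `ᾱ` is finite. -/
theorem r38pl_finiteAlong_alphaC : FiniteAlong k (heckeAlphaC k N ℓ) :=
  heckeRed_finiteAlong (Fermat.Agent.RRMod.isRRField_fullC' k N)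
    (Fermat.Agent.RRMod.isRRField_fullC' k (N * ℓ)) _

/-- `β̄` is finite. -/
theorem r38pl_finiteAlong_betaC : FiniteAlong k (heckeBetaC k N ℓ) :=
  heckeRed_finiteAlong (Fermat.Agent.RRMod.isRRField_fullC' k N)
    (Fermat.Agent.RRMod.isRRField_fullC' k (N * ℓ)) _

theorem r38pl_isIntegral_alphaC : (heckeAlphaC k N ℓ).toRingHom.IsIntegral := by
  letI := algebraAlong (heckeAlphaC k N ℓ)
  haveI : Module.Finite (modularFunctionFieldFullC k N) (modularFunctionFieldFullC k (N * ℓ)) :=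
    r38pl_finiteAlong_alphaC k N ℓ
  intro z
  exact (Algebra.IsIntegral.of_finite (modularFunctionFieldFullC k N)
    (modularFunctionFieldFullC k (N * ℓ))).isIntegral z

theorem r38pl_isIntegral_betaC : (heckeBetaC k N ℓ).toRingHom.IsIntegral := by
  letI := algebraAlong (heckeBetaC k N ℓ)
  haveI : Module.Finite (modularFunctionFieldFullC k N) (modularFunctionFieldFullC k (N * ℓ)) :=
    r38pl_finiteAlong_betaC k N ℓ
  intro z
  exact (Algebra.IsIntegral.of_finite (modularFunctionFieldFullC k N)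
    (modularFunctionFieldFullC k (N * ℓ))).isIntegral z

/-- `F_k(Nℓ)` has principal divisors. -/
theorem r38pl_hasPD : HasPrincipalDivisors k (modularFunctionFieldFullC k (N * ℓ)) :=
  hasPD (Fermat.Agent.RRMod.isRRField_fullC' k (N * ℓ))

/-- `F_k(Nℓ) / F_k(N)` is separable (any characteristic). -/
theorem r38pl_isSeparable_alphaC :
    letI := algebraAlong (heckeAlphaC k N ℓ)
    Algebra.IsSeparable (modularFunctionFieldFullC k N) (modularFunctionFieldFullC k (N * ℓ)) := by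
  apply r38pl_isSeparable_along (heckeAlphaC k N ℓ) (Fermat.Agent.RRMod.jC k N)
  rw [show heckeAlphaC k N ℓ (Fermat.Agent.RRMod.jC k N) = Fermat.Agent.RRMod.jC k (N * ℓ) from
    mc_inclC_jC k (dvd_mul_right N ℓ)]
  exact Fermat.Agent.RRMod.isSeparable_fullC' k (N * ℓ)

/-- **the norm formula for `ᾱ : F_k(N) → F_k(Nℓ)`**, `k` algebraically closed of any
characteristic. -/
theorem r38pl_normFormula_alphaC :
    haveI := r38pl_hasPD k N ℓ
    NormFormulaAlong k (heckeAlphaC k N ℓ) (r38pl_finiteAlong_alphaC k N ℓ) := by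
  haveI := r38pl_hasPD k N ℓ
  exact r38pl_normFormulaAlong (heckeAlphaC k N ℓ) (r38pl_finiteAlong_alphaC k N ℓ)
    (r38pl_isSeparable_alphaC k N ℓ) (Fermat.Agent.RRMod.isFunctionFieldOver_fullC' k N)
    (Fermat.Agent.RRMod.isFunctionFieldOver_fullC' k (N * ℓ))

/-- **(P-sl) on the residue field**: if every place of `F_k(Nℓ)` over a zero of `u` (via `ᾱ`) goes
to a non-pole of `u` (via `β̄`)  [KEY],  and `p ∣ ord_Q x` at all non-poles `Q` of `u`, then
`p ∣ ord_Q (T̄_ℓ x)` at all zeros `Q` of `u`. -/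
theorem r38pl_slope_modular (p : ℤ) (u : modularFunctionFieldFullC k N)
    (hkey : ∀ Q' : Place k (modularFunctionFieldFullC k (N * ℓ)),
      0 < (Q'.restrictAlong (heckeAlphaC k N ℓ) (r38pl_isIntegral_alphaC k N ℓ)).ord u →
      0 ≤ (Q'.restrictAlong (heckeBetaC k N ℓ) (r38pl_isIntegral_betaC k N ℓ)).ord u)
    {x : modularFunctionFieldFullC k N} (hx : x ≠ 0)
    (hdiv : ∀ Q : Place k (modularFunctionFieldFullC k N), 0 ≤ Q.ord u → p ∣ Q.ord x)
    (Q : Place k (modularFunctionFieldFullC k N)) (hQ : 0 < Q.ord u) :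
    p ∣ Q.ord (heckeFunC k N ℓ x) := by
  haveI := r38pl_hasPD k N ℓ
  rw [heckeFunC_apply]
  exact r38pl_slope_core (heckeAlphaC k N ℓ) (heckeBetaC k N ℓ) (r38pl_isIntegral_alphaC k N ℓ)
    (r38pl_isIntegral_betaC k N ℓ) (r38pl_finiteAlong_alphaC k N ℓ)
    (r38pl_normFormula_alphaC k N ℓ) p (fun Q => 0 < Q.ord u) (fun Q => ¬ 0 ≤ Q.ord u)
    (fun Q' h => not_not.mpr (hkey Q' h)) hx (fun Q h => hdiv Q (not_not.mp h)) Q hQ

/-- the divisor of `T̄_ℓ x`: `ord_Q (T̄_ℓ x) = ∑_{Q' ∣ Q} e_β(Q') · ord_{Q' ∘ β̄} x` (sum over a finite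
set of places over `Q`; all inertia degrees are `1`). -/
theorem r38pl_ord_heckeFunC {x : modularFunctionFieldFullC k N} (hx : x ≠ 0)
    (Q : Place k (modularFunctionFieldFullC k N)) :
    ∃ s : Finset (Place k (modularFunctionFieldFullC k (N * ℓ))),
      (∀ w ∈ s, w.restrictAlong (heckeAlphaC k N ℓ) (r38pl_isIntegral_alphaC k N ℓ) = Q) ∧
      Q.ord (heckeFunC k N ℓ x) = ∑ w ∈ s,
        (Place.ramificationIndexAlong (heckeBetaC k N ℓ) w : ℤ) *
          (w.restrictAlong (heckeBetaC k N ℓ) (r38pl_isIntegral_betaC k N ℓ)).ord x *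
          (w.inertiaDegAlong (heckeAlphaC k N ℓ) (r38pl_isIntegral_alphaC k N ℓ) : ℤ) := by
  haveI := r38pl_hasPD k N ℓ
  have hy : heckeBetaC k N ℓ x ≠ 0 := by simpa using hx
  obtain ⟨s, hs, hsum⟩ := r38pl_ord_norm_eq_sum (heckeAlphaC k N ℓ)
    (r38pl_isIntegral_alphaC k N ℓ) (r38pl_finiteAlong_alphaC k N ℓ)
    (r38pl_normFormula_alphaC k N ℓ) hy Q
  refine ⟨s, hs, ?_⟩
  rw [heckeFunC_apply, hsum]
  refine Finset.sum_congr rfl fun w _ => ?_
  rw [Place.ord_restrictAlong (heckeBetaC k N ℓ) (r38pl_isIntegral_betaC k N ℓ) w x]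

end Modular

end Fermat.Agent.R38
end
end MergeWrap_R38_P_PlacesMod

section MergeWrap_R38_P_KeyLevel -- from R38/P/KeyLevel.lean

set_option autoImplicit false
set_option linter.unusedSectionVars false
set_option linter.style.haveILetI false

noncomputable section

open ModularCurve AlgebraicCurve

set_option synthInstance.maxHeartbeats 400000

namespace Fermat.Agent.R38

open Fermat.Agent.BadRed Fermat.Agent.AtkinLehner Fermat.Agent.ES15 Fermat.Agent.RedTr
  Fermat.Agent.FF Fermat.Agent.RR Fermat.Agent.Deuring Fermat.Agent.GaussInt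

local notation "Qb" => AlgebraicClosure ℚ

variable (A : ValuationSubring Qb) (p : ℕ) (hp : p.Prime) (hA : A.LiesOverPrime p)

include hp hA in
/-- **KEY for `j`, every level `M = ℓ N`** (`ℓ ∤ N` prime, `p ∤ M`). -/
theorem keyl_ord_betaC_jC (N ℓ M : ℕ) [NeZero N] [NeZero ℓ] [NeZero M] (hℓ : ℓ.Prime)
    (hℓN : ¬ ℓ ∣ N) (hM : M = ℓ * N) (h : N * ℓ ∣ M) (hpM : ¬ p ∣ M)
    (hg : genusFF Qb (modularFunctionFieldBar M) =
      genusFF (IsLocalRing.ResidueField A)
        (modularFunctionFieldFullC (IsLocalRing.ResidueField A) M))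
    (Q' : Place (IsLocalRing.ResidueField A)
      (modularFunctionFieldFullC (IsLocalRing.ResidueField A) M))
    (hQ' : 0 ≤ Q'.ord (Fermat.Agent.RRMod.jC (IsLocalRing.ResidueField A) M)) :
    0 ≤ Q'.ord (heckeRed_betaTopC N ℓ M h (IsLocalRing.ResidueField A)
      (Fermat.Agent.RRMod.jC (IsLocalRing.ResidueField A) N)) := by
  obtain ⟨D, hDQ, hDR⟩ := ALData.exists_of_coprime (Q := ℓ) (R := N) hℓ.pos
    (Nat.pos_of_ne_zero (NeZero.ne N)) ((Nat.Prime.coprime_iff_not_dvd hℓ).mpr hℓN)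
  subst hDQ hDR
  subst hM
  exact key_ord_betaC_jC A p hp hA D hℓ hpM hg Q' hQ'

include hp hA in
/-- **KEY at the level `N * ℓ`**: a zero of `ᾱ ū` is not a pole of `β̄ ū`. -/
theorem keyl_ord_betaC_ss (N ℓ : ℕ) [NeZero N] [NeZero ℓ] [NeZero (N * ℓ)] (hℓ : ℓ.Prime)
    (hℓN : ¬ ℓ ∣ N) (hpM : ¬ p ∣ N * ℓ)
    (hg : genusFF Qb (modularFunctionFieldBar (N * ℓ)) =
      genusFF (IsLocalRing.ResidueField A)
        (modularFunctionFieldFullC (IsLocalRing.ResidueField A) (N * ℓ)))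
    (u : modularFunctionFieldFullC (IsLocalRing.ResidueField A) N)
    (hu : (u : LaurentSeries (IsLocalRing.ResidueField A)) =
      ssFun (IsLocalRing.ResidueField A) p)
    (Q' : Place (IsLocalRing.ResidueField A)
      (modularFunctionFieldFullC (IsLocalRing.ResidueField A) (N * ℓ)))
    (h : 0 < Q'.ord (heckeAlphaC (IsLocalRing.ResidueField A) N ℓ u)) :
    0 ≤ Q'.ord (heckeBetaC (IsLocalRing.ResidueField A) N ℓ u) := by
  have hj : 0 ≤ Q'.ord (Fermat.Agent.RRMod.jC (IsLocalRing.ResidueField A) (N * ℓ)) :=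
    ord_jC_nonneg_of_ss_zero (N * ℓ) hp hA
      (heckeAlphaC (IsLocalRing.ResidueField A) N ℓ u)
      (by rw [coe_mc_inclC]; exact hu) Q' h
  obtain ⟨P, -, rfl⟩ := ss_eq_aeval N hp hA u hu
  rw [← Polynomial.aeval_algHom_apply]
  exact ord_aeval_nonneg_of_ord Q'
    (keyl_ord_betaC_jC A p hp hA N ℓ (N * ℓ) hℓ hℓN (mul_comm N ℓ) dvd_rfl hpM hg Q' hj) P

section Abstract

variable {K E F : Type*} [Field K] [Field E] [Field F] [Algebra K E] [Algebra K F]

/-- positivity is read off on the upper field. -/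
theorem keyl_restrict_pos_iff (φ : E →ₐ[K] F) (hφ : φ.toRingHom.IsIntegral) (w : Place K F)
    (x : E) : 0 < (w.restrictAlong φ hφ).ord x ↔ 0 < w.ord (φ x) := by
  have e := Place.ord_restrictAlong φ hφ w x
  have hpos : (0 : ℤ) < (Place.ramificationIndexAlong φ w : ℤ) :=
    Int.natCast_pos.mpr (ramificationIndexAlong_pos φ hφ w)
  rw [e]
  constructor
  · intro h
    exact mul_pos hpos h
  · intro h
    by_contra hcon
    rw [not_lt] at hcon
    have := mul_nonpos_of_nonneg_of_nonpos hpos.le hcon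
    omega

/-- non-negativity is read off on the upper field. -/
theorem keyl_restrict_nonneg_iff (φ : E →ₐ[K] F) (hφ : φ.toRingHom.IsIntegral) (w : Place K F)
    (x : E) : 0 ≤ (w.restrictAlong φ hφ).ord x ↔ 0 ≤ w.ord (φ x) := by
  have e := Place.ord_restrictAlong φ hφ w x
  have hpos : (0 : ℤ) < (Place.ramificationIndexAlong φ w : ℤ) :=
    Int.natCast_pos.mpr (ramificationIndexAlong_pos φ hφ w)
  rw [e]
  constructor
  · intro h
    exact mul_nonneg hpos.le h
  · intro h
    by_contra hcon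
    rw [not_le] at hcon
    have := mul_neg_of_pos_of_neg hpos hcon
    omega

end Abstract

include hp hA in
/-- **the hypothesis `hkey` of `r38pl_slope_modular`** (for any proofs of integrality). -/
theorem keyl_hkey (N ℓ : ℕ) [NeZero N] [NeZero ℓ] [NeZero (N * ℓ)] (hℓ : ℓ.Prime)
    (hℓN : ¬ ℓ ∣ N) (hpM : ¬ p ∣ N * ℓ)
    (hg : genusFF Qb (modularFunctionFieldBar (N * ℓ)) =
      genusFF (IsLocalRing.ResidueField A)
        (modularFunctionFieldFullC (IsLocalRing.ResidueField A) (N * ℓ)))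
    (u : modularFunctionFieldFullC (IsLocalRing.ResidueField A) N)
    (hu : (u : LaurentSeries (IsLocalRing.ResidueField A)) =
      ssFun (IsLocalRing.ResidueField A) p)
    (hα : (heckeAlphaC (IsLocalRing.ResidueField A) N ℓ).toRingHom.IsIntegral)
    (hβ : (heckeBetaC (IsLocalRing.ResidueField A) N ℓ).toRingHom.IsIntegral)
    (Q' : Place (IsLocalRing.ResidueField A)
      (modularFunctionFieldFullC (IsLocalRing.ResidueField A) (N * ℓ)))
    (h : 0 < (Q'.restrictAlong (heckeAlphaC (IsLocalRing.ResidueField A) N ℓ) hα).ord u) :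
    0 ≤ (Q'.restrictAlong (heckeBetaC (IsLocalRing.ResidueField A) N ℓ) hβ).ord u :=
  (keyl_restrict_nonneg_iff _ hβ Q' u).mpr
    (keyl_ord_betaC_ss A p hp hA N ℓ hℓ hℓN hpM hg u hu Q'
      ((keyl_restrict_pos_iff _ hα Q' u).mp h))

include hp hA in
/-- `hkey` for `p ∉ {2, 3}` (genus equality from cluster B). -/
theorem keyl_hkey_of_ne (h2 : p ≠ 2) (h3 : p ≠ 3) (N ℓ : ℕ) [NeZero N] [NeZero ℓ]
    [NeZero (N * ℓ)] (hℓ : ℓ.Prime) (hℓN : ¬ ℓ ∣ N) (hpM : ¬ p ∣ N * ℓ)
    (u : modularFunctionFieldFullC (IsLocalRing.ResidueField A) N)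
    (hu : (u : LaurentSeries (IsLocalRing.ResidueField A)) =
      ssFun (IsLocalRing.ResidueField A) p)
    (hα : (heckeAlphaC (IsLocalRing.ResidueField A) N ℓ).toRingHom.IsIntegral)
    (hβ : (heckeBetaC (IsLocalRing.ResidueField A) N ℓ).toRingHom.IsIntegral)
    (Q' : Place (IsLocalRing.ResidueField A)
      (modularFunctionFieldFullC (IsLocalRing.ResidueField A) (N * ℓ)))
    (h : 0 < (Q'.restrictAlong (heckeAlphaC (IsLocalRing.ResidueField A) N ℓ) hα).ord u) :
    0 ≤ (Q'.restrictAlong (heckeBetaC (IsLocalRing.ResidueField A) N ℓ) hβ).ord u :=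
  keyl_hkey A p hp hA N ℓ hℓ hℓN hpM
    (Fermat.Agent.GoodRed.genusFF_modular_eq (N * ℓ) hp hA hpM h2 h3) u hu hα hβ Q' h

include hp hA in
/-- **(P-sl) on the residue field, unconditional** (`p ∉ {2, 3}`): `r38pl_slope_modular` with
`hkey` discharged. -/
theorem keyl_slope_modular (h2 : p ≠ 2) (h3 : p ≠ 3) (N ℓ : ℕ) [NeZero N] [NeZero ℓ]
    [NeZero (N * ℓ)] (hℓ : ℓ.Prime) (hℓN : ¬ ℓ ∣ N) (hpM : ¬ p ∣ N * ℓ) (n : ℤ)
    (u : modularFunctionFieldFullC (IsLocalRing.ResidueField A) N)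
    (hu : (u : LaurentSeries (IsLocalRing.ResidueField A)) =
      ssFun (IsLocalRing.ResidueField A) p)
    {x : modularFunctionFieldFullC (IsLocalRing.ResidueField A) N} (hx : x ≠ 0)
    (hdiv : ∀ Q : Place (IsLocalRing.ResidueField A)
      (modularFunctionFieldFullC (IsLocalRing.ResidueField A) N), 0 ≤ Q.ord u → n ∣ Q.ord x)
    (Q : Place (IsLocalRing.ResidueField A)
      (modularFunctionFieldFullC (IsLocalRing.ResidueField A) N)) (hQ : 0 < Q.ord u) :
    n ∣ Q.ord (heckeFunC (IsLocalRing.ResidueField A) N ℓ x) := by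
  haveI := isAlgClosed_residue A
  exact r38pl_slope_modular (IsLocalRing.ResidueField A) N ℓ n u
    (fun Q' h => keyl_hkey_of_ne A p hp hA h2 h3 N ℓ hℓ hℓN hpM u hu _ _ Q' h) hx hdiv Q hQ

end Fermat.Agent.R38
end
end MergeWrap_R38_P_KeyLevel

section MergeWrap_R38_P_Leaves -- from R38/P/Leaves.lean

set_option autoImplicit false
set_option linter.style.haveILetI false
set_option linter.unusedSectionVars false
set_option linter.unusedVariables false
set_option synthInstance.maxHeartbeats 400000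
set_option maxHeartbeats 1000000

noncomputable section

namespace Fermat.Agent.R38

open ModularCurve AlgebraicCurve Fermat.Agent.F3 Fermat.Agent.F3G Fermat.Agent.F3I2
  Fermat.Agent.GaussInt Fermat.Agent.AtkinLehner Fermat.Agent.Deuring Fermat.Agent.RR
  Fermat.Agent.BadRed Fermat.Agent.EKp WeierstrassCurve

local notation "Qb" => AlgebraicClosure ℚ

/-- **(P-eps)** (helper27, helper65). -/
theorem r38_spPEps : SpPEps := by
  intro D _ _ _ A hq hA hqR _ _ _ h5 Q hQ
  exact r38_not_dvd_ord_red_u D A hq hA hqR h5 Q hQ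

/-- **(P-sl)** (helper15, helper96). -/
theorem r38_spPSl : SpPSl := by
  intro D _ _ _ A hq hA hqR _ _ _ h5 ℓ _ _ hℓ hℓN x hx hdiv Q hQ
  have hℓR : ¬ ℓ ∣ D.R := fun h => hℓN (dvd_mul_of_dvd_right h _)
  have hpM : ¬ D.Q ∣ D.R * ℓ := by
    intro h
    rcases (Nat.Prime.dvd_mul hq).1 h with h | h
    · exact hqR h
    · have h1 := (Nat.prime_dvd_prime_iff_eq hq hℓ).1 h
      exact hℓN (h1 ▸ dvd_mul_right _ _)
  exact keyl_slope_modular A D.Q hq hA (by omega) (by omega) D.R ℓ hℓ hℓR hpM (D.Q : ℤ)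
    ((kpS D A hq hA hqR).red (fwU D))
    (fw_coe_red_uF D A hq hA _ (isGaussSetup_gaussSetupBad D hq hqR A hA)) hx hdiv Q hQ

/-- **J-P** from J-W and (P-push). -/
theorem r38_spJP_of_push (hW : SpJW) (hPush : SpPPush) : SpJP :=
  r38_spJP hW r38_spPEps hPush r38_spPSl

end Fermat.Agent.R38
end
end MergeWrap_R38_P_Leaves

section MergeWrap_R38_P_PushB -- from R38/P/PushB.lean

set_option autoImplicit false
set_option linter.style.haveILetI false
set_option linter.unusedSectionVars false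
set_option linter.unusedVariables false
set_option synthInstance.maxHeartbeats 400000
set_option maxHeartbeats 1000000

noncomputable section

namespace Fermat.Agent.R38

open ModularCurve AlgebraicCurve Fermat.Agent.F3 Fermat.Agent.F3G Fermat.Agent.F3I2
  Fermat.Agent.GaussInt Fermat.Agent.AtkinLehner Fermat.Agent.Deuring Fermat.Agent.RR
  Fermat.Agent.BadRed Fermat.Agent.EKp WeierstrassCurve

local notation "Qb" => AlgebraicClosure ℚ


/-- **(P-push)**: the orders of a normalised reduction of a Kummer generator are divisible by `p`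
at the places which are not nodes. -/
theorem r38_spPPush : SpPPush := by
  intro D _ _ _ A hq hA hqR _ _ _ h5 E g hg c hc Q hQ
  classical
  have haux : AuxLevelOK D.Q D.R := AuxLevelOK.of_five_le h5
  have hf0 : g / algebraMap Qb (FBar (D.Q * D.R)) c ≠ 0 :=
    (kpS D A hq hA hqR).ne_zero_of_red_ne_zero hc
  have hc0 : c ≠ 0 := by
    rintro rfl
    rw [map_zero, div_zero] at hf0
    exact hf0 rfl
  have hca : algebraMap Qb (FBar (D.Q * D.R)) c ≠ 0 := (map_ne_zero _).mpr hc0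
  have hnode : ∀ i, Q ≠ (kpN D A hq hA hqR haux).s₁ i := by
    intro i hi
    have h1 : 0 < Q.ord ((kpS D A hq hA hqR).red (fwU D)) := by
      rw [hi]
      exact i.2
    omega
  have h := (kpN D A hq hA hqR haux).push₁ (g / algebraMap Qb (FBar (D.Q * D.R)) c)
    ((kpS D A hq hA hqR).mem_of_red_ne_zero hc) ((kpS D A hq hA hqR).inv_mem_of_red_ne_zero hc)
    hf0 Q hnode
  have hdiv : divOf (kpN D A hq hA hqR haux).S₁.hF (g / algebraMap Qb (FBar (D.Q * D.R)) c) =
      (D.Q : ℤ) • (E : Divisor Qb (FBar (D.Q * D.R))) := by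
    ext v
    rw [divOf_apply, Finsupp.smul_apply, smul_eq_mul, hg.2 v, div_eq_mul_inv,
      Place.ord_mul v hg.1 (inv_ne_zero hca), Place.ord_inv,
      rootClass_ord_algebraMap v hc0, neg_zero, add_zero]
  rw [hdiv, Finsupp.mapDomain_smul, Finsupp.smul_apply, smul_eq_mul] at h
  have h2 : Q.ord ((kpS D A hq hA hqR).red (g / algebraMap Qb (FBar (D.Q * D.R)) c)) =
      (D.Q : ℤ) * Finsupp.mapDomain (kpN D A hq hA hqR haux).r
        (E : Divisor Qb (FBar (D.Q * D.R))) (some (Sum.inl Q)) := h.symm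
  rw [h2]
  exact dvd_mul_right _ _

/-- **the junction J-P**, from J-W. -/
theorem r38_spJP_of_W (hW : SpJW) : SpJP :=
  r38_spJP_of_push hW r38_spPPush

end Fermat.Agent.R38
end
end MergeWrap_R38_P_PushB

section MergeWrap_R38_P_Final -- from R38/P/Final.lean

set_option autoImplicit false

namespace Fermat.Agent.R38

/-- **J-P**: (PHI). -/
theorem spJP : SpJP :=
  r38_spJP_of_W spJW

end Fermat.Agent.R38
end MergeWrap_R38_P_Final
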