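import Mathlib
import Fermat.Agent.MUL.Lib.BadRed.Mod.SSCount
import Fermat.Agent.MUL.Lib.BadRed.Mod.SSDeg
import Fermat.Agent.MUL.E.Desc.Kp.ModDefs
import Fermat.Agent.MUL.Lib.Deuring.Main
import Fermat.Agent.MUL.Lib.RR.Hurwitz.Count
import Fermat.Agent.MUL.Lib.GoodRed.ModularFibres
import Fermat.Agent.MUL.Lib.GoodRed.Small.OrdDvd
import Fermat.Agent.MUL.S24.Comb

section MergeWrap_R38_P_EpsMult -- from R38/P/EpsMult.lean

/-!
# Row 38, block P, seat P-eps part 2 (helper65): the exact multiplicities of the supersingular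
polynomial

`ū = u₀ P(j̄)` is the reduction of `u = Δ(z)/Δ(qz)` (`ssPoly`); the library only has the bounds
`m_c ≤ 12`, `m_0 ≤ 4`, `m_1728 ≤ 6` for the root multiplicities `m_c` of `P`.  With the genus
RELATION of the nodal package (`kpN_genusRel`) the count of `ssCount_ge` is an equality, hence
every pointwise inequality is an equality:

  `m_c = 12` (`c ≠ 0, 1728`),  `m_0 = 4`,  `m_1728 = 6`        (`ssMult`).

* `epsMult_arith`    : the equality case of `ssCount_arith`;
* `ssMult_exact`     : the exact multiplicities, from the genus inequality `2 g₀ + s ≤ g + 1`;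
* `ord_ss_eq_mult`   : at a zero `v` of `ū`:  `ord_v ū = ssMult c * ord_v (j̄ - c)`, `c = j̄(v)`;
* `kpEps_eq_mult`    : the same for the nodes of the modular nodal setup `kpN`:
                       `ε_i = ssMult c * ord_i (j̄ - c)`.
-/

set_option autoImplicit false
set_option linter.unusedSectionVars false
set_option linter.style.haveILetI false

noncomputable section

open AlgebraicCurve Polynomial ModularCurve Fermat.Agent.RR Fermat.Agent.BadRed

set_option synthInstance.maxHeartbeats 400000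
set_option maxHeartbeats 1000000

namespace Fermat.Agent.R38

/-- the multiplicity of the supersingular polynomial at a root `c`. -/
def ssMult {κ : Type*} [Field κ] [DecidableEq κ] (c : κ) : ℕ :=
  if c = 0 then 4 else if c = 1728 then 6 else 12

theorem ssMult_dvd_twelve {κ : Type*} [Field κ] [DecidableEq κ] (c : κ) : ssMult c ∣ 12 := by
  unfold ssMult
  split_ifs <;> decide

theorem ssMult_pos {κ : Type*} [Field κ] [DecidableEq κ] (c : κ) : 0 < ssMult c := by
  unfold ssMult
  split_ifs <;> decide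

/-- a prime `p ≥ 5` does not divide the multiplicities. -/
theorem not_dvd_ssMult {κ : Type*} [Field κ] [DecidableEq κ] (c : κ) {p : ℕ} (hp : p.Prime)
    (h5 : 5 ≤ p) : ¬ p ∣ ssMult c := by
  intro h
  have h12 : p ∣ 12 := h.trans (ssMult_dvd_twelve c)
  have h12' : (12 : ℕ) = 2 ^ 2 * 3 := by norm_num
  rw [h12'] at h12
  rcases (Nat.Prime.dvd_mul hp).mp h12 with h2 | h3
  · have := (Nat.prime_dvd_prime_iff_eq hp Nat.prime_two).mp (hp.dvd_of_dvd_pow h2)
    omega
  · have := (Nat.prime_dvd_prime_iff_eq hp Nat.prime_three).mp h3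
    omega

/-- the equality case of the arithmetic core of the count of supersingular points. -/
lemma epsMult_arith {κ : Type*} [Field κ] [DecidableEq κ] (h1728 : (1728 : κ) ≠ 0)
    (R : Finset κ) (mult n : κ → ℕ) (ψ ν₂ ν₃ o₂ o₃ d : ℕ) (hψ : 0 < ψ)
    (h2 : 2 * o₂ = ψ + ν₂) (h3 : 3 * o₃ = ψ + 2 * ν₃)
    (hn : ∀ c ∈ R, c ≠ 0 → c ≠ 1728 → n c = ψ)
    (hn0 : n 0 = o₃) (hn1 : n 1728 = o₂)
    (hm : ∀ c, mult c ≤ 12) (hm0 : mult 0 ≤ 4) (hm1 : mult 1728 ≤ 6)
    (hsum : ∑ c ∈ R, mult c = d)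
    (hge : 12 * ∑ c ∈ R, n c ≤
      d * ψ + (if (0 : κ) ∈ R then 8 * ν₃ else 0) + (if (1728 : κ) ∈ R then 6 * ν₂ else 0)) :
    ∀ c ∈ R, mult c = ssMult c := by
  have hne : (0 : κ) ≠ 1728 := fun h => h1728 h.symm
  have hpt : ∀ c ∈ R, mult c * ψ + ((if c = 0 then 8 * ν₃ else 0) +
      (if c = 1728 then 6 * ν₂ else 0)) ≤ 12 * n c := by
    intro c hc
    by_cases hc0 : c = 0
    · subst hc0
      rw [if_pos rfl, if_neg hne, hn0]
      have : mult 0 * ψ ≤ 4 * ψ := Nat.mul_le_mul_right _ hm0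
      omega
    · by_cases hc1 : c = 1728
      · subst hc1
        rw [if_neg hc0, if_pos rfl, hn1]
        have : mult 1728 * ψ ≤ 6 * ψ := Nat.mul_le_mul_right _ hm1
        omega
      · rw [if_neg hc0, if_neg hc1, hn c hc hc0 hc1]
        have : mult c * ψ ≤ 12 * ψ := Nat.mul_le_mul_right _ (hm c)
        omega
  have hs : ∑ c ∈ R, (mult c * ψ + ((if c = 0 then 8 * ν₃ else 0) +
      (if c = 1728 then 6 * ν₂ else 0))) =
      d * ψ + (if (0 : κ) ∈ R then 8 * ν₃ else 0) + (if (1728 : κ) ∈ R then 6 * ν₂ else 0) := by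
    rw [Finset.sum_add_distrib, Finset.sum_add_distrib, ← Finset.sum_mul, hsum,
      Finset.sum_ite_eq', Finset.sum_ite_eq']
    ring
  have hs2 : ∑ c ∈ R, 12 * n c = 12 * ∑ c ∈ R, n c := by rw [Finset.mul_sum]
  have heq : ∑ c ∈ R, (mult c * ψ + ((if c = 0 then 8 * ν₃ else 0) +
      (if c = 1728 then 6 * ν₂ else 0))) = ∑ c ∈ R, 12 * n c :=
    le_antisymm (Finset.sum_le_sum hpt) (by rw [hs, hs2]; exact hge)
  have hall := (Finset.sum_eq_sum_iff_of_le hpt).mp heq
  intro c hc
  have hcE := hall c hc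
  unfold ssMult
  by_cases hc0 : c = 0
  · subst hc0
    rw [if_pos rfl]
    rw [if_pos rfl, if_neg hne, hn0] at hcE
    have h4 : mult 0 * ψ = 4 * ψ := by omega
    exact Nat.eq_of_mul_eq_mul_right hψ h4
  · by_cases hc1 : c = 1728
    · subst hc1
      rw [if_neg hc0, if_pos rfl]
      rw [if_neg hc0, if_pos rfl, hn1] at hcE
      have h6 : mult 1728 * ψ = 6 * ψ := by omega
      exact Nat.eq_of_mul_eq_mul_right hψ h6
    · rw [if_neg hc0, if_neg hc1]
      rw [if_neg hc0, if_neg hc1, hn c hc hc0 hc1] at hcE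
      have h12 : mult c * ψ = 12 * ψ := by omega
      exact Nat.eq_of_mul_eq_mul_right hψ h12

section Count

local notation "Qb" => AlgebraicClosure ℚ

open Fermat.Agent.GoodRed Fermat.Agent.GaussInt Fermat.Agent.S24

/-- **the exact multiplicities of the supersingular polynomial**, `q ≥ 5`, from the genus
inequality `2 g₀ + s ≤ g(q N₀) + 1` (`s` the number of zeros of `h = ū`). -/
theorem ssMult_exact (N₀ : ℕ) [NeZero N₀] {q : ℕ} (hq : q.Prime) (h5 : 5 ≤ q)
    (hqN : ¬ q ∣ N₀) [NeZero (q * N₀)]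
    {A : ValuationSubring Qb} (hA : A.LiesOverPrime q)
    (h : modularFunctionFieldFullC (IsLocalRing.ResidueField A) N₀)
    (hh : (h : LaurentSeries (IsLocalRing.ResidueField A)) =
      ssFun (IsLocalRing.ResidueField A) q)
    (hgen : genusFF (IsLocalRing.ResidueField A)
          ↥(modularFunctionFieldFullC (IsLocalRing.ResidueField A) N₀) +
        genusFF (IsLocalRing.ResidueField A)
          ↥(modularFunctionFieldFullC (IsLocalRing.ResidueField A) N₀) +
        Nat.card {v : Place (IsLocalRing.ResidueField A)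
          ↥(modularFunctionFieldFullC (IsLocalRing.ResidueField A) N₀) // 0 < v.ord h} ≤
      genusFF Qb ↥(modularFunctionFieldBar (q * N₀)) + 1) :
    ∃ (P : (IsLocalRing.ResidueField A)[X]) (u₀ : IsLocalRing.ResidueField A),
      u₀ ≠ 0 ∧ P ≠ 0 ∧
      ssFun (IsLocalRing.ResidueField A) q =
        HahnSeries.C u₀ * Polynomial.aeval (jqModC (IsLocalRing.ResidueField A)) P ∧
      h = algebraMap (IsLocalRing.ResidueField A) _ u₀ *
        Polynomial.aeval (Fermat.Agent.RRMod.jC (IsLocalRing.ResidueField A) N₀) P ∧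
      ∀ c : IsLocalRing.ResidueField A, P.IsRoot c →
        P.rootMultiplicity c = @ssMult _ _ (Classical.decEq _) c := by
  classical
  haveI : Fact q.Prime := ⟨hq⟩
  haveI : CharP (IsLocalRing.ResidueField A) q := Fermat.Agent.FrobTrace.charP_residueField A hA
  haveI : IsAlgClosed (IsLocalRing.ResidueField A) := isAlgClosed_residue A
  have hq2 : q ≠ 2 := by omega
  have hq3 : q ≠ 3 := by omega
  obtain ⟨P, u₀, hu₀, hdeg, hss, hm, hm0, hm1, hz0, hz1⟩ :=
    ssPoly (IsLocalRing.ResidueField A) q h5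
  have h1728 : (1728 : IsLocalRing.ResidueField A) ≠ 0 := Fermat.Agent.SwD.ne_zero_1728 q h5
  have hP0 : P ≠ 0 := by
    rintro rfl
    rw [Polynomial.natDegree_zero] at hdeg
    omega
  have hh' : h = algebraMap (IsLocalRing.ResidueField A) _ u₀ *
      Polynomial.aeval (Fermat.Agent.RRMod.jC (IsLocalRing.ResidueField A) N₀) P := by
    apply Subtype.ext
    rw [hh, hss, MulMemClass.coe_mul, ← IntermediateField.aeval_coe, Fermat.Agent.RRMod.coe_jC,
      ← algebraMap_mul_laurent]
    rfl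
  refine ⟨P, u₀, hu₀, hP0, hss, hh', ?_⟩
  have hRR := Fermat.Agent.RRMod.isRRField_fullC' (IsLocalRing.ResidueField A) N₀
  have hcount := sum_card_fibre_le hRR (x := Fermat.Agent.RRMod.jC (IsLocalRing.ResidueField A) N₀)
    hP0 hu₀
  rw [← hh'] at hcount
  -- the genus formula
  have hA₀ := ssArith N₀ q (NeZero.ne N₀) hq h5 hqN
  have hg₀ := Fermat.Agent.GenusEq.genusFF_modularFunctionFieldBar N₀
  have hg := Fermat.Agent.GenusEq.genusFF_modularFunctionFieldBar (q * N₀)
  have hgk := genusFF_modular_eq N₀ hq hA hqN hq2 hq3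
  rw [← hgk] at hgen
  rw [← hg, ← hg₀] at hA₀
  have hr0 : q % 3 = 2 → (0 : IsLocalRing.ResidueField A) ∈ P.roots.toFinset := fun h3 =>
    Multiset.mem_toFinset.mpr ((Polynomial.mem_roots hP0).mpr (hz0 h3))
  have hr1 : q % 4 = 3 → (1728 : IsLocalRing.ResidueField A) ∈ P.roots.toFinset := fun h4 =>
    Multiset.mem_toFinset.mpr ((Polynomial.mem_roots hP0).mpr (hz1 h4))
  have hψ : 0 < dedekindPsi N₀ := by
    rw [← index_Gamma0]
    exact Nat.pos_of_ne_zero (Subgroup.FiniteIndex.index_ne_zero)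
  set G := genusFF Qb ↥(modularFunctionFieldBar (q * N₀)) with hG
  set G₀ := genusFF Qb ↥(modularFunctionFieldBar N₀) with hG₀
  set s := Nat.card {v : Place (IsLocalRing.ResidueField A)
          ↥(modularFunctionFieldFullC (IsLocalRing.ResidueField A) N₀) // 0 < v.ord h} with hs
  have hq1 : 1 ≤ q := hq.one_le
  have key : ∀ a b : ℕ,
      (12 * (G : ℚ) + 12 = 24 * (G₀ : ℚ) + ((q : ℚ) - 1) * (dedekindPsi N₀ : ℚ)
        + 3 * (nuTwo N₀ : ℚ) * (a : ℚ) + 4 * (nuThree N₀ : ℚ) * (b : ℚ)) →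
      12 * G + 12 = 24 * G₀ + (q - 1) * dedekindPsi N₀ + 3 * nuTwo N₀ * a
        + 4 * nuThree N₀ * b := by
    intro a b hab
    have e : ((q - 1 : ℕ) : ℚ) = (q : ℚ) - 1 := by
      rw [Nat.cast_sub hq1, Nat.cast_one]
    have : ((12 * G + 12 : ℕ) : ℚ) = ((24 * G₀ + (q - 1) * dedekindPsi N₀
        + 3 * nuTwo N₀ * a + 4 * nuThree N₀ * b : ℕ) : ℚ) := by
      push_cast
      rw [e]
      exact hab
    exact_mod_cast this
  have hAn := key (if q % 4 = 3 then 2 else 0) (if q % 3 = 2 then 2 else 0)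
    (by push_cast; exact hA₀)
  -- the reverse inequality
  have hge : 12 * ∑ c ∈ P.roots.toFinset,
      Nat.card {v : Place (IsLocalRing.ResidueField A)
        ↥(modularFunctionFieldFullC (IsLocalRing.ResidueField A) N₀) //
        0 < v.ord (Fermat.Agent.RRMod.jC (IsLocalRing.ResidueField A) N₀ -
          algebraMap (IsLocalRing.ResidueField A) _ c)} ≤
      (q - 1) * dedekindPsi N₀ +
        (if (0 : IsLocalRing.ResidueField A) ∈ P.roots.toFinset then 8 * nuThree N₀ else 0) +
        (if (1728 : IsLocalRing.ResidueField A) ∈ P.roots.toFinset then 6 * nuTwo N₀ else 0) := by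
    have hle := Nat.mul_le_mul_left 12 hcount
    generalize (q - 1) * dedekindPsi N₀ = X at hAn ⊢
    by_cases h4 : q % 4 = 3 <;> by_cases h3 : q % 3 = 2
    · rw [if_pos (hr0 h3), if_pos (hr1 h4)]
      rw [if_pos h4, if_pos h3] at hAn
      omega
    · rw [if_pos (hr1 h4)]
      rw [if_pos h4, if_neg h3] at hAn
      split_ifs <;> omega
    · rw [if_pos (hr0 h3)]
      rw [if_neg h4, if_pos h3] at hAn
      split_ifs <;> omega
    · rw [if_neg h4, if_neg h3] at hAn
      split_ifs <;> omega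
  have harith := epsMult_arith h1728 P.roots.toFinset (fun c => P.rootMultiplicity c)
    (fun c => Nat.card {v : Place (IsLocalRing.ResidueField A)
        ↥(modularFunctionFieldFullC (IsLocalRing.ResidueField A) N₀) //
        0 < v.ord (Fermat.Agent.RRMod.jC (IsLocalRing.ResidueField A) N₀ -
          algebraMap (IsLocalRing.ResidueField A) _ c)})
    (dedekindPsi N₀) (nuTwo N₀) (nuThree N₀)
    (orbCount (CongruenceSubgroup.Gamma0 N₀) ModularGroup.S)
    (orbCount (CongruenceSubgroup.Gamma0 N₀) (ModularGroup.S * ModularGroup.T)) (q - 1) hψ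
    (two_mul_orbCount_S N₀) (three_mul_orbCount_ST N₀)
    (fun c _ hc0 hc1 => by
      rw [card_fibre_jC_of_ne N₀ hq hA hqN hq2 hq3 c hc0 hc1, index_Gamma0])
    (card_fibre_jC_zero N₀ hq hA hqN hq2 hq3)
    (card_fibre_jC_1728 N₀ hq hA hqN hq2 hq3)
    hm hm0 hm1 (by rw [sum_rootMultiplicity_eq_natDegree, hdeg]) hge
  intro c hc
  have hcR : c ∈ P.roots.toFinset :=
    Multiset.mem_toFinset.mpr ((Polynomial.mem_roots hP0).mpr hc)
  have := harith c hcR
  convert this

/-- at a zero `v` of `h = ū`: `ord_v h = ssMult c * ord_v (j̄ - c)` with `c = j̄(v)`. -/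
theorem ord_ss_eq_mult (N₀ : ℕ) [NeZero N₀] {q : ℕ} (hq : q.Prime) (h5 : 5 ≤ q)
    (hqN : ¬ q ∣ N₀) [NeZero (q * N₀)]
    {A : ValuationSubring Qb} (hA : A.LiesOverPrime q)
    (h : modularFunctionFieldFullC (IsLocalRing.ResidueField A) N₀)
    (hh : (h : LaurentSeries (IsLocalRing.ResidueField A)) =
      ssFun (IsLocalRing.ResidueField A) q)
    (hgen : genusFF (IsLocalRing.ResidueField A)
          ↥(modularFunctionFieldFullC (IsLocalRing.ResidueField A) N₀) +
        genusFF (IsLocalRing.ResidueField A)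
          ↥(modularFunctionFieldFullC (IsLocalRing.ResidueField A) N₀) +
        Nat.card {v : Place (IsLocalRing.ResidueField A)
          ↥(modularFunctionFieldFullC (IsLocalRing.ResidueField A) N₀) // 0 < v.ord h} ≤
      genusFF Qb ↥(modularFunctionFieldBar (q * N₀)) + 1)
    (v : Place (IsLocalRing.ResidueField A)
      (modularFunctionFieldFullC (IsLocalRing.ResidueField A) N₀)) (hv : 0 < v.ord h) :
    ∃ c : IsLocalRing.ResidueField A,
      0 < v.ord (Fermat.Agent.RRMod.jC (IsLocalRing.ResidueField A) N₀ -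
        algebraMap (IsLocalRing.ResidueField A) _ c) ∧
      v.ord h = (@ssMult _ _ (Classical.decEq _) c : ℤ) *
        v.ord (Fermat.Agent.RRMod.jC (IsLocalRing.ResidueField A) N₀ -
          algebraMap (IsLocalRing.ResidueField A) _ c) := by
  classical
  haveI : IsAlgClosed (IsLocalRing.ResidueField A) := isAlgClosed_residue A
  obtain ⟨P, u₀, hu₀, hP0, -, hh', hmult⟩ := ssMult_exact N₀ hq h5 hqN hA h hh hgen
  have hRR := Fermat.Agent.RRMod.isRRField_fullC' (IsLocalRing.ResidueField A) N₀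
  have hj := ord_jC_nonneg_of_ss_zero N₀ hq hA h hh v hv
  have htr := transcendental_jC' N₀ (IsLocalRing.ResidueField A)
  obtain ⟨c, hc⟩ := exists_const_sub hRR v hj
  have hc' : 0 < v.ord (Fermat.Agent.RRMod.jC (IsLocalRing.ResidueField A) N₀ -
      algebraMap (IsLocalRing.ResidueField A) _ c) := by
    rcases hc with hc | hc
    · exfalso
      apply htr
      rw [hc]
      exact isAlgebraic_algebraMap c
    · exact hc
  refine ⟨c, hc', ?_⟩
  have hu' : algebraMap (IsLocalRing.ResidueField A)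
      (modularFunctionFieldFullC (IsLocalRing.ResidueField A) N₀) u₀ ≠ 0 :=
    (map_ne_zero (algebraMap (IsLocalRing.ResidueField A)
      (modularFunctionFieldFullC (IsLocalRing.ResidueField A) N₀))).mpr hu₀
  have hne : Polynomial.aeval (Fermat.Agent.RRMod.jC (IsLocalRing.ResidueField A) N₀) P ≠ 0 := by
    intro h0
    rw [hh', h0, mul_zero, v.ord_zero] at hv
    exact lt_irrefl _ hv
  have h1 := Fermat.Agent.GoodRedSmall.ord_aeval_eq v hc' hP0
  have h2 : v.ord h = (P.rootMultiplicity c : ℤ) *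
      v.ord (Fermat.Agent.RRMod.jC (IsLocalRing.ResidueField A) N₀ -
        algebraMap (IsLocalRing.ResidueField A) _ c) := by
    rw [hh', v.ord_mul hu' hne, Fermat.Agent.GoodRedSmall.ord_const, zero_add, h1]
  have hroot : P.IsRoot c := by
    rw [← Polynomial.rootMultiplicity_pos hP0]
    by_contra h0
    have h00 : P.rootMultiplicity c = 0 := by omega
    rw [h2, h00] at hv
    simp at hv
  rw [h2, hmult c hroot]

end Count

section Modular

local notation "Qb" => AlgebraicClosure ℚ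

open Fermat.Agent.EKp Fermat.Agent.AtkinLehner Fermat.Agent.GaussInt

attribute [local instance] Fermat.Agent.BadRed.fwFintype

variable (D : ALData) [NeZero D.Q] [NeZero D.R] [NeZero (D.Q * D.R)]
  (A : ValuationSubring Qb) (hq : D.Q.Prime) (hA : A.LiesOverPrime D.Q) (hqR : ¬ D.Q ∣ D.R)
  [Fact D.Q.Prime] [CharP (IsLocalRing.ResidueField A) D.Q]
  [PerfectRing (IsLocalRing.ResidueField A) D.Q]

/-- the genus inequality of the modular nodal setup, in the form used by `ssMult_exact`. -/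
theorem r38_genus_le (h5 : 5 ≤ D.Q) :
    genusFF (IsLocalRing.ResidueField A)
          ↥(modularFunctionFieldFullC (IsLocalRing.ResidueField A) D.R) +
        genusFF (IsLocalRing.ResidueField A)
          ↥(modularFunctionFieldFullC (IsLocalRing.ResidueField A) D.R) +
        Nat.card {v : Place (IsLocalRing.ResidueField A)
          ↥(modularFunctionFieldFullC (IsLocalRing.ResidueField A) D.R) //
            0 < v.ord ((kpS D A hq hA hqR).red (fwU D))} ≤
      genusFF Qb ↥(modularFunctionFieldBar (D.Q * D.R)) + 1 := by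
  have h := kpN_genusRel D A hq hA hqR (AuxLevelOK.of_five_le h5)
  unfold NodalSetup.GenusRel at h
  rw [Nat.card_eq_fintype_card]
  exact h.ge

include hq hA hqR in
/-- **the exact multiplicities of the supersingular polynomial** (interface of helper27). -/
theorem r38_ssMult_exact (h5 : 5 ≤ D.Q) :
    ∃ (P : Polynomial (IsLocalRing.ResidueField A)) (u₀ : IsLocalRing.ResidueField A),
      u₀ ≠ 0 ∧ P ≠ 0 ∧
      ssFun (IsLocalRing.ResidueField A) D.Q =
        HahnSeries.C u₀ * Polynomial.aeval (jqModC (IsLocalRing.ResidueField A)) P ∧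
      (∀ c, P.IsRoot c → c ≠ 0 → c ≠ 1728 → P.rootMultiplicity c = 12) ∧
      (P.IsRoot 0 → P.rootMultiplicity 0 = 4) ∧
      (P.IsRoot 1728 → P.rootMultiplicity 1728 = 6) := by
  classical
  have h1728 : (1728 : IsLocalRing.ResidueField A) ≠ 0 := Fermat.Agent.SwD.ne_zero_1728 D.Q h5
  obtain ⟨P, u₀, hu₀, hP0, hss, -, hmult⟩ := ssMult_exact D.R hq h5 hqR hA
    ((kpS D A hq hA hqR).red (fwU D))
    (fw_coe_red_uF D A hq hA (kpS D A hq hA hqR) (isGaussSetup_gaussSetupBad D hq hqR A hA))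
    (r38_genus_le D A hq hA hqR h5)
  refine ⟨P, u₀, hu₀, hP0, hss, ?_, ?_, ?_⟩
  · intro c hc hc0 hc1
    rw [hmult c hc]
    unfold ssMult
    rw [if_neg hc0, if_neg hc1]
  · intro hc
    rw [hmult 0 hc]
    unfold ssMult
    rw [if_pos rfl]
  · intro hc
    rw [hmult 1728 hc]
    unfold ssMult
    rw [if_neg h1728, if_pos rfl]

/-- **the multiplicity of a node**: `ε_i = ssMult c * ord_i (j̄ - c)`, `c = j̄(i)`. -/
theorem kpEps_eq_mult (h5 : 5 ≤ D.Q) (i : kpIota D A hq hA hqR) :
    ∃ c : IsLocalRing.ResidueField A,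
      0 < i.1.ord (Fermat.Agent.RRMod.jC (IsLocalRing.ResidueField A) D.R -
        algebraMap (IsLocalRing.ResidueField A) _ c) ∧
      ((kpEps D A hq hA hqR i : ℕ) : ℤ) = (@ssMult _ _ (Classical.decEq _) c : ℤ) *
        i.1.ord (Fermat.Agent.RRMod.jC (IsLocalRing.ResidueField A) D.R -
          algebraMap (IsLocalRing.ResidueField A) _ c) := by
  obtain ⟨c, hc, hord⟩ := ord_ss_eq_mult D.R hq h5 hqR hA
    ((kpS D A hq hA hqR).red (fwU D))
    (fw_coe_red_uF D A hq hA (kpS D A hq hA hqR) (isGaussSetup_gaussSetupBad D hq hqR A hA))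
    (r38_genus_le D A hq hA hqR h5) i.1 i.2
  exact ⟨c, hc, by rw [kpEps_cast]; exact hord⟩

end Modular

end Fermat.Agent.R38
end
end MergeWrap_R38_P_EpsMult

section MergeWrap_R38_P_EpsRam -- from R38/P/EpsRam.lean

set_option autoImplicit false
set_option linter.unusedSectionVars false
set_option linter.style.haveILetI false
set_option synthInstance.maxHeartbeats 400000

noncomputable section

open AlgebraicCurve IntermediateField Fermat.Agent.RR Fermat.Agent.Deuring

namespace Fermat.Agent.R38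

section Comb

open Classical in
/-- **combinatorial core of the transfer of ramification indices**: `r : α → β`, finite sets
`Z`, `Zb`, positive weights `e` on `Z`, `eb` on `Zb`, `eb Q ≤ ∑_{P ∈ Z, r P = Q} e P`, equal total
weights and `#Z ≤ #Zb`.  Then every `Q ∈ Zb` is the image of some `P ∈ Z` with `eb Q = e P`. -/
theorem r38_exists_eq_of_sum_le {α β : Type*} (r : α → β)
    (Z : Finset α) (Zb : Finset β) (e : α → ℤ) (eb : β → ℤ)
    (he : ∀ P ∈ Z, 0 < e P) (heb : ∀ Q ∈ Zb, 0 < eb Q)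
    (hle : ∀ Q ∈ Zb, eb Q ≤ ∑ P ∈ Z with r P = Q, e P)
    (hsum : ∑ P ∈ Z, e P ≤ ∑ Q ∈ Zb, eb Q)
    (hcard : Z.card ≤ Zb.card) :
    ∀ Q ∈ Zb, ∃ P ∈ Z, r P = Q ∧ eb Q = e P := by
  classical
  -- the fibres are nonempty
  have hfib : ∀ Q ∈ Zb, ∃ P ∈ Z, r P = Q := by
    intro Q hQ
    by_contra hcon
    push Not at hcon
    have h0 : ∑ P ∈ Z with r P = Q, e P = 0 := by
      apply Finset.sum_eq_zero
      intro P hP
      rw [Finset.mem_filter] at hP
      exact absurd hP.2 (hcon P hP.1)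
    have := hle Q hQ
    have := heb Q hQ
    omega
  -- total of the fibres over `Zb` is at most the total over `Z`
  have hdisj : ∑ Q ∈ Zb, ∑ P ∈ Z with r P = Q, e P = ∑ P ∈ Z with r P ∈ Zb, e P := by
    rw [← Finset.sum_fiberwise_of_maps_to (s := Z.filter fun P => r P ∈ Zb) (t := Zb) (g := r)
      (fun P hP => (Finset.mem_filter.mp hP).2) e]
    refine Finset.sum_congr rfl fun Q hQ => ?_
    refine Finset.sum_congr ?_ fun _ _ => rfl
    ext P
    simp only [Finset.mem_filter]
    constructor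
    · rintro ⟨hP, rfl⟩
      exact ⟨⟨hP, hQ⟩, rfl⟩
    · rintro ⟨⟨hP, _⟩, h⟩
      exact ⟨hP, h⟩
  have hsub : ∑ P ∈ Z with r P ∈ Zb, e P ≤ ∑ P ∈ Z, e P :=
    Finset.sum_le_sum_of_subset_of_nonneg (Finset.filter_subset _ _)
      (fun P hP _ => (he P hP).le)
  have hchain : ∑ Q ∈ Zb, eb Q ≤ ∑ Q ∈ Zb, ∑ P ∈ Z with r P = Q, e P := Finset.sum_le_sum hle
  -- equality everywhere
  have heq : ∀ Q ∈ Zb, eb Q = ∑ P ∈ Z with r P = Q, e P := by
    have hE : ∑ Q ∈ Zb, eb Q = ∑ Q ∈ Zb, ∑ P ∈ Z with r P = Q, e P := by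
      apply le_antisymm hchain
      rw [hdisj]
      exact hsub.trans hsum
    exact (Finset.sum_eq_sum_iff_of_le hle).mp hE
  have hall : ∀ P ∈ Z, r P ∈ Zb := by
    intro P hP
    by_contra hcon
    have hlt : ∑ P ∈ Z with r P ∈ Zb, e P < ∑ P ∈ Z, e P := by
      refine Finset.sum_lt_sum_of_subset (Finset.filter_subset _ _) hP ?_ (he P hP) ?_
      · rw [Finset.mem_filter]
        exact fun h => hcon h.2
      · intro P' hP' _
        exact (he P' hP').le
    have : ∑ Q ∈ Zb, eb Q < ∑ P ∈ Z, e P := by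
      calc ∑ Q ∈ Zb, eb Q ≤ _ := hchain
        _ = _ := hdisj
        _ < _ := hlt
    omega
  -- `r : Z → Zb` is surjective, hence injective
  have hsurj : Set.SurjOn r Z Zb := fun Q hQ => by
    obtain ⟨P, hP, rfl⟩ := hfib Q hQ
    exact ⟨P, hP, rfl⟩
  have hmaps : Set.MapsTo r Z Zb := fun P hP => hall P hP
  have hinj : Set.InjOn r Z := by
    have himg : Z.image r = Zb := by
      apply Finset.Subset.antisymm
      · intro Q hQ
        obtain ⟨P, hP, rfl⟩ := Finset.mem_image.mp hQ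
        exact hall P hP
      · intro Q hQ
        obtain ⟨P, hP, rfl⟩ := hfib Q hQ
        exact Finset.mem_image_of_mem r hP
    have hc : (Z.image r).card = Z.card := by
      apply le_antisymm Finset.card_image_le
      rw [himg]
      exact hcard
    exact Finset.card_image_iff.mp hc
  intro Q hQ
  obtain ⟨P, hP, hPQ⟩ := hfib Q hQ
  refine ⟨P, hP, hPQ, ?_⟩
  rw [heq Q hQ]
  have hfilter : (Z.filter fun P' => r P' = Q) = {P} := by
    ext P'
    rw [Finset.mem_filter, Finset.mem_singleton]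
    constructor
    · rintro ⟨hP', hP'Q⟩
      exact hinj hP' hP (hP'Q.trans hPQ.symm)
    · rintro rfl
      exact ⟨hP, hPQ⟩
  rw [hfilter, Finset.sum_singleton]

end Comb

section Generic

variable {K F : Type*} [Field K] [Field F] [Algebra K F]

theorem r38_adjoin_inv_eq (x : F) : K⟮x⁻¹⟯ = K⟮x⟯ := by
  apply le_antisymm
  · rw [adjoin_simple_le_iff]
    exact inv_mem (mem_adjoin_simple_self K x)
  · rw [adjoin_simple_le_iff]
    have hmem : (x⁻¹)⁻¹ ∈ K⟮x⁻¹⟯ := inv_mem (mem_adjoin_simple_self K x⁻¹)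
    rwa [inv_inv] at hmem

theorem r38_adjoin_sub_eq (x : F) (c : K) : K⟮x - algebraMap K F c⟯ = K⟮x⟯ := by
  apply le_antisymm
  · rw [adjoin_simple_le_iff]
    exact sub_mem (mem_adjoin_simple_self K x) (IntermediateField.algebraMap_mem _ c)
  · rw [adjoin_simple_le_iff]
    have hmem : (x - algebraMap K F c) + algebraMap K F c ∈ K⟮x - algebraMap K F c⟯ :=
      add_mem (mem_adjoin_simple_self K _) (IntermediateField.algebraMap_mem _ c)
    rwa [sub_add_cancel] at hmem

theorem r38_transcendental_inv {x : F} (hx : Transcendental K x) : Transcendental K x⁻¹ :=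
  fun halg => hx (by simpa using halg.inv)

theorem r38_transcendental_sub {x : F} (hx : Transcendental K x) (c : K) :
    Transcendental K (x - algebraMap K F c) := by
  intro halg
  apply hx
  have := halg.add (isAlgebraic_algebraMap (R := K) (A := F) c)
  rwa [sub_add_cancel] at this

/-- the fundamental identity for the zeros of `x` (any characteristic, from Riemann-Roch). -/
theorem r38_sum_ord_zeros (h : IsRRField K F) {x : F} (hx : Transcendental K x)
    [FiniteDimensional K⟮x⟯ F] (s : Finset (Place K F)) (hs : ∀ v, v ∈ s ↔ 0 < v.ord x) :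
    ∑ v ∈ s, v.ord x = (Module.finrank K⟮x⟯ F : ℤ) := by
  have hx' : Transcendental K x⁻¹ := r38_transcendental_inv hx
  have hadj : K⟮x⁻¹⟯ = K⟮x⟯ := r38_adjoin_inv_eq x
  haveI : FiniteDimensional K⟮x⁻¹⟯ F := by rw [hadj]; infer_instance
  have h1 := Fermat.Agent.RRHur.degree_poleDiv_eq_finrank h hx'
  rw [degree_poleDiv h x⁻¹ s (fun v => by rw [hs, Place.ord_inv]; omega)] at h1
  have h2 : Module.finrank K⟮x⁻¹⟯ F = Module.finrank K⟮x⟯ F := by rw [hadj]
  rw [h2] at h1
  rw [← h1]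
  refine Finset.sum_congr rfl fun v _ => ?_
  rw [Place.ord_inv, neg_neg]

/-- the fundamental identity for the zeros of `x - c`. -/
theorem r38_sum_ord_zeros_sub (h : IsRRField K F) {x : F} (hx : Transcendental K x)
    [FiniteDimensional K⟮x⟯ F] (c : K) (s : Finset (Place K F))
    (hs : ∀ v, v ∈ s ↔ 0 < v.ord (x - algebraMap K F c)) :
    ∑ v ∈ s, v.ord (x - algebraMap K F c) = (Module.finrank K⟮x⟯ F : ℤ) := by
  have hadj : K⟮x - algebraMap K F c⟯ = K⟮x⟯ := r38_adjoin_sub_eq x c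
  haveI : FiniteDimensional K⟮x - algebraMap K F c⟯ F := by rw [hadj]; infer_instance
  rw [r38_sum_ord_zeros h (r38_transcendental_sub hx c) s hs, hadj]

end Generic

section Push

variable {K F k Fk : Type*} [Field K] [Field F] [Algebra K F]
  [Field k] [Field Fk] [Algebra k Fk]

open Classical in
/-- the value of a push-forward divisor at `Q` is at most the sum of the positive coefficients
over the fibre of `Q`. -/
theorem r38_mapDomain_le (r : Place K F → Place k Fk) (D : Divisor K F) (Q : Place k Fk)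
    (Z : Finset (Place K F)) (hZ : ∀ P, P ∈ Z ↔ 0 < D P) :
    Finsupp.mapDomain r D Q ≤ ∑ P ∈ Z with r P = Q, D P := by
  classical
  have h1 : Finsupp.mapDomain r D Q = ∑ P ∈ D.support, if r P = Q then D P else 0 := by
    rw [Finsupp.mapDomain, Finsupp.sum_apply, Finsupp.sum]
    refine Finset.sum_congr rfl fun P _ => ?_
    rw [Finsupp.single_apply]
  rw [h1, Finset.sum_filter]
  have hsub : Z ⊆ D.support := by
    intro P hP
    rw [Finsupp.mem_support_iff]
    have := (hZ P).mp hP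
    omega
  rw [← Finset.sum_sdiff hsub]
  have hneg : ∑ P ∈ D.support \ Z, (if r P = Q then D P else 0) ≤ 0 := by
    apply Finset.sum_nonpos
    intro P hP
    rw [Finset.mem_sdiff] at hP
    have hn : ¬ 0 < D P := fun h => hP.2 ((hZ P).mpr h)
    split_ifs
    · omega
    · exact le_rfl
  linarith


open Classical in
/-- **transfer of ramification indices along Deuring's reduction map**: if the fibres of `x` over
`c` and of `x̄` over `c̄` have the same number of points (and the degrees agree), then every zero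
`Q` of `x̄ - c̄` is the reduction of a zero `P` of `x - c` with the same multiplicity. -/
theorem r38_ord_red_transfer (S : ValSetup K F k Fk) (r : Place K F → Place k Fk)
    (hpush : ∀ f : F, f ∈ S.Ov → f⁻¹ ∈ S.Ov → f ≠ 0 → ∀ Q : Place k Fk,
        Finsupp.mapDomain r (divOf S.hF f) Q = Q.ord (S.red f))
    {x : F} (hx : Transcendental K x) [FiniteDimensional K⟮x⟯ F]
    {xb : Fk} (hxb : Transcendental k xb) [FiniteDimensional k⟮xb⟯ Fk]
    (hdeg : Module.finrank K⟮x⟯ F = Module.finrank k⟮xb⟯ Fk)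
    (c : K) (cb : k)
    (hf : x - algebraMap K F c ∈ S.Ov) (hf' : (x - algebraMap K F c)⁻¹ ∈ S.Ov)
    (hred : S.red (x - algebraMap K F c) = xb - algebraMap k Fk cb)
    (hcard : Nat.card {P : Place K F // 0 < P.ord (x - algebraMap K F c)} ≤
      Nat.card {Q : Place k Fk // 0 < Q.ord (xb - algebraMap k Fk cb)})
    (Q : Place k Fk) (hQ : 0 < Q.ord (xb - algebraMap k Fk cb)) :
    ∃ P : Place K F, 0 < P.ord (x - algebraMap K F c) ∧
      Q.ord (xb - algebraMap k Fk cb) = P.ord (x - algebraMap K F c) := by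
  set f : F := x - algebraMap K F c with hfdef
  set fb : Fk := xb - algebraMap k Fk cb with hfbdef
  have hf0 : f ≠ 0 := fun h0 => by
    have htr := r38_transcendental_sub hx c
    rw [← hfdef, h0] at htr
    exact htr (isAlgebraic_zero)
  have hZfin := Fermat.Agent.RR.finite_zeros S.hF f
  have hZbfin := Fermat.Agent.RR.finite_zeros S.hFk fb
  set Z : Finset (Place K F) := hZfin.toFinset with hZ
  set Zb : Finset (Place k Fk) := hZbfin.toFinset with hZb
  have hmemZ : ∀ P, P ∈ Z ↔ 0 < P.ord f := fun P => by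
    rw [hZ, Set.Finite.mem_toFinset]
    rfl
  have hmemZb : ∀ Q, Q ∈ Zb ↔ 0 < Q.ord fb := fun Q => by
    rw [hZb, Set.Finite.mem_toFinset]
    rfl
  have hcardZ : Z.card = Nat.card {P : Place K F // 0 < P.ord f} := by
    rw [hZ, ← Set.ncard_eq_toFinset_card _ hZfin, ← Nat.card_coe_set_eq]
    rfl
  have hcardZb : Zb.card = Nat.card {Q : Place k Fk // 0 < Q.ord fb} := by
    rw [hZb, ← Set.ncard_eq_toFinset_card _ hZbfin, ← Nat.card_coe_set_eq]
    rfl
  have key := r38_exists_eq_of_sum_le r Z Zb (fun P => P.ord f) (fun Q => Q.ord fb)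
    (fun P hP => (hmemZ P).mp hP) (fun Q hQ => (hmemZb Q).mp hQ)
    (fun Q _ => by
      have h1 := hpush f hf hf' hf0 Q
      rw [hred] at h1
      show Q.ord fb ≤ _
      rw [← h1]
      have h2 := r38_mapDomain_le r (divOf S.hF f) Q Z
        (fun P => by rw [hmemZ, divOf_apply])
      refine h2.trans (le_of_eq ?_)
      refine Finset.sum_congr rfl fun P _ => ?_
      rw [divOf_apply])
    (by
      rw [r38_sum_ord_zeros_sub S.hF hx c Z hmemZ, r38_sum_ord_zeros_sub S.hFk hxb cb Zb hmemZb,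
        hdeg])
    (by rw [hcardZ, hcardZb]; exact hcard)
    Q ((hmemZb Q).mpr hQ)
  obtain ⟨P, hP, -, hPQ⟩ := key
  exact ⟨P, (hmemZ P).mp hP, hPQ⟩

end Push


section Modular

open ModularCurve Fermat.Agent.GaussInt Fermat.Agent.GoodRed

local notation "Qb" => AlgebraicClosure ℚ

variable (N : ℕ) [NeZero N] {ℓ : ℕ} (hℓ : ℓ.Prime)
  {A : ValuationSubring Qb} (hA : A.LiesOverPrime ℓ)

include hℓ hA

set_option maxHeartbeats 1000000

/-- **transfer for `j`**: a place `Q` of `F_k(N)` over `c̄` is the reduction of a place `P` of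
`F_N` over `c` with the same ramification index, if `c` is a branch value or `c̄` is not the
residue of a branch value. -/
theorem r38_ord_jC_transfer (hℓN : ¬ ℓ ∣ N) (h2 : ℓ ≠ 2) (h3 : ℓ ≠ 3)
    (c : Qb) (hc : c ∈ A)
    (h : c ∈ branchSet ∨ ∀ c' ∈ branchSet, ∀ hc' : c' ∈ A,
      IsLocalRing.residue A ⟨c', hc'⟩ ≠ IsLocalRing.residue A ⟨c, hc⟩)
    (Q : Place (IsLocalRing.ResidueField A)
      ↥(modularFunctionFieldFullC (IsLocalRing.ResidueField A) N))
    (hQ : 0 < Q.ord (Fermat.Agent.RRMod.jC (IsLocalRing.ResidueField A) N -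
      algebraMap (IsLocalRing.ResidueField A) _ (IsLocalRing.residue A ⟨c, hc⟩))) :
    ∃ P : Place Qb ↥(modularFunctionFieldBar N),
      0 < P.ord (Fermat.Agent.S24.jBar N - algebraMap Qb _ c) ∧
      Q.ord (Fermat.Agent.RRMod.jC (IsLocalRing.ResidueField A) N -
          algebraMap (IsLocalRing.ResidueField A) _ (IsLocalRing.residue A ⟨c, hc⟩)) =
        P.ord (Fermat.Agent.S24.jBar N - algebraMap Qb _ c) := by
  haveI := isAlgClosed_residue A
  haveI := infinite_residue A
  set S := modularValSetup A ℓ N hℓ hA hℓN with hS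
  obtain ⟨r, hpush, -, -⟩ := exists_reduction S (hasLattice_modularValSetup A ℓ N hℓ hA hℓN)
    (genusFF_modular_eq N hℓ hA hℓN h2 h3)
  have hff := Fermat.Agent.S24.isFunctionFieldOver_jBar N
  haveI := hff.finite
  haveI := Fermat.Agent.RRMod.finiteDimensional_fullC' (IsLocalRing.ResidueField A) N
  have htrk := Fermat.Agent.RRMod.transcendental_jC (IsLocalRing.ResidueField A) N
  have hj : Fermat.Agent.S24.jBar N ∈ S.Ov := jBar_mem_gaussValSub N hℓ hA
  have hcS : c ∈ S.A := hc
  have hredj : S.red (Fermat.Agent.S24.jBar N) =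
      Fermat.Agent.RRMod.jC (IsLocalRing.ResidueField A) N := by
    apply Subtype.ext
    rw [coe_modularValSetup_red A ℓ N hℓ hA hℓN (f := Fermat.Agent.S24.jBar N) hj,
      gaussResFun_jBar (A := A) N]
    rfl
  have hred : S.red (Fermat.Agent.S24.jBar N - algebraMap Qb _ c) =
      Fermat.Agent.RRMod.jC (IsLocalRing.ResidueField A) N -
        algebraMap (IsLocalRing.ResidueField A) _ (IsLocalRing.residue A ⟨c, hc⟩) := by
    rw [S.red_sub hj (S.algebraMap_mem hcS), hredj, S.red_algebraMap hcS]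
    rfl
  have hne : S.red (Fermat.Agent.S24.jBar N - algebraMap Qb _ c) ≠ 0 := by
    rw [hred]
    intro h0
    have := r38_transcendental_sub htrk (IsLocalRing.residue A ⟨c, hc⟩)
    rw [h0] at this
    exact this isAlgebraic_zero
  have hdeg : Module.finrank Qb⟮Fermat.Agent.S24.jBar N⟯ ↥(modularFunctionFieldBar N) =
      Module.finrank (IsLocalRing.ResidueField A)⟮Fermat.Agent.RRMod.jC
        (IsLocalRing.ResidueField A) N⟯
        ↥(modularFunctionFieldFullC (IsLocalRing.ResidueField A) N) :=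
    (Fermat.Agent.GaussVal.finrank_fullL_of_isAlgClosed A ℓ N hℓ hA hℓN
        (Fermat.Agent.S24.jBar N) (Fermat.Agent.S24.coe_jBar_eq_jqModC N)).trans
      (Fermat.Agent.GaussVal.finrank_fullC_of_isAlgClosed A ℓ N hℓ hA hℓN
        (Fermat.Agent.RRMod.jC (IsLocalRing.ResidueField A) N) rfl).symm
  exact r38_ord_red_transfer S r hpush hff.transcendental htrk hdeg c
    (IsLocalRing.residue A ⟨c, hc⟩) (sub_mem hj (S.algebraMap_mem hcS))
    (S.inv_mem_of_red_ne_zero hne) hred
    (le_of_eq (card_fibre_jC_eq N hℓ hA hℓN h2 h3 c hc h).symm) Q hQ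

/-- **ramification of `F_k(N) / k(j̄)`**, `ℓ ∤ N`, `ℓ ∉ {2, 3}`: a place `Q` over `j̄ = c̄` has
`ord_Q (j̄ - c̄)` dividing `3` (`c̄ = 0`), dividing `2` (`c̄ = 1728`), equal to `1` (otherwise). -/
theorem r38_ordDvd_jC (hℓN : ¬ ℓ ∣ N) (h2 : ℓ ≠ 2) (h3 : ℓ ≠ 3)
    (cb : IsLocalRing.ResidueField A)
    (Q : Place (IsLocalRing.ResidueField A)
      ↥(modularFunctionFieldFullC (IsLocalRing.ResidueField A) N))
    (hQ : 0 < Q.ord (Fermat.Agent.RRMod.jC (IsLocalRing.ResidueField A) N -
      algebraMap (IsLocalRing.ResidueField A) _ cb)) :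
    (cb = 0 → Q.ord (Fermat.Agent.RRMod.jC (IsLocalRing.ResidueField A) N -
      algebraMap (IsLocalRing.ResidueField A) _ cb) ∣ 3) ∧
    (cb = 1728 → Q.ord (Fermat.Agent.RRMod.jC (IsLocalRing.ResidueField A) N -
      algebraMap (IsLocalRing.ResidueField A) _ cb) ∣ 2) ∧
    (cb ≠ 0 → cb ≠ 1728 → Q.ord (Fermat.Agent.RRMod.jC (IsLocalRing.ResidueField A) N -
      algebraMap (IsLocalRing.ResidueField A) _ cb) = 1) := by
  have hchar0 := Fermat.Agent.GoodRedSmall.ordDvd N
  refine ⟨fun h0 => ?_, fun h1 => ?_, fun h0 h1 => ?_⟩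
  · subst h0
    have hQ' : 0 < Q.ord (Fermat.Agent.RRMod.jC (IsLocalRing.ResidueField A) N -
        algebraMap (IsLocalRing.ResidueField A) _
          (IsLocalRing.residue A ⟨(0 : Qb), A.zero_mem⟩)) := by
      rw [residue_mk_zero]
      exact hQ
    obtain ⟨P, hP, hPQ⟩ := r38_ord_jC_transfer N hℓ hA hℓN h2 h3 0 A.zero_mem
      (Or.inl (mem_branchSet.mpr (Or.inl rfl))) Q hQ'
    rw [residue_mk_zero] at hPQ
    rw [hPQ]
    exact (hchar0 0 P hP).1 rfl
  · subst h1
    have hQ' : 0 < Q.ord (Fermat.Agent.RRMod.jC (IsLocalRing.ResidueField A) N -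
        algebraMap (IsLocalRing.ResidueField A) _
          (IsLocalRing.residue A ⟨(1728 : Qb), mem_1728 A⟩)) := by
      rw [residue_mk_1728]
      exact hQ
    obtain ⟨P, hP, hPQ⟩ := r38_ord_jC_transfer N hℓ hA hℓN h2 h3 1728 (mem_1728 A)
      (Or.inl (mem_branchSet.mpr (Or.inr rfl))) Q hQ'
    rw [residue_mk_1728] at hPQ
    rw [hPQ]
    exact (hchar0 1728 P hP).2.1 rfl
  · obtain ⟨⟨c, hc⟩, rfl⟩ := IsLocalRing.residue_surjective cb
    have hbr : ∀ c' ∈ branchSet, ∀ hc' : c' ∈ A,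
        IsLocalRing.residue A ⟨c', hc'⟩ ≠ IsLocalRing.residue A ⟨c, hc⟩ := by
      intro c' hc' hc'A heq
      rcases mem_branchSet.mp hc' with rfl | rfl
      · rw [residue_mk_zero] at heq
        exact h0 heq.symm
      · rw [residue_mk_1728] at heq
        exact h1 heq.symm
    obtain ⟨P, hP, hPQ⟩ := r38_ord_jC_transfer N hℓ hA hℓN h2 h3 c hc (Or.inr hbr) Q hQ
    rw [hPQ]
    have hc0 : c ≠ 0 := by
      rintro rfl
      exact hbr 0 (mem_branchSet.mpr (Or.inl rfl)) hc rfl
    have hc1 : c ≠ 1728 := by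
      rintro rfl
      exact hbr 1728 (mem_branchSet.mpr (Or.inr rfl)) hc rfl
    exact (hchar0 c P hP).2.2 hc0 hc1

omit [NeZero N] hℓ hA in
/-- if all the weights are `≤ m` and their sum is `m · #s` then all the weights are `m`. -/
theorem r38_all_eq_of_sum {α : Type*} (s : Finset α) (e : α → ℤ) (m : ℤ)
    (hle : ∀ a ∈ s, e a ≤ m) (hsum : ∑ a ∈ s, e a = m * s.card) : ∀ a ∈ s, e a = m := by
  have h0 : ∑ a ∈ s, (m - e a) = 0 := by
    rw [Finset.sum_sub_distrib, hsum, Finset.sum_const, nsmul_eq_mul]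
    ring
  have h1 := (Finset.sum_eq_zero_iff_of_nonneg (fun a ha => sub_nonneg.mpr (hle a ha))).mp h0
  intro a ha
  have := h1 a ha
  omega

/-- the zeros of `j̄ - c̄`, as a finset, with the fundamental identity and the cardinality. -/
theorem r38_fibre_jC (hℓN : ¬ ℓ ∣ N) (cb : IsLocalRing.ResidueField A) :
    ∃ s : Finset (Place (IsLocalRing.ResidueField A)
        ↥(modularFunctionFieldFullC (IsLocalRing.ResidueField A) N)),
      (∀ Q, Q ∈ s ↔ 0 < Q.ord (Fermat.Agent.RRMod.jC (IsLocalRing.ResidueField A) N -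
        algebraMap (IsLocalRing.ResidueField A) _ cb)) ∧
      ∑ Q ∈ s, Q.ord (Fermat.Agent.RRMod.jC (IsLocalRing.ResidueField A) N -
        algebraMap (IsLocalRing.ResidueField A) _ cb) =
          ((CongruenceSubgroup.Gamma0 N).index : ℤ) ∧
      s.card = Nat.card {Q : Place (IsLocalRing.ResidueField A)
        ↥(modularFunctionFieldFullC (IsLocalRing.ResidueField A) N) //
        0 < Q.ord (Fermat.Agent.RRMod.jC (IsLocalRing.ResidueField A) N -
          algebraMap (IsLocalRing.ResidueField A) _ cb)} := by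
  haveI := isAlgClosed_residue A
  haveI := Fermat.Agent.RRMod.finiteDimensional_fullC' (IsLocalRing.ResidueField A) N
  have hRR := Fermat.Agent.RRMod.isRRField_fullC' (IsLocalRing.ResidueField A) N
  have htrk := Fermat.Agent.RRMod.transcendental_jC (IsLocalRing.ResidueField A) N
  have hfin := Fermat.Agent.RR.finite_zeros hRR
    (Fermat.Agent.RRMod.jC (IsLocalRing.ResidueField A) N -
      algebraMap (IsLocalRing.ResidueField A) _ cb)
  have hmem : ∀ Q, Q ∈ hfin.toFinset ↔
      0 < Q.ord (Fermat.Agent.RRMod.jC (IsLocalRing.ResidueField A) N -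
        algebraMap (IsLocalRing.ResidueField A) _ cb) := fun Q => by
    rw [Set.Finite.mem_toFinset]
    rfl
  refine ⟨hfin.toFinset, hmem, ?_, ?_⟩
  · rw [r38_sum_ord_zeros_sub hRR htrk cb _ hmem,
      Fermat.Agent.GaussVal.finrank_fullC_of_isAlgClosed A ℓ N hℓ hA hℓN
        (Fermat.Agent.RRMod.jC (IsLocalRing.ResidueField A) N) rfl,
      ← Fermat.Agent.GaussVal.finrank_fullL_of_isAlgClosed A ℓ N hℓ hA hℓN
        (Fermat.Agent.S24.jBar N) (Fermat.Agent.S24.coe_jBar_eq_jqModC N),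
      Fermat.Agent.GoodRedBranch.finrank_jBar N]
  · rw [← Set.ncard_eq_toFinset_card _ hfin, ← Nat.card_coe_set_eq]
    rfl

/-- **no elliptic point of order `3`**: if `ν₃(N) = 0` then `ord_Q j̄ = 3` at every place over
`j̄ = 0`. -/
theorem r38_ord_jC_zero_eq_three (hℓN : ¬ ℓ ∣ N) (h2 : ℓ ≠ 2) (h3 : ℓ ≠ 3)
    (hν : nuThree N = 0)
    (Q : Place (IsLocalRing.ResidueField A)
      ↥(modularFunctionFieldFullC (IsLocalRing.ResidueField A) N))
    (hQ : 0 < Q.ord (Fermat.Agent.RRMod.jC (IsLocalRing.ResidueField A) N -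
      algebraMap (IsLocalRing.ResidueField A) _ 0)) :
    Q.ord (Fermat.Agent.RRMod.jC (IsLocalRing.ResidueField A) N -
      algebraMap (IsLocalRing.ResidueField A) _ 0) = 3 := by
  obtain ⟨s, hs, hsum, hcard⟩ := r38_fibre_jC N hℓ hA hℓN (0 : IsLocalRing.ResidueField A)
  rw [card_fibre_jC_zero N hℓ hA hℓN h2 h3] at hcard
  have h3o := Fermat.Agent.S24.three_mul_orbCount_ST N
  rw [hν, mul_zero, add_zero, ← Fermat.Agent.S24.index_Gamma0, ← hcard] at h3o
  refine r38_all_eq_of_sum s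
    (fun Q' => Q'.ord (Fermat.Agent.RRMod.jC (IsLocalRing.ResidueField A) N -
      algebraMap (IsLocalRing.ResidueField A) _ 0)) 3 (fun Q' hQ' => ?_) ?_ Q ((hs Q).mpr hQ)
  · have hpos := (hs Q').mp hQ'
    have hd := (r38_ordDvd_jC N hℓ hA hℓN h2 h3 0 Q' hpos).1 rfl
    exact Int.le_of_dvd (by norm_num) hd
  · rw [hsum, ← h3o]
    push_cast
    ring

/-- **no elliptic point of order `2`**: if `ν₂(N) = 0` then `ord_Q (j̄ - 1728) = 2` at every
place over `j̄ = 1728`. -/
theorem r38_ord_jC_1728_eq_two (hℓN : ¬ ℓ ∣ N) (h2 : ℓ ≠ 2) (h3 : ℓ ≠ 3)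
    (hν : nuTwo N = 0)
    (Q : Place (IsLocalRing.ResidueField A)
      ↥(modularFunctionFieldFullC (IsLocalRing.ResidueField A) N))
    (hQ : 0 < Q.ord (Fermat.Agent.RRMod.jC (IsLocalRing.ResidueField A) N -
      algebraMap (IsLocalRing.ResidueField A) _ 1728)) :
    Q.ord (Fermat.Agent.RRMod.jC (IsLocalRing.ResidueField A) N -
      algebraMap (IsLocalRing.ResidueField A) _ 1728) = 2 := by
  obtain ⟨s, hs, hsum, hcard⟩ := r38_fibre_jC N hℓ hA hℓN (1728 : IsLocalRing.ResidueField A)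
  rw [card_fibre_jC_1728 N hℓ hA hℓN h2 h3] at hcard
  have h2o := Fermat.Agent.S24.two_mul_orbCount_S N
  rw [hν, add_zero, ← Fermat.Agent.S24.index_Gamma0, ← hcard] at h2o
  refine r38_all_eq_of_sum s
    (fun Q' => Q'.ord (Fermat.Agent.RRMod.jC (IsLocalRing.ResidueField A) N -
      algebraMap (IsLocalRing.ResidueField A) _ 1728)) 2 (fun Q' hQ' => ?_) ?_ Q ((hs Q).mpr hQ)
  · have hpos := (hs Q').mp hQ'
    have hd := (r38_ordDvd_jC N hℓ hA hℓN h2 h3 1728 Q' hpos).2.1 rfl
    exact Int.le_of_dvd (by norm_num) hd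
  · rw [hsum, ← h2o]
    push_cast
    ring

end Modular

end Fermat.Agent.R38
end
end MergeWrap_R38_P_EpsRam

section MergeWrap_R38_P_Eps -- from R38/P/Eps.lean

set_option autoImplicit false
set_option linter.style.haveILetI false
set_option linter.unusedSectionVars false
set_option synthInstance.maxHeartbeats 400000

noncomputable section

namespace Fermat.Agent.R38

open IntermediateField ModularCurve AlgebraicCurve Fermat.Agent.AtkinLehner Fermat.Agent.Deuring
  Fermat.Agent.RR Fermat.Agent.BadRed Fermat.Agent.EKp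

local notation "Qb" => AlgebraicClosure ℚ

attribute [local instance] Fermat.Agent.BadRed.fwFintype

variable (D : ALData) [NeZero D.Q] [NeZero D.R] [NeZero (D.Q * D.R)]
  (A : ValuationSubring Qb) (hq : D.Q.Prime) (hA : A.LiesOverPrime D.Q) (hqR : ¬ D.Q ∣ D.R)
  [Fact D.Q.Prime] [CharP (IsLocalRing.ResidueField A) D.Q]
  [PerfectRing (IsLocalRing.ResidueField A) D.Q]

/-- **P-eps**: the multiplicity of a node divides `12`. -/
theorem r38_kpEps_dvd_twelve (h5 : 5 ≤ D.Q) (i : kpIota D A hq hA hqR) :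
    kpEps D A hq hA hqR i ∣ 12 := by
  classical
  have hq2 : D.Q ≠ 2 := by omega
  have hq3 : D.Q ≠ 3 := by omega
  obtain ⟨c, hc, heq⟩ := kpEps_eq_mult D A hq hA hqR h5 i
  obtain ⟨h0, h1, hgen⟩ := r38_ordDvd_jC D.R hq hA hqR hq2 hq3 c i.1 hc
  have hZ : ((kpEps D A hq hA hqR i : ℕ) : ℤ) ∣ 12 := by
    rw [heq]
    unfold ssMult
    by_cases hc0 : c = 0
    · rw [if_pos hc0]
      have := mul_dvd_mul_left (4 : ℤ) (h0 hc0)
      norm_num at this ⊢
      exact this
    · by_cases hc1 : c = 1728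
      · rw [if_neg hc0, if_pos hc1]
        have := mul_dvd_mul_left (6 : ℤ) (h1 hc1)
        norm_num at this ⊢
        exact this
      · rw [if_neg hc0, if_neg hc1, hgen hc0 hc1]
        norm_num
  exact_mod_cast hZ

/-- **P-eps**: `q ∤ ε_i` at the nodes (`q ≥ 5`). -/
theorem r38_not_dvd_kpEps (h5 : 5 ≤ D.Q) (i : kpIota D A hq hA hqR) :
    ¬ D.Q ∣ kpEps D A hq hA hqR i := by
  intro h
  have h12 : D.Q ∣ 12 := h.trans (r38_kpEps_dvd_twelve D A hq hA hqR h5 i)
  have h12' : (12 : ℕ) = 2 ^ 2 * 3 := by norm_num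
  rw [h12'] at h12
  rcases (Nat.Prime.dvd_mul hq).mp h12 with h2 | h3
  · have := (Nat.prime_dvd_prime_iff_eq hq Nat.prime_two).mp (hq.dvd_of_dvd_pow h2)
    omega
  · have := (Nat.prime_dvd_prime_iff_eq hq Nat.prime_three).mp h3
    omega

/-- **P-eps, bonus**: if `X₀(R)` has no elliptic points (`ν₂(R) = ν₃(R) = 0`) then all the
multiplicities are `12`. -/
theorem r38_kpEps_eq_twelve (h5 : 5 ≤ D.Q) (hν₂ : nuTwo D.R = 0) (hν₃ : nuThree D.R = 0)
    (i : kpIota D A hq hA hqR) : kpEps D A hq hA hqR i = 12 := by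
  classical
  have hq2 : D.Q ≠ 2 := by omega
  have hq3 : D.Q ≠ 3 := by omega
  obtain ⟨c, hc, heq⟩ := kpEps_eq_mult D A hq hA hqR h5 i
  obtain ⟨-, -, hgen⟩ := r38_ordDvd_jC D.R hq hA hqR hq2 hq3 c i.1 hc
  have hZ : ((kpEps D A hq hA hqR i : ℕ) : ℤ) = 12 := by
    rw [heq]
    unfold ssMult
    by_cases hc0 : c = 0
    · subst hc0
      rw [if_pos rfl, r38_ord_jC_zero_eq_three D.R hq hA hqR hq2 hq3 hν₃ i.1 hc]
      norm_num
    · by_cases hc1 : c = 1728
      · subst hc1
        rw [if_neg hc0, if_pos rfl, r38_ord_jC_1728_eq_two D.R hq hA hqR hq2 hq3 hν₂ i.1 hc]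
        norm_num
      · rw [if_neg hc0, if_neg hc1, hgen hc0 hc1]
        norm_num
  exact_mod_cast hZ

/-- **P-eps, in the form `SpPEps` of the wiring** (helper16): at a zero `Q` of `ū`, the prime
`q` does not divide `ord_Q ū`. -/
theorem r38_not_dvd_ord_red_u (h5 : 5 ≤ D.Q)
    (Q : Place (IsLocalRing.ResidueField A)
      (modularFunctionFieldFullC (IsLocalRing.ResidueField A) D.R))
    (hQ : 0 < Q.ord ((kpS D A hq hA hqR).red (fwU D))) :
    ¬ ((D.Q : ℤ) ∣ Q.ord ((kpS D A hq hA hqR).red (fwU D))) := by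
  intro h
  apply r38_not_dvd_kpEps D A hq hA hqR h5 ⟨Q, hQ⟩
  have hc := kpEps_cast D A hq hA hqR ⟨Q, hQ⟩
  rw [← hc] at h
  exact_mod_cast h

/-- at a zero `Q` of `ū`: `ord_Q ū ∣ 12`. -/
theorem r38_ord_red_u_dvd_twelve (h5 : 5 ≤ D.Q)
    (Q : Place (IsLocalRing.ResidueField A)
      (modularFunctionFieldFullC (IsLocalRing.ResidueField A) D.R))
    (hQ : 0 < Q.ord ((kpS D A hq hA hqR).red (fwU D))) :
    Q.ord ((kpS D A hq hA hqR).red (fwU D)) ∣ 12 := by
  have h := r38_kpEps_dvd_twelve D A hq hA hqR h5 ⟨Q, hQ⟩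
  have hc := kpEps_cast D A hq hA hqR ⟨Q, hQ⟩
  rw [← hc]
  exact_mod_cast h

end Fermat.Agent.R38
end
end MergeWrap_R38_P_Eps
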